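import Mathlib
import Fermat.Agent.LT.H556.A0
import Fermat.Agent.LT.T1.Spec
import Fermat.Agent.LT.T5.Spec
import Fermat.Agent.LT.T7.Level2

/-!
# Row LT, tower T7, node T7.L2.1 `SupplyC`, sub-station PROJ (sub-architect helper193)

OFF-MAIN.  Definitions, frozen leaf Props, PROVED top.  No `sorry`, nothing assumed.
Vocabulary: A0, `T1/Spec.lean`, `T5/Spec.lean` v4, `T7/Level2.lean` (sha256 15516646, helper797),
byte-identical copies.

## What is proved here (modulo the leaves)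

    exists_proj193 : T1.T1Out K → ProjLeaves K →
      ∀ (R : Frame5 K), IsFrame5 R → ∀ 𝔑 𝔑₀, 𝔑 ≠ ⊥ → 𝔑 ≤ 𝔑₀ → ∀ l o ψ,
        T5.IsCuspFn 𝔑 T5.trivType R.r ψ →
        ∃ ψ₁, IsWFn 𝔑₀ R.r l o ψ₁ ∧
          ∀ χ, IsWFn 𝔑₀ R.r l o χ → T5.innerD R.μ R.F (fun x => ψ x - ψ₁ x) χ = 0

= the fields `proj_up` (`𝔑 = 𝔑_g`, `𝔑₀`, `l = ℓ`, `o`) and `proj_down` (`𝔑 = 𝔑₀ = 𝔫 g`, `l = 1`,
`o = fun _ => u`) of `T7.IsL2Data`, for ANY construction of the data (the two fields do not depend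
on the test functions).

## The projection

`ψ₁ = P_∞ P_f ψ`:
* `P_f` = the average of the right translates over a system `Rep` of representatives of
  `H / U(𝔑)`, `H = I_o · U(𝔑₀)` (`I_o` = the elements supported on the orbit which are Iwahori
  there; `U(𝔑₀)` is normal in `GL₂(Ô)`, so `H` is a group; `U(𝔑)` has finite index) -- `finAvg`;
* `P_∞` = the mean of the right translates by the positive scalars `a(t)`,
  `t ∈ ℝ^{places at ∞}`, over a fundamental parallelepiped `D` of the lattice of periods generated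
  by `log r` and the `(log |ε|_w)_w`, `ε ∈ 𝒪_Kˣ`, `ε ≡ 1 mod 𝔑₀` (Dirichlet's unit theorem: full
  rank) -- `torAvg`.
Orthogonality: `∫_F Φ(x h) dx = ∫_F Φ(x) dx` for every `Φ` which is left `GL₂(K)`-invariant and
right `r`-invariant (`F h` is again a fundamental domain for `GL₂(K) × ⟨r⟩`) -- `TranslInvC`.
-/

set_option autoImplicit false

open IsDedekindDomain NumberField MeasureTheory
open scoped ComplexConjugate

noncomputable section

namespace Fermat.Agent.LT.T7.H193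

open Fermat.Agent.LT.H556 Fermat.Agent.LT.H556.A0 Fermat.Agent.LT

attribute [local instance] Fermat.Agent.LT.T5.instMeasurableSpaceG

/-! ## 1. Vocabulary -/

section Vocab

variable {K : Type} [Field K] [NumberField K]

/-- An element supported on the orbit `o 0, …, o (l-1)` which is Iwahori there
(the elements of `T7.IsIwInv`). -/
def IsIwElt (l : ℕ) (o : ℕ → HeightOneSpectrum (𝓞 K)) (h : G K) : Prop :=
  (∀ w : InfinitePlace K, TrivAtInf w h) ∧
    (∀ v : HeightOneSpectrum (𝓞 K), (∀ j < l, v ≠ o j) → TrivAtFin v h) ∧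
    ∀ j < l, T5.InIwahori (o j) h

theorem isIwInv_iff {l : ℕ} {o : ℕ → HeightOneSpectrum (𝓞 K)} {ψ : G K → ℂ} :
    IsIwInv l o ψ ↔ ∀ h : G K, IsIwElt l o h → ∀ x : G K, ψ (x * h) = ψ x :=
  ⟨fun H h hh x => H h hh.1 hh.2.1 hh.2.2 x, fun H h h1 h2 h3 x => H h ⟨h1, h2, h3⟩ x⟩

/-- The average of the right translates over the finite set `Rep`. -/
def finAvg (Rep : Finset (G K)) (ψ : G K → ℂ) : G K → ℂ :=
  fun g => ((Rep.card : ℂ))⁻¹ * ∑ h ∈ Rep, ψ (g * h)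

/-- The mean of the right translates by `a t`, `t ∈ D`. -/
def torAvg (a : (InfinitePlace K → ℝ) → G K) (D : Set (InfinitePlace K → ℝ)) (ψ : G K → ℂ) :
    G K → ℂ :=
  fun g => (((volume D).toReal : ℝ) : ℂ)⁻¹ * ∫ t in D, ψ (g * a t)

/-- `Rep` is a system of representatives of `H / U(𝔑)`, `H = I_o · U(𝔑₀)`, in the form in which
it is used: every member is a product (Iwahori on the orbit) · (element of `U(𝔑₀)`), and left
multiplication by an element of `U(𝔑₀)` or by an Iwahori element of the orbit permutes the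
classes (so it does not change the sum of a right `U(𝔑)`-invariant function over `Rep`). -/
structure IsFinData (𝔑 𝔑₀ : Ideal (𝓞 K)) (l : ℕ) (o : ℕ → HeightOneSpectrum (𝓞 K))
    (Rep : Finset (G K)) : Prop where
  nonempty : Rep.Nonempty
  mem : ∀ h ∈ Rep, ∃ i u : G K, IsIwElt l o i ∧ InLevelGroup 𝔑₀ u ∧ h = i * u
  perm_level : ∀ e : G K → ℂ, (∀ u : G K, InLevelGroup 𝔑 u → ∀ g : G K, e (g * u) = e g) →
    ∀ h₀ : G K, InLevelGroup 𝔑₀ h₀ →
      ∀ g : G K, ∑ h ∈ Rep, e (g * h₀ * h) = ∑ h ∈ Rep, e (g * h)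
  perm_iw : ∀ e : G K → ℂ, (∀ u : G K, InLevelGroup 𝔑 u → ∀ g : G K, e (g * u) = e g) →
    ∀ h₀ : G K, IsIwElt l o h₀ →
      ∀ g : G K, ∑ h ∈ Rep, e (g * h₀ * h) = ∑ h ∈ Rep, e (g * h)

/-- The data of the archimedean mean for the level `𝔑` and the ray generator `r`: the positive
scalars `a t` (`exp (t w)` at the infinite place `w`, `1` at the finite places), a bounded
measurable set `D` of positive volume, and the invariance of the mean over `D` of every continuous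
automorphic function of level `𝔑` under all translations of the parameter. -/
structure IsTorusData (𝔑 : Ideal (𝓞 K)) (r : G K) (a : (InfinitePlace K → ℝ) → G K)
    (D : Set (InfinitePlace K → ℝ)) : Prop where
  cont : Continuous a
  mul : ∀ s t : InfinitePlace K → ℝ, a (s + t) = a s * a t
  inf : ∀ (t : InfinitePlace K → ℝ) (w : InfinitePlace K),
    infComp w (a t) = Matrix.diagonal fun _ => ((Real.exp (t w) : ℝ) : ℂ)
  fin : ∀ (t : InfinitePlace K → ℝ) (v : HeightOneSpectrum (𝓞 K)), TrivAtFin v (a t)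
  central : ∀ (t : InfinitePlace K → ℝ) (g : G K), a t * g = g * a t
  meas : MeasurableSet D
  bdd : Bornology.IsBounded D
  pos : 0 < volume D
  mean : ∀ e : G K → ℂ, T5.IsAutomorphicFn 𝔑 T5.trivType r e → Continuous e →
    ∀ (g : G K) (s : InfinitePlace K → ℝ),
      ∫ t in D, e (g * a (t + s)) = ∫ t in D, e (g * a t)

end Vocab

/-! ## 2. The leaves -/

section Leaves

variable (K : Type) [Field K] [NumberField K]

/-- **LEAF PROJ.1 = TRANSL-INV.**  The integral over the fundamental domain of a function which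
is left `GL₂(K)`-invariant and right `r`-invariant does not change under a right translation.
Proof: `F` is a fundamental domain for the action `(γ, n) • z = γ rⁿ z` of `GL₂(K) × ℤ`
(asset helper599, `LT/T5/H599/Diag.lean`: `isFundamentalDomain599`, needs `T1.AdNormC`); so is
`F h` (right translation commutes with the action and preserves `μ`: `IsFrame.right_inv`);
`IsFundamentalDomain.setIntegral_eq` (no integrability needed) and the change of variables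
`x ↦ x h`.  NO hypothesis on `Φ` besides the two invariances. -/
def TranslInvC : Prop :=
  T1.AdNormC K → ∀ R : Frame5 K, IsFrame5 R → ∀ Φ : G K → ℂ,
    (∀ (γ : GL (Fin 2) K) (x : G K), Φ (T5.ratG γ * x) = Φ x) →
    (∀ x : G K, Φ (x * R.r) = Φ x) →
    ∀ h : G K, ∫ x in R.F, Φ (x * h) ∂(R.μ) = ∫ x in R.F, Φ x ∂(R.μ)

/-- **LEAF PROJ.2a = H-GROUP.**  `H = I_o · U(𝔑₀)` is a group: `U(𝔑₀)` is normalised by the
elements which are integral with integral inverse at every finite place and trivial at infinity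
(`h⁻¹ u h - 1 = h⁻¹ (u - 1) h`), and `I_o`, `U(𝔑₀)` are groups. -/
def HGroupC : Prop :=
  ∀ (𝔑₀ : Ideal (𝓞 K)) (l : ℕ) (o : ℕ → HeightOneSpectrum (𝓞 K)),
    (∀ i i' : G K, IsIwElt l o i → IsIwElt l o i' → IsIwElt l o (i * i')) ∧
    (∀ i : G K, IsIwElt l o i → IsIwElt l o i⁻¹) ∧
    (∀ u u' : G K, InLevelGroup 𝔑₀ u → InLevelGroup 𝔑₀ u' → InLevelGroup 𝔑₀ (u * u')) ∧
    (∀ u : G K, InLevelGroup 𝔑₀ u → InLevelGroup 𝔑₀ u⁻¹) ∧
    InLevelGroup 𝔑₀ (1 : G K) ∧ IsIwElt l o (1 : G K) ∧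
    ∀ i u : G K, IsIwElt l o i → InLevelGroup 𝔑₀ u → InLevelGroup 𝔑₀ (i⁻¹ * u * i)

/-- **LEAF PROJ.2b = FIN-INDEX.**  `U(𝔑)` has finite index in `GL₂(Ô)` for `𝔑 ≠ 0`: there is a
finite set `T` such that every `h` which is trivial at infinity and integral with integral
inverse at every finite place lies in `τ U(𝔑)` for some `τ ∈ T`.
(`GL₂(Ô)` is compact and `U(𝔑)` is open in it; or: `GL₂(Ô) / U(𝔑) ↪ GL₂(𝒪 / 𝔑)`.) -/
def FinIndexC : Prop :=
  ∀ 𝔑 : Ideal (𝓞 K), 𝔑 ≠ ⊥ → ∃ T : Finset (G K), ∀ h : G K,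
    (∀ w : InfinitePlace K, TrivAtInf w h) →
    (∀ v : HeightOneSpectrum (𝓞 K), IsIntegralAt v h ∧ IsIntegralAt v h⁻¹) →
    ∃ τ ∈ T, InLevelGroup 𝔑 (τ⁻¹ * h)

/-- The finite data exist. -/
def FinDataC : Prop :=
  ∀ 𝔑 𝔑₀ : Ideal (𝓞 K), 𝔑 ≠ ⊥ → 𝔑 ≤ 𝔑₀ → ∀ (l : ℕ) (o : ℕ → HeightOneSpectrum (𝓞 K)),
    ∃ Rep : Finset (G K), IsFinData 𝔑 𝔑₀ l o Rep

/-- **LEAF PROJ.2c = FIN-DATA (assembly; group theory).**  From `HGroupC` and `FinIndexC`:
`U(𝔑) ⊆ U(𝔑₀) ⊆ H` (`𝔑 ≤ 𝔑₀`), the classes of `H / U(𝔑)` are finitely many (every element of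
`H` is integral), `Rep` = one representative IN `H` of every class; for `h₀ ∈ H` the map
`h ↦ rep (h₀ h)` is a permutation of `Rep` and `e (g h₀ h) = e (g rep(h₀ h))` for a right
`U(𝔑)`-invariant `e`. -/
def FinDataAsmC : Prop := HGroupC K → FinIndexC K → FinDataC K

/-- **LEAF PROJ.3 = FIN-AVG-CUSP.**  The finite average of a cusp function of level `𝔑` is a
cusp function of level `𝔑₀`, Iwahori-invariant along the orbit.
Continuity, bound, left invariance: clear.  Level and Iwahori: `perm_level`, `perm_iw`.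
`K_∞`: the members of `Rep` are trivial at infinity, so they commute with the elements supported
at an infinite place.  Ray: `r` is central.  Cuspidality: finite sum of right translates (the
fundamental domains of `K` in `𝔸_K` have finite measure: `T1.AddFundDomC` and
`IsAddFundamentalDomain.measure_eq`; the integrands are bounded and continuous). -/
def FinAvgCuspC : Prop :=
  T1.T1Out K → ∀ (𝔑 𝔑₀ : Ideal (𝓞 K)) (l : ℕ) (o : ℕ → HeightOneSpectrum (𝓞 K))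
    (Rep : Finset (G K)), IsFinData 𝔑 𝔑₀ l o Rep → ∀ r : G K, T5.IsRayGen r →
    ∀ ψ : G K → ℂ, T5.IsCuspFn 𝔑 T5.trivType r ψ →
      T5.IsCuspFn 𝔑₀ T5.trivType r (finAvg Rep ψ) ∧ IsIwInv l o (finAvg Rep ψ)

/-- **LEAF PROJ.4 = FIN-AVG-ORTH.**  `ψ - P_f ψ` is orthogonal to the cusp functions of level
`𝔑₀` which are Iwahori-invariant along the orbit: `χ(x h) = χ(x)` for `h ∈ Rep` (`mem`), so
`∫_F ψ(x h) conj χ(x) dx = ∫_F (ψ conj χ)(x h) dx = ∫_F ψ conj χ` (`TranslInvC`); the integrands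
are bounded and continuous and `μ F < ∞`. -/
def FinAvgOrthC : Prop :=
  T1.T1Out K → TranslInvC K → ∀ R : Frame5 K, IsFrame5 R →
    ∀ (𝔑 𝔑₀ : Ideal (𝓞 K)) (l : ℕ) (o : ℕ → HeightOneSpectrum (𝓞 K)) (Rep : Finset (G K)),
    IsFinData 𝔑 𝔑₀ l o Rep →
    ∀ ψ : G K → ℂ, T5.IsCuspFn 𝔑 T5.trivType R.r ψ →
    ∀ χ : G K → ℂ, T5.IsCuspFn 𝔑₀ T5.trivType R.r χ → IsIwInv l o χ →
      T5.innerD R.μ R.F (fun x => ψ x - finAvg Rep ψ x) χ = 0

/-- **LEAF PROJ.5 = POS-SCAL.**  The positive scalars at infinity: a continuous homomorphism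
`a : ℝ^{places at ∞} → GL₂(𝔸_K)` into the centre with `a(t)_w = exp (t w)`, `a(t)_v = 1`. -/
def PosScalC : Prop :=
  ∃ a : (InfinitePlace K → ℝ) → G K, Continuous a ∧
    (∀ s t : InfinitePlace K → ℝ, a (s + t) = a s * a t) ∧
    (∀ (t : InfinitePlace K → ℝ) (w : InfinitePlace K),
      infComp w (a t) = Matrix.diagonal fun _ => ((Real.exp (t w) : ℝ) : ℂ)) ∧
    (∀ (t : InfinitePlace K → ℝ) (v : HeightOneSpectrum (𝓞 K)), TrivAtFin v (a t)) ∧
    ∀ (t : InfinitePlace K → ℝ) (g : G K), a t * g = g * a t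

/-- **LEAF PROJ.6 = UNIT-INV.**  An automorphic function of level `𝔑` (trivial `K_∞`-type) is
right invariant under `|ε|_∞` for every unit `ε ≡ 1 mod 𝔑`:
`e(g) = e(ε g) = e(g ε) = e(g · |ε|_∞ · (ε / |ε|)_∞ · ε_f)`, `ε_f ∈ U(𝔑)`
(`ε⁻¹ - 1 = -ε⁻¹ (ε - 1) ∈ 𝔑`), `(ε / |ε|)_w` a scalar of absolute value `1`: in `U(2)` at a
complex place, `± 1 ∈ SO(2)` at a real place. -/
def UnitInvC : Prop :=
  ∀ (𝔑 : Ideal (𝓞 K)) (r : G K) (e : G K → ℂ), T5.IsAutomorphicFn 𝔑 T5.trivType r e →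
    ∀ ε : (𝓞 K)ˣ, ((ε : 𝓞 K) - 1 ∈ 𝔑) → ∀ z : G K,
      (∀ v : HeightOneSpectrum (𝓞 K), TrivAtFin v z) →
      (∀ w : InfinitePlace K,
        infComp w z = Matrix.diagonal fun _ => ((w (((ε : 𝓞 K)) : K) : ℝ) : ℂ)) →
      ∀ g : G K, e (g * z) = e g

/-- **LEAF PROJ.7 = DIRICHLET.**  For `𝔑 ≠ 0` and `c ≠ 0` the space `ℝ^{places at ∞}` has a
basis consisting of the constant vector `c` and of vectors `(log |ε|_w)_w`, `ε` a unit
`≡ 1 mod 𝔑`.  (Dirichlet's unit theorem, Mathlib `NumberField.Units.unitLattice_span_eq_top`: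
the vectors `(mult w · log |ε|_w)_{w ≠ w₀}` span; the units `≡ 1 mod 𝔑` have finite index,
`ε^m ≡ 1` for `m = |(𝒪/𝔑)ˣ|`; the log vectors lie in the hyperplane `∑ mult w · x_w = 0`, the
constant vector does not.) -/
def DirichletC : Prop :=
  ∀ 𝔑 : Ideal (𝓞 K), 𝔑 ≠ ⊥ → ∀ c : ℝ, c ≠ 0 →
    ∃ b : Module.Basis (InfinitePlace K) ℝ (InfinitePlace K → ℝ),
      ∀ i : InfinitePlace K, (b i = fun _ => c) ∨
        ∃ ε : (𝓞 K)ˣ, ((ε : 𝓞 K) - 1 ∈ 𝔑) ∧
          b i = fun w => Real.log (w (((ε : 𝓞 K)) : K))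

/-- **LEAF PROJ.8 = TORUS-MEAN (Mathlib only).**  For a basis `b` of `ℝ^ι` there is a bounded
measurable set `D` of positive volume (`ZSpan.fundamentalDomain b`) such that the integral over
`D` of every function with the periods `b i` is invariant under translation.
(`ZSpan.isAddFundamentalDomain`, `IsAddFundamentalDomain.setIntegral_eq`; no hypothesis on `f`
besides the periodicity.) -/
def TorusMeanC : Prop :=
  ∀ (ι : Type) [Fintype ι] (b : Module.Basis ι ℝ (ι → ℝ)),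
    ∃ D : Set (ι → ℝ), MeasurableSet D ∧ Bornology.IsBounded D ∧ 0 < volume D ∧
      ∀ f : (ι → ℝ) → ℂ, (∀ (i : ι) (t : ι → ℝ), f (t + b i) = f t) →
        ∀ s : ι → ℝ, ∫ t in D, f (t + s) = ∫ t in D, f t

/-- The archimedean data exist. -/
def TorusDataC : Prop :=
  ∀ 𝔑 : Ideal (𝓞 K), 𝔑 ≠ ⊥ → ∀ r : G K, T5.IsRayGen r →
    ∃ (a : (InfinitePlace K → ℝ) → G K) (D : Set (InfinitePlace K → ℝ)), IsTorusData 𝔑 r a D

/-- **LEAF PROJ.9 = TORUS-DATA (assembly).**  `a` from `PosScalC`; `r = a (fun _ => log t₀)`,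
`t₀^{2n} = 2`, so `c = log t₀ ≠ 0`; `b` from `DirichletC 𝔑 c`, `D` from `TorusMeanC b`;
`f(t) = e(g a(t))` has the periods `b i`: `a (b i) = r` (`IsAutomorphicFn.ray`) or
`a (b i) = |ε|_∞` (`UnitInvC`).  (An element of `GL₂(𝔸_K)` is determined by its components.) -/
def TorusDataAsmC : Prop :=
  PosScalC K → UnitInvC K → DirichletC K → TorusMeanC → TorusDataC K

/-- **LEAF PROJ.10 = TOR-AVG-W.**  The archimedean mean of a cusp function of level `𝔑₀` which is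
Iwahori-invariant along the orbit is an invariant cusp function (`T7.IsWFn`).
Continuity: dominated convergence (bounded integrand, `vol D < ∞`; `GL₂(𝔸_K)` is second
countable: `T1.LocCompC`).  Invariances: `a t` is central.  Positive scalars at `w`:
`z = a (Pi.single w (log ρ))` and `mean`.  Cuspidality: Fubini on `D' × D` (`D'` a fundamental
domain of `K` in `𝔸_K`, of finite measure: `T1.AddFundDomC`). -/
def TorAvgWC : Prop :=
  T1.T1Out K → ∀ (𝔑₀ : Ideal (𝓞 K)) (r : G K) (a : (InfinitePlace K → ℝ) → G K)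
    (D : Set (InfinitePlace K → ℝ)), T5.IsRayGen r → IsTorusData 𝔑₀ r a D →
    ∀ (l : ℕ) (o : ℕ → HeightOneSpectrum (𝓞 K)) (ψ : G K → ℂ),
      T5.IsCuspFn 𝔑₀ T5.trivType r ψ → IsIwInv l o ψ → IsWFn 𝔑₀ r l o (torAvg a D ψ)

/-- **LEAF PROJ.11 = TOR-AVG-ORTH.**  `ψ - P_∞ ψ` is orthogonal to the invariant cusp functions:
Fubini on `F × D` (bounded continuous integrand, finite measures), `χ(x a(t)) = χ(x)`
(`a t` is the product over `w` of the positive scalars `a (Pi.single w (t w))` at `w`), and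
`TranslInvC` for `Φ = ψ conj χ`, `h = a t`. -/
def TorAvgOrthC : Prop :=
  T1.T1Out K → TranslInvC K → ∀ R : Frame5 K, IsFrame5 R →
    ∀ (𝔑₀ : Ideal (𝓞 K)) (a : (InfinitePlace K → ℝ) → G K) (D : Set (InfinitePlace K → ℝ)),
    IsTorusData 𝔑₀ R.r a D →
    ∀ (l : ℕ) (o : ℕ → HeightOneSpectrum (𝓞 K)) (ψ : G K → ℂ),
      T5.IsCuspFn 𝔑₀ T5.trivType R.r ψ →
      ∀ χ : G K → ℂ, IsWFn 𝔑₀ R.r l o χ →
        T5.innerD R.μ R.F (fun x => ψ x - torAvg a D ψ x) χ = 0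

/-- The leaves of the sub-station PROJ. -/
structure ProjLeaves : Prop where
  translInv : TranslInvC K
  hGroup : HGroupC K
  finIndex : FinIndexC K
  finDataAsm : FinDataAsmC K
  finAvgCusp : FinAvgCuspC K
  finAvgOrth : FinAvgOrthC K
  posScal : PosScalC K
  unitInv : UnitInvC K
  dirichlet : DirichletC K
  torusMean : TorusMeanC
  torusDataAsm : TorusDataAsmC K
  torAvgW : TorAvgWC K
  torAvgOrth : TorAvgOrthC K

end Leaves

/-! ## 3. The top (PROVED) -/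

section Top

variable {K : Type} [Field K] [NumberField K]

/-- The integrand of the inner product of two bounded continuous functions is integrable on a
set of finite measure. -/
theorem integrableOn_mul_conj193 {μ : Measure (G K)} {F : Set (G K)} (hF : μ F < ⊤)
    {e χ : G K → ℂ} (he : Continuous e) (hχ : Continuous χ)
    (be : ∃ C : ℝ, ∀ g : G K, ‖e g‖ ≤ C) (bχ : ∃ C : ℝ, ∀ g : G K, ‖χ g‖ ≤ C) :
    IntegrableOn (fun x => e x * conj (χ x)) F μ := by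
  obtain ⟨C, hC⟩ := be
  obtain ⟨C', hC'⟩ := bχ
  have : BorelSpace (G K) := ⟨rfl⟩
  have hcont : Continuous fun x => e x * conj (χ x) :=
    he.mul (Complex.continuous_conj.comp hχ)
  refine Measure.integrableOn_of_bounded (M := C * C') hF.ne hcont.aestronglyMeasurable ?_
  refine Filter.Eventually.of_forall fun x => ?_
  rw [norm_mul, RCLike.norm_conj]
  exact mul_le_mul (hC x) (hC' x) (norm_nonneg _) ((norm_nonneg _).trans (hC x))

/-- Additivity of the inner product in the first variable, for bounded continuous functions. -/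
theorem innerD_add193 {μ : Measure (G K)} {F : Set (G K)} (hF : μ F < ⊤)
    {e₁ e₂ χ : G K → ℂ} (h₁ : Continuous e₁) (h₂ : Continuous e₂) (hχ : Continuous χ)
    (b₁ : ∃ C : ℝ, ∀ g : G K, ‖e₁ g‖ ≤ C) (b₂ : ∃ C : ℝ, ∀ g : G K, ‖e₂ g‖ ≤ C)
    (bχ : ∃ C : ℝ, ∀ g : G K, ‖χ g‖ ≤ C) :
    T5.innerD μ F (fun x => e₁ x + e₂ x) χ = T5.innerD μ F e₁ χ + T5.innerD μ F e₂ χ := by
  unfold T5.innerD
  rw [← integral_add (integrableOn_mul_conj193 hF h₁ hχ b₁ bχ)
    (integrableOn_mul_conj193 hF h₂ hχ b₂ bχ)]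
  refine integral_congr_ae (Filter.Eventually.of_forall fun x => ?_)
  simp only [add_mul]

theorem bdd_sub193 {e₁ e₂ : G K → ℂ} (b₁ : ∃ C : ℝ, ∀ g : G K, ‖e₁ g‖ ≤ C)
    (b₂ : ∃ C : ℝ, ∀ g : G K, ‖e₂ g‖ ≤ C) : ∃ C : ℝ, ∀ g : G K, ‖e₁ g - e₂ g‖ ≤ C := by
  obtain ⟨C, hC⟩ := b₁
  obtain ⟨C', hC'⟩ := b₂
  exact ⟨C + C', fun g => (norm_sub_le _ _).trans (add_le_add (hC g) (hC' g))⟩

/-- The finite data from the leaves. -/
theorem finDataC_of193 (L : ProjLeaves K) : FinDataC K :=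
  L.finDataAsm L.hGroup L.finIndex

/-- The archimedean data from the leaves. -/
theorem torusDataC_of193 (L : ProjLeaves K) : TorusDataC K :=
  L.torusDataAsm L.posScal L.unitInv L.dirichlet L.torusMean

/-- **THE TOP OF THE SUB-STATION PROJ**: the orthogonal projection of the cusp functions of level
`𝔑` on the invariant cusp functions of level `𝔑₀`. -/
theorem exists_proj193 (hT1 : T1.T1Out K) (L : ProjLeaves K) (R : Frame5 K) (hR : IsFrame5 R)
    (𝔑 𝔑₀ : Ideal (𝓞 K)) (h𝔑 : 𝔑 ≠ ⊥) (hle : 𝔑 ≤ 𝔑₀) (l : ℕ)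
    (o : ℕ → HeightOneSpectrum (𝓞 K)) (ψ : G K → ℂ)
    (hψ : T5.IsCuspFn 𝔑 T5.trivType R.r ψ) :
    ∃ ψ₁ : G K → ℂ, IsWFn 𝔑₀ R.r l o ψ₁ ∧
      ∀ χ : G K → ℂ, IsWFn 𝔑₀ R.r l o χ →
        T5.innerD R.μ R.F (fun x => ψ x - ψ₁ x) χ = 0 := by
  have h𝔑₀ : 𝔑₀ ≠ ⊥ := fun h => h𝔑 (le_bot_iff.mp (h ▸ hle))
  obtain ⟨Rep, hRep⟩ := finDataC_of193 L 𝔑 𝔑₀ h𝔑 hle l o
  obtain ⟨a, D, hD⟩ := torusDataC_of193 L 𝔑₀ h𝔑₀ R.r hR.ray
  obtain ⟨hc, hiw⟩ := L.finAvgCusp hT1 𝔑 𝔑₀ l o Rep hRep R.r hR.ray ψ hψ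
  have hW := L.torAvgW hT1 𝔑₀ R.r a D hR.ray hD l o (finAvg Rep ψ) hc hiw
  refine ⟨torAvg a D (finAvg Rep ψ), hW, fun χ hχ => ?_⟩
  have e1 := L.finAvgOrth hT1 L.translInv R hR 𝔑 𝔑₀ l o Rep hRep ψ hψ χ hχ.cusp hχ.iw
  have e2 := L.torAvgOrth hT1 L.translInv R hR 𝔑₀ a D hD l o (finAvg Rep ψ) hc χ hχ
  have hsplit : (fun x => ψ x - torAvg a D (finAvg Rep ψ) x)
      = fun x => (ψ x - finAvg Rep ψ x) + (finAvg Rep ψ x - torAvg a D (finAvg Rep ψ) x) := by
    funext x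
    ring
  have c1 : Continuous fun x => ψ x - finAvg Rep ψ x := hψ.cont.sub hc.cont
  have c2 : Continuous fun x => finAvg Rep ψ x - torAvg a D (finAvg Rep ψ) x :=
    hc.cont.sub hW.cusp.cont
  rw [hsplit, innerD_add193 hR.frame.finite c1 c2 hχ.cusp.cont (bdd_sub193 hψ.bdd hc.bdd)
    (bdd_sub193 hc.bdd hW.cusp.bdd) hχ.cusp.bdd, e1, e2, add_zero]

/-- The field `proj_up` of `T7.IsL2Data`, in the shape of the field (for the frame `R'`, the
levels `𝔑_g ≤ 𝔑₀` and the orbit). -/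
theorem proj_field193 (hT1 : T1.T1Out K) (L : ProjLeaves K) (R : Frame5 K) (hR : IsFrame5 R)
    (𝔑 𝔑₀ : Ideal (𝓞 K)) (h𝔑 : 𝔑 ≠ ⊥) (hle : 𝔑 ≤ 𝔑₀) (l : ℕ)
    (o : ℕ → HeightOneSpectrum (𝓞 K)) :
    ∀ ψ : G K → ℂ, T5.IsCuspFn 𝔑 T5.trivType R.r ψ →
      ∃ ψ₁ : G K → ℂ, IsWFn 𝔑₀ R.r l o ψ₁ ∧
        ∀ χ : G K → ℂ, IsWFn 𝔑₀ R.r l o χ →
          T5.innerD R.μ R.F (fun x => ψ x - ψ₁ x) χ = 0 :=
  fun ψ hψ => exists_proj193 hT1 L R hR 𝔑 𝔑₀ h𝔑 hle l o ψ hψ

end Top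

end Fermat.Agent.LT.T7.H193

end
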