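import Mathlib
import Fermat.Agent.LT.H556.A0
import Fermat.Agent.LT.T1.Spec
import Fermat.Agent.LT.T5.Spec
import Fermat.Agent.LT.T7.Level2
import Fermat.Agent.LT.T7.H193.ProjSpec

/-!
# Row LT, tower T7, node T7.L2.1 `SupplyC`, sub-stations KILL and NATURAL (sub-architect helper193)

OFF-MAIN.  Definitions, frozen leaf Props, PROVED tops.  No `sorry`, nothing assumed.
On `ProjSpec.lean` (sha256 977a85e3, frozen) and the same vocabulary.

## KILL (the shape of the fields `kill_up`, `kill_down` of `T7.IsL2Data`)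

    kill193 : T1.T1Out K → ProjLeaves K → KillLeaves K → IsFrame5 R → 𝔑 ≠ ⊥ → 𝔑 ≤ 𝔑₀ →
      Continuous φ → HasCompactSupport φ → IsRightHInv 𝔑₀ l o φ → AbsorbsPos R.μ 𝔑₀ R.r φ →
      ∀ ψ, T5.IsCuspFn 𝔑 T5.trivType R.r ψ →
        (∀ χ, IsWFn 𝔑₀ R.r l o χ → T5.innerD R.μ R.F ψ χ = 0) →
        ∀ x, T5.Rconv R.μ φ ψ x = 0

A test function which is right invariant under `H = I_o · U(𝔑₀)` and absorbs the positive
scalars at infinity kills the cusp functions of level `𝔑` orthogonal to the invariant ones: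
`R(φ) ψ = R(φ) P_f ψ = R(φ) P_∞ P_f ψ`, and `P_∞ P_f ψ` is an invariant cusp function orthogonal
to all invariant cusp functions, hence `0` almost everywhere.

## NATURAL (ruling R1 of the chief: `φ ↦ φ♮`)

`nat193 a D φ (g) = vol(D)⁻¹ ∫_D φ(g a(t)⁻¹) dt`.  Leaves: `nat193` preserves test functions,
Eisenstein-killing (also of the adjoint), commutes with the convolution on either side,
`R(φ♮) e = R(φ) (P_∞ e)`, `φ♮` absorbs the positive scalars.  PROVED packaging `natural193`.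
-/

set_option autoImplicit false

open IsDedekindDomain NumberField MeasureTheory
open scoped ComplexConjugate

noncomputable section

namespace Fermat.Agent.LT.T7.H193

open Fermat.Agent.LT.H556 Fermat.Agent.LT.H556.A0 Fermat.Agent.LT

attribute [local instance] Fermat.Agent.LT.T5.instMeasurableSpaceG

/-! ## 1. Vocabulary -/

section Vocab

variable {K : Type} [Field K] [NumberField K]

/-- A positive scalar at infinity: `1` at the finite places, a positive real scalar matrix at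
every infinite place (not necessarily the same at all places). -/
def IsPosInf (z : G K) : Prop :=
  (∀ v : HeightOneSpectrum (𝓞 K), TrivAtFin v z) ∧
    ∀ w : InfinitePlace K, ∃ ρ : ℝ, 0 < ρ ∧ infComp w z = Matrix.diagonal fun _ => (ρ : ℂ)

/-- `φ` is right invariant under `H = I_o · U(𝔑₀)`. -/
def IsRightHInv (𝔑₀ : Ideal (𝓞 K)) (l : ℕ) (o : ℕ → HeightOneSpectrum (𝓞 K))
    (φ : G K → ℂ) : Prop :=
  (∀ u : G K, InLevelGroup 𝔑₀ u → ∀ y : G K, φ (y * u) = φ y) ∧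
    ∀ i : G K, IsIwElt l o i → ∀ y : G K, φ (y * i) = φ y

/-- `R(φ)` absorbs the positive scalars at infinity on the cusp functions of level `𝔑₀`:
`R(φ) (e(· z)) = R(φ) e`. -/
def AbsorbsPos (μ : Measure (G K)) (𝔑₀ : Ideal (𝓞 K)) (r : G K) (φ : G K → ℂ) : Prop :=
  ∀ z : G K, IsPosInf z → ∀ e : G K → ℂ, T5.IsCuspFn 𝔑₀ T5.trivType r e →
    ∀ x : G K, T5.Rconv μ φ (fun y => e (y * z)) x = T5.Rconv μ φ e x

/-- `φ♮ (g) = vol(D)⁻¹ ∫_D φ(g a(t)⁻¹) dt`. -/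
def nat193 (a : (InfinitePlace K → ℝ) → G K) (D : Set (InfinitePlace K → ℝ)) (φ : G K → ℂ) :
    G K → ℂ :=
  fun g => (((volume D).toReal : ℝ) : ℂ)⁻¹ * ∫ t in D, φ (g * (a t)⁻¹)

end Vocab

/-! ## 2. The leaves of KILL -/

section KillLeaves

variable (K : Type) [Field K] [NumberField K]

/-- **LEAF KILL.1 = RCONV-FIN-AVG.**  `R(φ) (P_f e) = R(φ) e` for `φ` right invariant under `H`:
`∫ φ(y) e(x y h) dy = ∫ φ(y h⁻¹) e(x y) dy = ∫ φ(y) e(x y) dy` (`IsFrame.right_inv`,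
`h = i u ∈ Rep`), linearity (the integrands are continuous of compact support). -/
def RconvFinAvgC : Prop :=
  T1.T1Out K → ∀ R : Frame5 K, IsFrame5 R →
    ∀ (𝔑 𝔑₀ : Ideal (𝓞 K)) (l : ℕ) (o : ℕ → HeightOneSpectrum (𝓞 K)) (Rep : Finset (G K)),
    IsFinData 𝔑 𝔑₀ l o Rep →
    ∀ φ : G K → ℂ, Continuous φ → HasCompactSupport φ → IsRightHInv 𝔑₀ l o φ →
    ∀ e : G K → ℂ, Continuous e →
      ∀ x : G K, T5.Rconv R.μ φ (finAvg Rep e) x = T5.Rconv R.μ φ e x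

/-- **LEAF KILL.2 = RCONV-TOR-AVG.**  `R(φ) (P_∞ e) = R(φ) e` for `φ` absorbing the positive
scalars: Fubini on `G × D` (`φ` continuous of compact support, `e` bounded continuous, `D` bounded)
and `AbsorbsPos` for `z = a t`. -/
def RconvTorAvgC : Prop :=
  T1.T1Out K → ∀ R : Frame5 K, IsFrame5 R →
    ∀ (𝔑₀ : Ideal (𝓞 K)) (a : (InfinitePlace K → ℝ) → G K) (D : Set (InfinitePlace K → ℝ)),
    IsTorusData 𝔑₀ R.r a D →
    ∀ φ : G K → ℂ, Continuous φ → HasCompactSupport φ → AbsorbsPos R.μ 𝔑₀ R.r φ →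
    ∀ e : G K → ℂ, T5.IsCuspFn 𝔑₀ T5.trivType R.r e →
      ∀ x : G K, T5.Rconv R.μ φ (torAvg a D e) x = T5.Rconv R.μ φ e x

/-- **LEAF KILL.3 = NULL.**  A bounded continuous function, left `GL₂(K)`-invariant and right
`r`-invariant, of norm `0` on the fundamental domain vanishes almost everywhere on `GL₂(𝔸_K)`
(the translates `γ rⁿ F` cover: asset helper599 `isFundamentalDomain599`), so `R(φ) e = 0` for
every `φ` (left translations preserve the null sets). -/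
def NullC : Prop :=
  T1.T1Out K → ∀ R : Frame5 K, IsFrame5 R → ∀ e : G K → ℂ, Continuous e →
    (∃ C : ℝ, ∀ g : G K, ‖e g‖ ≤ C) →
    (∀ (γ : GL (Fin 2) K) (x : G K), e (T5.ratG γ * x) = e x) →
    (∀ x : G K, e (x * R.r) = e x) →
    T5.innerD R.μ R.F e e = 0 →
    ∀ (φ : G K → ℂ) (x : G K), T5.Rconv R.μ φ e x = 0

/-- The leaves of the sub-station KILL. -/
structure KillLeaves : Prop where
  rconvFinAvg : RconvFinAvgC K
  rconvTorAvg : RconvTorAvgC K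
  null : NullC K

end KillLeaves

/-! ## 3. The leaves of NATURAL -/

section NatLeaves

variable (K : Type) [Field K] [NumberField K]

/-- **LEAF NAT.1 = NAT-BASIC.**  `φ♮` is continuous (dominated convergence), of compact support
(`supp φ♮ ⊆ supp φ · a(closure D)`), bi-invariant (`a t` is central). -/
def NatBasicC : Prop :=
  T1.T1Out K → ∀ (𝔑 : Ideal (𝓞 K)) (r : G K) (a : (InfinitePlace K → ℝ) → G K)
    (D : Set (InfinitePlace K → ℝ)), IsTorusData 𝔑 r a D →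
    ∀ (𝔫 : Ideal (𝓞 K)) (φ : G K → ℂ), T5.IsTestFn 𝔫 T5.trivType φ →
      Continuous (nat193 a D φ) ∧ HasCompactSupport (nat193 a D φ) ∧
        T5.IsBiInvariant 𝔫 T5.trivType (nat193 a D φ)

/-- **LEAF NAT.2 = NAT-SMOOTH.**  `φ♮` is smooth at infinity: for a smooth family `h`,
`φ♮(g h(t)) = vol(D)⁻¹ ∫_D φ(g H(t, s)) ds` with the smooth family `H(t, s) = h(t) a(s)⁻¹` in
`n + #{places at ∞}` parameters; `(t, s) ↦ φ(g H(t, s))` is `C^∞` (`IsSmoothAtInf φ`) and the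
integral over the bounded set `D` of a jointly `C^∞` function is `C^∞` in the parameter
(asset: helper984 `LT/T3/H984/ParamInt.lean`). -/
def NatSmoothC : Prop :=
  T1.T1Out K → ∀ (𝔑 : Ideal (𝓞 K)) (r : G K) (a : (InfinitePlace K → ℝ) → G K)
    (D : Set (InfinitePlace K → ℝ)), IsTorusData 𝔑 r a D →
    ∀ φ : G K → ℂ, Continuous φ → HasCompactSupport φ → T5.IsSmoothAtInf φ →
      T5.IsSmoothAtInf (nat193 a D φ)

/-- **LEAF NAT.3 = NAT-OP.**  `R(φ♮) e = R(φ) (P_∞ e)` for every continuous `e`: Fubini on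
`G × D` and the right invariance of `μ` (`y ↦ y a(t)`). -/
def NatOpC : Prop :=
  T1.T1Out K → ∀ R : Frame5 K, IsFrame5 R →
    ∀ (𝔑 : Ideal (𝓞 K)) (r : G K) (a : (InfinitePlace K → ℝ) → G K)
      (D : Set (InfinitePlace K → ℝ)), IsTorusData 𝔑 r a D →
    ∀ φ : G K → ℂ, Continuous φ → HasCompactSupport φ →
    ∀ e : G K → ℂ, Continuous e →
      ∀ x : G K, T5.Rconv R.μ (nat193 a D φ) e x = T5.Rconv R.μ φ (torAvg a D e) x

/-- **LEAF NAT.4 = NAT-EK.**  `φ♮` is Eisenstein-killing if `φ` is: by `NatOpC`,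
`R(φ♮) Ψ = R(φ) (P_∞ Ψ)`, and `P_∞ Ψ` is Borel-invariant (continuous: dominated convergence on
compact sets; left invariances: clear; ray: `a t` is central). -/
def NatEKC : Prop :=
  T1.T1Out K → NatOpC K → ∀ R : Frame5 K, IsFrame5 R →
    ∀ (𝔑 : Ideal (𝓞 K)) (r : G K) (a : (InfinitePlace K → ℝ) → G K)
      (D : Set (InfinitePlace K → ℝ)), IsTorusData 𝔑 r a D →
    ∀ φ : G K → ℂ, Continuous φ → HasCompactSupport φ → T5.IsEK R.μ φ →
      T5.IsEK R.μ (nat193 a D φ)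

/-- **LEAF NAT.5 = NAT-ADJ-EK.**  The adjoint of `φ♮` is Eisenstein-killing if the adjoint of
`φ` is: `(φ♮)* (g) = vol(D)⁻¹ ∫_D φ*(g a(t)) dt`, so
`R((φ♮)*) Ψ (x) = vol(D)⁻¹ ∫_D R(φ*) (Ψ(· a(t)⁻¹)) (x) dt = 0` (Fubini, right invariance of `μ`;
`Ψ(· a(t)⁻¹)` is Borel-invariant). -/
def NatAdjEKC : Prop :=
  T1.T1Out K → ∀ R : Frame5 K, IsFrame5 R →
    ∀ (𝔑 : Ideal (𝓞 K)) (r : G K) (a : (InfinitePlace K → ℝ) → G K)
      (D : Set (InfinitePlace K → ℝ)), IsTorusData 𝔑 r a D →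
    ∀ φ : G K → ℂ, Continuous φ → HasCompactSupport φ → T5.IsEK R.μ (T5.adjointFn φ) →
      T5.IsEK R.μ (T5.adjointFn (nat193 a D φ))

/-- **LEAF NAT.6 = NAT-CONV.**  `♮` commutes with the convolution on either side:
`φ₁♮ ⋆ φ₂ = (φ₁ ⋆ φ₂)♮ = φ₁ ⋆ φ₂♮` (Fubini, `a t` central, right invariance of `μ`). -/
def NatConvC : Prop :=
  T1.T1Out K → ∀ R : Frame5 K, IsFrame5 R →
    ∀ (𝔑 : Ideal (𝓞 K)) (r : G K) (a : (InfinitePlace K → ℝ) → G K)
      (D : Set (InfinitePlace K → ℝ)), IsTorusData 𝔑 r a D →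
    ∀ φ₁ φ₂ : G K → ℂ, Continuous φ₁ → HasCompactSupport φ₁ → Continuous φ₂ →
      HasCompactSupport φ₂ →
      (∀ g : G K, T5.conv R.μ (nat193 a D φ₁) φ₂ g = nat193 a D (T5.conv R.μ φ₁ φ₂) g) ∧
      ∀ g : G K, T5.conv R.μ φ₁ (nat193 a D φ₂) g = nat193 a D (T5.conv R.μ φ₁ φ₂) g

/-- **LEAF NAT.7 = NAT-ABSORB.**  `φ♮` absorbs the positive scalars on the cusp functions of the
level of the torus data: by `NatOpC`, `R(φ♮) (e(· z)) = R(φ) (P_∞ (e(· z)))`, `z = a s`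
(an element of `GL₂(𝔸_K)` is determined by its components), and
`P_∞ (e(· a s)) = P_∞ e` (`IsTorusData.mean`). -/
def NatAbsorbC : Prop :=
  T1.T1Out K → NatOpC K → ∀ R : Frame5 K, IsFrame5 R →
    ∀ (𝔑 : Ideal (𝓞 K)) (a : (InfinitePlace K → ℝ) → G K) (D : Set (InfinitePlace K → ℝ)),
    IsTorusData 𝔑 R.r a D →
    ∀ φ : G K → ℂ, Continuous φ → HasCompactSupport φ →
      AbsorbsPos R.μ 𝔑 R.r (nat193 a D φ)

/-- **LEAF NAT.8 = TOR-AVG-FIX.**  `P_∞ e = e` for a function which is right invariant under the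
positive scalars at every infinite place (`a t` is the product over `w` of the positive scalars
`a (Pi.single w (t w))` at `w`; `0 < vol D < ∞`). -/
def TorAvgFixC : Prop :=
  ∀ (𝔑 : Ideal (𝓞 K)) (r : G K) (a : (InfinitePlace K → ℝ) → G K)
    (D : Set (InfinitePlace K → ℝ)), IsTorusData 𝔑 r a D →
    ∀ e : G K → ℂ, (∀ (w : InfinitePlace K) (z : G K), IsArchPosScalar w z →
      ∀ g : G K, e (g * z) = e g) →
    ∀ g : G K, torAvg a D e g = e g

/-- **LEAF NAT.9 = NAT-H-INV.**  `φ♮` is right invariant under `H` if `φ` is (`a t` central). -/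
def NatHInvC : Prop :=
  ∀ (𝔑 : Ideal (𝓞 K)) (r : G K) (a : (InfinitePlace K → ℝ) → G K)
    (D : Set (InfinitePlace K → ℝ)), IsTorusData 𝔑 r a D →
    ∀ (𝔑₀ : Ideal (𝓞 K)) (l : ℕ) (o : ℕ → HeightOneSpectrum (𝓞 K)) (φ : G K → ℂ),
      IsRightHInv 𝔑₀ l o φ → IsRightHInv 𝔑₀ l o (nat193 a D φ)

/-- The leaves of the sub-station NATURAL. -/
structure NatLeaves : Prop where
  basic : NatBasicC K
  smooth : NatSmoothC K
  op : NatOpC K
  ek : NatEKC K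
  adjEK : NatAdjEKC K
  conv : NatConvC K
  absorb : NatAbsorbC K
  fix : TorAvgFixC K
  hInv : NatHInvC K

end NatLeaves

/-! ## 4. The tops (PROVED) -/

section Tops

variable {K : Type} [Field K] [NumberField K]

theorem isPosInf_of_torusData193 {𝔑 : Ideal (𝓞 K)} {r : G K}
    {a : (InfinitePlace K → ℝ) → G K} {D : Set (InfinitePlace K → ℝ)}
    (hD : IsTorusData 𝔑 r a D) (t : InfinitePlace K → ℝ) : IsPosInf (a t) :=
  ⟨fun v => hD.fin t v, fun w => ⟨Real.exp (t w), Real.exp_pos _, hD.inf t w⟩⟩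

/-- Subtractivity of the inner product in the first variable, for bounded continuous
functions. -/
theorem innerD_sub193 {μ : Measure (G K)} {F : Set (G K)} (hF : μ F < ⊤)
    {e₁ e₂ χ : G K → ℂ} (h₁ : Continuous e₁) (h₂ : Continuous e₂) (hχ : Continuous χ)
    (b₁ : ∃ C : ℝ, ∀ g : G K, ‖e₁ g‖ ≤ C) (b₂ : ∃ C : ℝ, ∀ g : G K, ‖e₂ g‖ ≤ C)
    (bχ : ∃ C : ℝ, ∀ g : G K, ‖χ g‖ ≤ C) :
    T5.innerD μ F (fun x => e₁ x - e₂ x) χ = T5.innerD μ F e₁ χ - T5.innerD μ F e₂ χ := by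
  unfold T5.innerD
  rw [← integral_sub (integrableOn_mul_conj193 hF h₁ hχ b₁ bχ)
    (integrableOn_mul_conj193 hF h₂ hχ b₂ bχ)]
  refine integral_congr_ae (Filter.Eventually.of_forall fun x => ?_)
  simp only [sub_mul]

/-- **THE TOP OF THE SUB-STATION KILL.** -/
theorem kill193 (hT1 : T1.T1Out K) (L : ProjLeaves K) (LK : KillLeaves K) (R : Frame5 K)
    (hR : IsFrame5 R) (𝔑 𝔑₀ : Ideal (𝓞 K)) (h𝔑 : 𝔑 ≠ ⊥) (hle : 𝔑 ≤ 𝔑₀) (l : ℕ)
    (o : ℕ → HeightOneSpectrum (𝓞 K)) (φ : G K → ℂ) (hφc : Continuous φ)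
    (hφs : HasCompactSupport φ) (hH : IsRightHInv 𝔑₀ l o φ)
    (hA : AbsorbsPos R.μ 𝔑₀ R.r φ) :
    ∀ ψ : G K → ℂ, T5.IsCuspFn 𝔑 T5.trivType R.r ψ →
      (∀ χ : G K → ℂ, IsWFn 𝔑₀ R.r l o χ → T5.innerD R.μ R.F ψ χ = 0) →
      ∀ x : G K, T5.Rconv R.μ φ ψ x = 0 := by
  intro ψ hψ horth x
  have h𝔑₀ : 𝔑₀ ≠ ⊥ := fun h => h𝔑 (le_bot_iff.mp (h ▸ hle))
  obtain ⟨Rep, hRep⟩ := finDataC_of193 L 𝔑 𝔑₀ h𝔑 hle l o
  obtain ⟨a, D, hD⟩ := torusDataC_of193 L 𝔑₀ h𝔑₀ R.r hR.ray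
  obtain ⟨hc, hiw⟩ := L.finAvgCusp hT1 𝔑 𝔑₀ l o Rep hRep R.r hR.ray ψ hψ
  have hW := L.torAvgW hT1 𝔑₀ R.r a D hR.ray hD l o (finAvg Rep ψ) hc hiw
  -- the projection is orthogonal to the invariant cusp functions
  have hproj : ∀ χ : G K → ℂ, IsWFn 𝔑₀ R.r l o χ →
      T5.innerD R.μ R.F (fun x => ψ x - torAvg a D (finAvg Rep ψ) x) χ = 0 := by
    intro χ hχ
    have e1 := L.finAvgOrth hT1 L.translInv R hR 𝔑 𝔑₀ l o Rep hRep ψ hψ χ hχ.cusp hχ.iw
    have e2 := L.torAvgOrth hT1 L.translInv R hR 𝔑₀ a D hD l o (finAvg Rep ψ) hc χ hχ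
    have hsplit : (fun x => ψ x - torAvg a D (finAvg Rep ψ) x)
        = fun x => (ψ x - finAvg Rep ψ x)
          + (finAvg Rep ψ x - torAvg a D (finAvg Rep ψ) x) := by
      funext x
      ring
    have c1 : Continuous fun x => ψ x - finAvg Rep ψ x := hψ.cont.sub hc.cont
    have c2 : Continuous fun x => finAvg Rep ψ x - torAvg a D (finAvg Rep ψ) x :=
      hc.cont.sub hW.cusp.cont
    rw [hsplit, innerD_add193 hR.frame.finite c1 c2 hχ.cusp.cont (bdd_sub193 hψ.bdd hc.bdd)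
      (bdd_sub193 hc.bdd hW.cusp.bdd) hχ.cusp.bdd, e1, e2, add_zero]
  -- so it has norm zero
  have hnorm : T5.innerD R.μ R.F (torAvg a D (finAvg Rep ψ)) (torAvg a D (finAvg Rep ψ)) = 0 := by
    have h1 := hproj _ hW
    rw [innerD_sub193 hR.frame.finite hψ.cont hW.cusp.cont hW.cusp.cont hψ.bdd hW.cusp.bdd
      hW.cusp.bdd, horth _ hW, zero_sub, neg_eq_zero] at h1
    exact h1
  rw [← LK.rconvFinAvg hT1 R hR 𝔑 𝔑₀ l o Rep hRep φ hφc hφs hH ψ hψ.cont x,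
    ← LK.rconvTorAvg hT1 R hR 𝔑₀ a D hD φ hφc hφs hA (finAvg Rep ψ) hc x]
  exact LK.null hT1 R hR _ hW.cusp.cont hW.cusp.bdd hW.cusp.aut.left_inv hW.cusp.aut.ray hnorm φ x

/-- `φ♮` is a test function. -/
theorem isTestFn_nat193 (hT1 : T1.T1Out K) (N : NatLeaves K) {𝔑 : Ideal (𝓞 K)} {r : G K}
    {a : (InfinitePlace K → ℝ) → G K} {D : Set (InfinitePlace K → ℝ)}
    (hD : IsTorusData 𝔑 r a D) {𝔫 : Ideal (𝓞 K)} {φ : G K → ℂ}
    (hφ : T5.IsTestFn 𝔫 T5.trivType φ) : T5.IsTestFn 𝔫 T5.trivType (nat193 a D φ) := by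
  obtain ⟨h1, h2, h3⟩ := N.basic hT1 𝔑 r a D hD 𝔫 φ hφ
  exact ⟨hφ.ktype, h1, h2, N.smooth hT1 𝔑 r a D hD φ hφ.cont hφ.supp hφ.smooth, h3⟩

/-- **THE TOP OF THE SUB-STATION NATURAL**: for the frame `R` and the level `𝔑₀ ≠ 0` there is an
operation `φ ↦ φ♮` on functions which preserves test functions (of every level), the
Eisenstein-killing property of the function and of its adjoint, the right invariance under `H`,
commutes with the convolution on either side, absorbs the positive scalars at infinity on the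
cusp functions of level `𝔑₀`, and satisfies `R(φ♮) e = R(φ) e` on the continuous functions `e`
which are invariant under the positive scalars at the infinite places. -/
theorem natural193 (hT1 : T1.T1Out K) (L : ProjLeaves K) (N : NatLeaves K) (R : Frame5 K)
    (hR : IsFrame5 R) (𝔑₀ : Ideal (𝓞 K)) (h𝔑₀ : 𝔑₀ ≠ ⊥) :
    ∃ nat : (G K → ℂ) → G K → ℂ,
      (∀ (𝔫 : Ideal (𝓞 K)) (φ : G K → ℂ), T5.IsTestFn 𝔫 T5.trivType φ →
        T5.IsTestFn 𝔫 T5.trivType (nat φ)) ∧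
      (∀ φ : G K → ℂ, Continuous φ → HasCompactSupport φ → T5.IsEK R.μ φ →
        T5.IsEK R.μ (nat φ)) ∧
      (∀ φ : G K → ℂ, Continuous φ → HasCompactSupport φ → T5.IsEK R.μ (T5.adjointFn φ) →
        T5.IsEK R.μ (T5.adjointFn (nat φ))) ∧
      (∀ (𝔑 : Ideal (𝓞 K)) (l : ℕ) (o : ℕ → HeightOneSpectrum (𝓞 K)) (φ : G K → ℂ),
        IsRightHInv 𝔑 l o φ → IsRightHInv 𝔑 l o (nat φ)) ∧
      (∀ φ₁ φ₂ : G K → ℂ, Continuous φ₁ → HasCompactSupport φ₁ → Continuous φ₂ →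
        HasCompactSupport φ₂ →
        (∀ g : G K, T5.conv R.μ (nat φ₁) φ₂ g = nat (T5.conv R.μ φ₁ φ₂) g) ∧
        ∀ g : G K, T5.conv R.μ φ₁ (nat φ₂) g = nat (T5.conv R.μ φ₁ φ₂) g) ∧
      (∀ φ : G K → ℂ, Continuous φ → HasCompactSupport φ →
        AbsorbsPos R.μ 𝔑₀ R.r (nat φ)) ∧
      ∀ φ : G K → ℂ, Continuous φ → HasCompactSupport φ →
        ∀ e : G K → ℂ, Continuous e →
          (∀ (w : InfinitePlace K) (z : G K), IsArchPosScalar w z →
            ∀ g : G K, e (g * z) = e g) →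
          ∀ x : G K, T5.Rconv R.μ (nat φ) e x = T5.Rconv R.μ φ e x := by
  obtain ⟨a, D, hD⟩ := torusDataC_of193 L 𝔑₀ h𝔑₀ R.r hR.ray
  refine ⟨nat193 a D, fun 𝔫 φ hφ => isTestFn_nat193 hT1 N hD hφ,
    fun φ h1 h2 h3 => N.ek hT1 N.op R hR 𝔑₀ R.r a D hD φ h1 h2 h3,
    fun φ h1 h2 h3 => N.adjEK hT1 R hR 𝔑₀ R.r a D hD φ h1 h2 h3,
    fun 𝔑 l o φ h => N.hInv 𝔑₀ R.r a D hD 𝔑 l o φ h,
    fun φ₁ φ₂ h1 h2 h3 h4 => N.conv hT1 R hR 𝔑₀ R.r a D hD φ₁ φ₂ h1 h2 h3 h4,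
    fun φ h1 h2 => N.absorb hT1 N.op R hR 𝔑₀ a D hD φ h1 h2, ?_⟩
  intro φ h1 h2 e he hinv x
  rw [N.op hT1 R hR 𝔑₀ R.r a D hD φ h1 h2 e he x]
  have hfix : torAvg a D e = e := funext fun g => N.fix 𝔑₀ R.r a D hD e hinv g
  rw [hfix]

end Tops

end Fermat.Agent.LT.T7.H193

end
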