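import Mathlib
import Fermat.Agent.LT.T5.H29.TwSpec
import Fermat.Agent.LT.T7.H193.ProjSpec
import Fermat.Agent.LT.T7.H193.KillSpec

/-!
# Row LT, tower T7, node T7.L2.1 `SupplyC`: sub-station NAT-MATCH (sub-architect helper193)

OFF-MAIN.  Definitions and frozen leaf Props only (the proved tops are in `NatMatchTop.lean`).
No hole, nothing assumed.  ADDITIVE (new names only, suffix `193`).  Vocabulary: `T5/Spec.lean`
(bytes of record, helper17), `T5/H29/TwSpec.lean` (helper29, closed), `T7/Matching.lean`,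
`T7/H193/ProjSpec.lean`, `T7/H193/KillSpec.lean`, byte-identical copies.

## The gap which this station closes

The fields `up2_kill` / `dn2_kill` of the pre-data (`H893.IsL2PreOp`) force the second base
functions to be ARCHIMEDEAN TORUS MEANS, `φ₂ = nat193 a' D' φ₀'` upstairs and `f₂ = nat193 a D f₀`
downstairs (`KillSpec.lean`; a pure tensor cannot kill the cusp functions with a non-trivial
character of the compact torus `A_∞ / ⟨r⟩ Λ` when `K` has more than one infinite place).  The
matching theorem (`H305.GlobMatchC305`) is a statement on PURE TENSORS.  Translates of matched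
pure tensors by positive scalars at infinity are matched pure tensors, in the form

    φ'(· a'(t')⁻¹)  ↔  f(· a(N t')⁻¹),      (N t')_v = ∑_{w ∣ v} t'_w     (sum over the fibre)

(the archimedean component downstairs is the convolution of the components upstairs over the
fibre, and the translation by a central element commutes with the convolution).  Hence
`nat193 a' D' φ'` is matched with the mean of `f(· a(N t')⁻¹)` over `t' ∈ D'`, and this is
`nat193 a D f` if and only if the normalised Lebesgue measure of `D'` is mapped by `N` to the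
normalised Lebesgue measure of `D`.  This is FALSE for the sets hidden in `TorusDataC`
(the image of the uniform measure of a parallelepiped under a linear map is not uniform).

## The two sub-stations

* **REL-TORUS** (`RelTorusC`): COMPATIBLE torus data exist.  `D` = the fundamental parallelepiped
  of `ℓ • b`, `b` a basis of periods downstairs (`DirichletC`); `D'` = the fundamental
  parallelepiped of the basis `(lift (b i))_i ∪ (log |ε'_j|)_j` of `ℝ^{P'}`, `ε'_j` units of `K'`
  whose log vectors form a basis of `ker N` (`KerUnitsC`).  Leaves: `KerUnitsC`, `FibCardC`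
  (number theory), `TorusParC`, `PushParC` (Mathlib only), `RelTorusAsmC` (assembly).
* **NAT-MATCH** (`natMatch193`, proved in the top file from the leaves `FlatNatC`, `JointIntC`):
  if the translates are matched and regular, the torus means are matched:

      IsRelTorus … → (∀ t' ∈ D', IsGlobMatch Dd (trl193 (a' t') φ') (trl193 (a (N t')) f))
        → IsGlobMatch Dd (nat193 a' D' φ') (nat193 a D f).

  Proof: `twTerm (nat φ) = mean of twTerm (translates)` (`FlatNatC`: the sum over the ray is
  finite, uniformly on `D`), Fubini on `Fδ × D'` (`JointIntC`: the uniform bound `TwBoundC` of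
  helper29 for the union of the supports), the hypothesis, `push`, and back.

The case of the quadratic step `F/ℚ` (one real place under one complex place, `N = 2 ·`) is NOT
covered by `fibSum193` (no weights): there `D' = [0, c')`, `D = [0, 2 c')`.
-/

set_option autoImplicit false

open IsDedekindDomain NumberField MeasureTheory
open scoped ComplexConjugate

noncomputable section

namespace Fermat.Agent.LT.T7.H193

open Fermat.Agent.LT.H556 Fermat.Agent.LT.H556.A0 Fermat.Agent.LT

attribute [local instance] Fermat.Agent.LT.T5.instMeasurableSpaceG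

/-! ## 1. Vocabulary -/

section Vocab

variable {K : Type} [Field K] [NumberField K]

/-- The right translate `φ(· z⁻¹)`; `nat193 a D φ g = vol(D)⁻¹ ∫_D trl193 (a t) φ g dt`. -/
def trl193 (z : G K) (φ : G K → ℂ) : G K → ℂ := fun g => φ (g * z⁻¹)

/-- The vector `(log |ε|_w)_w` of a unit. -/
def logVec193 (ε : (𝓞 K)ˣ) : InfinitePlace K → ℝ :=
  fun w => Real.log (w (((ε : 𝓞 K)) : K))

variable (K) in
/-- `p` is a PERIOD for the level `𝔑`, the ray generator `r` and the positive scalars `a`:
every automorphic function of level `𝔑` is right invariant under `a p`. -/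
def IsPeriod193 (𝔑 : Ideal (𝓞 K)) (r : G K) (a : (InfinitePlace K → ℝ) → G K)
    (p : InfinitePlace K → ℝ) : Prop :=
  ∀ e : G K → ℂ, T5.IsAutomorphicFn 𝔑 T5.trivType r e → ∀ g : G K, e (g * a p) = e g

variable {K' : Type} [Field K'] [NumberField K'] [Algebra K K']

open Classical in
/-- `N`: the sum over the fibres of `InfinitePlace K' → InfinitePlace K`. -/
def fibSum193 (t' : InfinitePlace K' → ℝ) : InfinitePlace K → ℝ :=
  fun v => ∑ w : InfinitePlace K', if w.comap (algebraMap K K') = v then t' w else 0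

/-- The lift of a vector: constant on the fibres. -/
def liftVec193 (t : InfinitePlace K → ℝ) : InfinitePlace K' → ℝ :=
  fun w => t (w.comap (algebraMap K K'))

/-- **COMPATIBLE TORUS DATA** for the level `𝔫` of `K` and the level `𝔫 𝒪_{K'}` of `K'`: torus
data downstairs and upstairs such that `N` maps `D'` onto `D` and the normalised Lebesgue measure
of `D'` to the normalised Lebesgue measure of `D`. -/
structure IsRelTorus (𝔫 : Ideal (𝓞 K)) (r : G K) (r' : G K')
    (a : (InfinitePlace K → ℝ) → G K) (D : Set (InfinitePlace K → ℝ))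
    (a' : (InfinitePlace K' → ℝ) → G K') (D' : Set (InfinitePlace K' → ℝ)) : Prop where
  down : IsTorusData 𝔫 r a D
  up : IsTorusData (Ideal.map (algebraMap (𝓞 K) (𝓞 K')) 𝔫) r' a' D'
  maps : ∀ t' ∈ D', fibSum193 (K := K) t' ∈ D
  onto : ∀ t ∈ D, ∃ t' ∈ D', fibSum193 (K := K) t' = t
  push : ∀ h : (InfinitePlace K → ℝ) → ℂ, IntegrableOn h D volume →
    (((volume D').toReal : ℝ) : ℂ)⁻¹ * ∫ t' in D', h (fibSum193 (K := K) t')
      = (((volume D).toReal : ℝ) : ℂ)⁻¹ * ∫ t in D, h t

end Vocab

/-! ## 2. The leaves of REL-TORUS -/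

section RelTorus

variable (K K' : Type) [Field K] [NumberField K] [Field K'] [NumberField K'] [Algebra K K']

/-- **LEAF RT.1 = KER-UNITS (number theory).**  `K'/K` Galois of prime degree `ℓ`, `K` totally
complex, `𝔫 ≠ 0`: there are finitely many units `ε'_j ≡ 1 mod 𝔫 𝒪_{K'}` of `K'` whose log vectors
form a basis of `ker N`.
Proof.  Galois action on the infinite places (Mathlib `InfinitePlace.comap` of an automorphism,
`exists_smul_eq_of_comap_eq`): `σ` permutes every fibre, so `x - σ x ∈ ker N`; every fibre is ONE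
orbit and (the places of `K` being complex, hence unramified) has `ℓ` elements, so
`ℓ x - lift (N x) = ∑_{j < ℓ} (x - σ^j x)`; the log vectors of the units `≡ 1 mod 𝔫 𝒪_{K'}` and
one constant vector span `ℝ^{P'}` (`DirichletC K'`), `𝔫 𝒪_{K'}` is Galois-stable and
`logVec (σ ε') = (logVec ε') ∘ σ`; hence the vectors `logVec (ε' / σ^j ε')` span `ker N`; a
spanning family contains a basis.  (Or with the relative norm: `ε'^ℓ / N_{K'/K} ε'`.) -/
def KerUnitsC : Prop :=
  ∀ ℓ : ℕ, IsCycExt K K' ℓ → TotCplx K → ∀ 𝔫 : Ideal (𝓞 K), 𝔫 ≠ ⊥ →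
    ∃ (J : Type) (_ : Fintype J) (ε : J → (𝓞 K')ˣ),
      (∀ j, ((ε j : (𝓞 K')ˣ) : 𝓞 K') - 1 ∈ Ideal.map (algebraMap (𝓞 K) (𝓞 K')) 𝔫) ∧
      (∀ j, fibSum193 (K := K) (logVec193 (ε j)) = 0) ∧
      LinearIndependent ℝ (fun j => logVec193 (ε j)) ∧
      ∀ x : InfinitePlace K' → ℝ, fibSum193 (K := K) x = 0 →
        x ∈ Submodule.span ℝ (Set.range fun j => logVec193 (ε j))

/-- **LEAF RT.2 = FIB-CARD.**  Every infinite place of `K` (complex, hence unramified in `K'`)
has exactly `ℓ = [K' : K]` places of `K'` over it.  (Mathlib: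
`NumberField.InfinitePlace.card_stabilizer`, `IsUnramified`, orbit-stabiliser.) -/
def FibCardC : Prop :=
  ∀ ℓ : ℕ, IsCycExt K K' ℓ → TotCplx K → ∀ v : InfinitePlace K,
    Nat.card {w : InfinitePlace K' // w.comap (algebraMap K K') = v} = ℓ

/-- **LEAF RT.3 = TORUS-PAR (Mathlib only).**  The explicit form of `TorusMeanC`, for a basis with
an arbitrary index type: the fundamental parallelepiped is measurable, bounded, of positive
volume, and the integral over it of a function with the periods `B i` is invariant under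
translation.  (The proof of helper563, `T7/H563/TorusMeanCore.lean`, verbatim.) -/
def TorusParC : Prop :=
  ∀ (ι ι' : Type) [Fintype ι] [Fintype ι'] (B : Module.Basis ι ℝ (ι' → ℝ)),
    MeasurableSet (ZSpan.fundamentalDomain B) ∧
      Bornology.IsBounded (ZSpan.fundamentalDomain B) ∧
      0 < volume (ZSpan.fundamentalDomain B) ∧
      ∀ f : (ι' → ℝ) → ℂ, (∀ (i : ι) (t : ι' → ℝ), f (t + B i) = f t) →
        ∀ s : ι' → ℝ, ∫ t in ZSpan.fundamentalDomain B, f (t + s)
          = ∫ t in ZSpan.fundamentalDomain B, f t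

/-- **LEAF RT.4 = PUSH-PAR (Mathlib only).**  `N` linear, `b` a basis of `ℝ^ι`, `B` a basis of
`ℝ^{ι'}` indexed by `ι ⊕ J` with `N (B (inl i)) = b i`, `N (B (inr j)) = 0`.  Then `N` maps the
fundamental parallelepiped of `B` ONTO the one of `b`, and the normalised Lebesgue measure to the
normalised Lebesgue measure.
Proof.  In the coordinates of `B` (a linear isomorphism scales the Lebesgue measure by a
constant, which cancels against the normalisation) the parallelepiped is `[0,1)^{ι ⊕ J}`, `N` is
`(x, y) ↦ ∑ x_i b_i`, and `∫_{[0,1)^ι × [0,1)^J} g(x) dx dy = ∫_{[0,1)^ι} g(x) dx`. -/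
def PushParC : Prop :=
  ∀ (ι ι' J : Type) [Fintype ι] [Fintype ι'] [Fintype J]
    (N : (ι' → ℝ) →ₗ[ℝ] (ι → ℝ)) (b : Module.Basis ι ℝ (ι → ℝ))
    (B : Module.Basis (ι ⊕ J) ℝ (ι' → ℝ)),
    (∀ i, N (B (Sum.inl i)) = b i) → (∀ j, N (B (Sum.inr j)) = 0) →
    (∀ t' ∈ ZSpan.fundamentalDomain B, N t' ∈ ZSpan.fundamentalDomain b) ∧
    (∀ t ∈ ZSpan.fundamentalDomain b, ∃ t' ∈ ZSpan.fundamentalDomain B, N t' = t) ∧
    ∀ h : (ι → ℝ) → ℂ, IntegrableOn h (ZSpan.fundamentalDomain b) volume →
      (((volume (ZSpan.fundamentalDomain B)).toReal : ℝ) : ℂ)⁻¹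
          * ∫ t' in ZSpan.fundamentalDomain B, h (N t')
        = (((volume (ZSpan.fundamentalDomain b)).toReal : ℝ) : ℂ)⁻¹
          * ∫ t in ZSpan.fundamentalDomain b, h t

/-- **REL-TORUS**: compatible torus data exist. -/
def RelTorusC : Prop :=
  ∀ ℓ : ℕ, IsCycExt K K' ℓ → TotCplx K → ∀ 𝔫 : Ideal (𝓞 K), 𝔫 ≠ ⊥ →
    ∀ (r : G K) (r' : G K'), T5.IsRayGen r → T5.IsRayGen r' →
    ∃ (a : (InfinitePlace K → ℝ) → G K) (D : Set (InfinitePlace K → ℝ))
      (a' : (InfinitePlace K' → ℝ) → G K') (D' : Set (InfinitePlace K' → ℝ)),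
      IsRelTorus 𝔫 r r' a D a' D'

/-- **LEAF RT.5 = REL-TORUS-ASM (assembly).**  `a`, `a'` from `PosScalC`; `r = a (fun _ => c)`,
`c = log t₀`, `r' = a' (fun _ => c')`, `c = ℓ c'` (`[K' : ℚ] = ℓ [K : ℚ]`); `b₀` from
`DirichletC K 𝔫 c`, `b = ℓ • b₀`, `D` = the fundamental parallelepiped of `b`; `(J, ε')` from
`KerUnitsC`; `B (inl i) = liftVec193 (b₀ i)`, `B (inr j) = logVec193 (ε' j)` is a basis of
`ℝ^{P'}` (apply `N`: `N (lift x) = ℓ x` by `FibCardC`), `D'` = its fundamental parallelepiped.
Periods: `a (ℓ b₀ i) = (a (b₀ i))^ℓ` with `a (b₀ i) = r` or `|ε|_∞` (`UnitInvC K`);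
`a' (lift (fun _ => c)) = r'^ℓ`, `a' (lift (logVec ε)) = |ε|_∞` for the unit `ε` of `K` in `K'`
(`w (algebraMap ε) = (w.comap _) ε`; `ε - 1 ∈ 𝔫 𝒪_{K'}`), `a' (logVec ε'_j)` (`UnitInvC K'`).
`mean` from `TorusParC`, `maps`, `onto`, `push` from `PushParC` with `N = fibSum193`. -/
def RelTorusAsmC : Prop :=
  PosScalC K → PosScalC K' → UnitInvC K → UnitInvC K' → DirichletC K → KerUnitsC K K' →
    FibCardC K K' → TorusParC → PushParC → RelTorusC K K'

end RelTorus

/-! ## 3. The leaves of NAT-MATCH (one field) -/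

section NatMatch

variable (K : Type) [Field K] [NumberField K]

/-- **LEAF NM.1 = FLAT-NAT.**  The summand of the twisted kernel of a torus mean is the mean of
the summands of the translates.
Proof.  `twTerm r s ψ δ x = ∑'_m ψ(y r^m)`, `y = x⁻¹ δ σ(x)`.  The set of the `m` with
`φ(y r^m a(t)⁻¹) ≠ 0` for some `t ∈ D` is finite: `‖det‖_𝔸` is continuous and multiplicative
(`T1.AdNormC`), bounded and bounded away from `0` on the compact support of `φ` and on the
relatively compact set `a(D)`, and `‖det r‖_𝔸 = 2`.  So both sides are finite sums over the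
same set of `m`, and the finite sum commutes with the integral over `D` (continuous integrands,
`D` bounded and measurable). -/
def FlatNatC : Prop :=
  T1.T1Out K → ∀ (s : T5.AdelicAut K) (r : G K), T5.IsRayGen r →
    ∀ (a : (InfinitePlace K → ℝ) → G K) (D : Set (InfinitePlace K → ℝ)),
      Continuous a → MeasurableSet D → Bornology.IsBounded D →
    ∀ φ : G K → ℂ, Continuous φ → HasCompactSupport φ →
    ∀ (δ : GL (Fin 2) K) (x : G K),
      T5.twTerm r s (nat193 a D φ) δ x
        = (((volume D).toReal : ℝ) : ℂ)⁻¹ * ∫ t in D, T5.twTerm r s (trl193 (a t) φ) δ x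

/-- **LEAF NM.2 = JOINT-INT.**  If all the translates `trl193 (a t) φ`, `t ∈ D`, of a continuous
function of compact support are `σ`-regular, then `(x, t) ↦ twTerm (trl193 (a t) φ) δ x` is
integrable on `Fδ × D`.
Proof (the proof of T5.07 by helper29, `T5/H29/TwFinite.lean`, `leafTwFinite_of_twBound`, with a
parameter).  `Θ` = the indicator function of `{g : ∃ t ∈ D, φ(g a(t)⁻¹) ≠ 0}` has compact support
(contained in `supp φ · a(closure D)`) and is `σ`-regular; `TwBoundC` for `Θ` gives a finite set
`S` and `M` which serve for ALL the translates; on `Fδ × D` the function is the finite sum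
`∑_{|m| ≤ M} φ(x⁻¹ δ σ(x) r^m a(t)⁻¹)`, jointly continuous (`GL₂(𝔸_K)` is second countable:
`T1.LocCompC`); for every `t ∈ D`: `∫_{Fδ} ‖…‖ ≤ #S (2M+1) sup ‖φ‖ · μ(F)` by the orbit unfolding
(`H29.lintegral_enorm_orbit_unfold29`); Tonelli. -/
def JointIntC : Prop :=
  T1.T1Out K → T5.H29.RaySlabC K →
    ∀ (s : T5.AdelicAut K) (l : ℕ) (k : Subfield K) (𝔫 : Ideal (𝓞 K)),
      T5.H29.TwBoundC s l k 𝔫 → T5.IsCyclicOfDegree s l k →
    ∀ (μ : Measure (G K)) (F : Set (G K)) (r : G K), T5.IsFrame μ F → T5.IsRayGen r →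
      T5.AutPreserves s 𝔫 μ r →
    ∀ (a : (InfinitePlace K → ℝ) → G K) (D : Set (InfinitePlace K → ℝ)),
      Continuous a → MeasurableSet D → Bornology.IsBounded D →
    ∀ φ : G K → ℂ, Continuous φ → HasCompactSupport φ →
      (∀ t ∈ D, T5.IsTwRegular s l k (trl193 (a t) φ)) →
    ∀ (δ : GL (Fin 2) K) (Fδ : Set (G K)), T5.IsTwDomain s δ Fδ →
      Integrable
        (fun p : G K × (InfinitePlace K → ℝ) => T5.twTerm r s (trl193 (a p.2) φ) δ p.1)
        ((μ.restrict Fδ).prod (volume.restrict D))

end NatMatch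

end Fermat.Agent.LT.T7.H193

end
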