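import Mathlib
import Fermat.Agent.LT.T7.H193.ProjSpec
import Fermat.Agent.LT.T7.H193.KillSpec
import Fermat.Agent.LT.T7.H453.TranslInv
import Fermat.Agent.LT.T7.H543.HGroup
import Fermat.Agent.LT.T7.H981.FinIndex
import Fermat.Agent.LT.T7.H454.FinDataAsm
import Fermat.Agent.LT.T7.H547.FinAvgCusp
import Fermat.Agent.LT.T7.H613.UnitInv
import Fermat.Agent.LT.T7.H387.FinAvgOrth
import Fermat.Agent.LT.T7.H195.PosScal
import Fermat.Agent.LT.T7.H126.Dirichlet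
import Fermat.Agent.LT.T7.H563.TorusMean
import Fermat.Agent.LT.T7.H317.TorusDataAsm
import Fermat.Agent.LT.T7.H865.TorAvgW
import Fermat.Agent.LT.T7.H587.TorAvgOrth
import Fermat.Agent.LT.T7.H905.RconvFinAvg
import Fermat.Agent.LT.T7.H622.RconvTorAvg
import Fermat.Agent.LT.T7.H440.Null
import Fermat.Agent.LT.T7.H496.NatBasic
import Fermat.Agent.LT.T7.H517.NatSmooth
import Fermat.Agent.LT.T7.H392.NatOp
import Fermat.Agent.LT.T7.H646.NatEK
import Fermat.Agent.LT.T7.H894.NatAdjEK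
import Fermat.Agent.LT.T7.H953.NatConv
import Fermat.Agent.LT.T7.H117.NatAbsorb
import Fermat.Agent.LT.T7.H887.TorAvgFix
import Fermat.Agent.LT.T7.H269.NatHInv

/-!
# Row LT, tower T7, node T7.L2.1 `SupplyC`: sub-stations PROJ, KILL, NATURAL -- INTEGRATION
(sub-architect helper193)

OFF-MAIN.  Complete proofs, nothing assumed.  ALL the leaves of `ProjSpec.lean` (13) and
`KillSpec.lean` (12) are proved by the volunteers (byte-identical copies of their files):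
`projLeaves193`, `killLeaves193`, `natLeaves193`.  The only hypothesis left is the output
`T1.T1Out K` of the closed tower T1 (`T1.t1Out`, helper54).

* `exists_proj_closed193`  = the fields `proj_up` / `proj_down` of `T7.IsL2Data`
  (= `H893.ProjC` of helper893, without the divisibility hypothesis);
* `exists_killing193` = THE TOOL for the pre-data of helper893 (`IsL2Pre`: `up2_test`, `up2_ek`,
  `up2_inv`, `up2_op`, `up2_kill`, and the same downstairs): an Eisenstein-killing test function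
  `φ₀` which is bi-invariant under `U(𝔑₀)` and the Iwahori subgroups along the orbit can be
  replaced by `φ₂ = φ₀♮` with the same properties, the same action on the invariant cusp
  functions, and which KILLS the cusp functions orthogonal to the invariant ones.
-/

set_option autoImplicit false

open IsDedekindDomain NumberField MeasureTheory
open scoped ComplexConjugate

noncomputable section

namespace Fermat.Agent.LT.T7.H193

open Fermat.Agent.LT.H556 Fermat.Agent.LT.H556.A0 Fermat.Agent.LT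

attribute [local instance] Fermat.Agent.LT.T5.instMeasurableSpaceG

variable {K : Type} [Field K] [NumberField K]

/-- The leaves of PROJ (all closed). -/
theorem projLeaves193 (K : Type) [Field K] [NumberField K] : ProjLeaves K where
  translInv := H453.translInvC453 K
  hGroup := H543.hGroupC543 K
  finIndex := H981.finIndexC981 K
  finDataAsm := H454.finDataAsmC454 K
  finAvgCusp := H547.finAvgCuspC547 K
  finAvgOrth := H387.finAvgOrthC387 K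
  posScal := H195.posScalC195 K
  unitInv := H613.unitInvC613 K
  dirichlet := H126.dirichletC126 K
  torusMean := H563.torusMeanC563
  torusDataAsm := H317.torusDataAsmC317 K
  torAvgW := H865.torAvgWC865 K
  torAvgOrth := H587.torAvgOrthC587 K

/-- The leaves of KILL (all closed). -/
theorem killLeaves193 (K : Type) [Field K] [NumberField K] : KillLeaves K where
  rconvFinAvg := H905.rconvFinAvgC905 K
  rconvTorAvg := H622.rconvTorAvgC622 K
  null := H440.nullC440 K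

/-- The leaves of NATURAL (all closed). -/
theorem natLeaves193 (K : Type) [Field K] [NumberField K] : NatLeaves K where
  basic := H496.natBasicC496 K
  smooth := H517.natSmoothC517 K
  op := H392.natOpC392 K
  ek := H646.natEKC646 K
  adjEK := H894.natAdjEKC894
  conv := H953.natConvC953 K
  absorb := H117.natAbsorbC117 K
  fix := H887.torAvgFixC887 K
  hInv := H269.natHInvC269 K

/-- `φ` is bi-invariant under `U(𝔑₀)` and under the Iwahori subgroups along the orbit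
(= `H893.IsUInv`, verbatim). -/
def IsBiHInv (𝔑₀ : Ideal (𝓞 K)) (l : ℕ) (o : ℕ → HeightOneSpectrum (𝓞 K)) (φ : G K → ℂ) :
    Prop :=
  (∀ u : G K, InLevelGroup 𝔑₀ u → ∀ y : G K, φ (u * y) = φ y ∧ φ (y * u) = φ y) ∧
    ∀ h : G K, (∀ w : InfinitePlace K, TrivAtInf w h) →
      (∀ v : HeightOneSpectrum (𝓞 K), (∀ j < l, v ≠ o j) → TrivAtFin v h) →
      (∀ j < l, T5.InIwahori (o j) h) → ∀ y : G K, φ (h * y) = φ y ∧ φ (y * h) = φ y

theorem isRightHInv_of_biHInv193 {𝔑₀ : Ideal (𝓞 K)} {l : ℕ}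
    {o : ℕ → HeightOneSpectrum (𝓞 K)} {φ : G K → ℂ} (h : IsBiHInv 𝔑₀ l o φ) :
    IsRightHInv 𝔑₀ l o φ :=
  ⟨fun u hu y => (h.1 u hu y).2, fun i hi y => (h.2 i hi.1 hi.2.1 hi.2.2 y).2⟩

/-- `♮` preserves the invariance on the left under any element. -/
theorem nat_left_inv193 (a : (InfinitePlace K → ℝ) → G K) (D : Set (InfinitePlace K → ℝ))
    {φ : G K → ℂ} {u : G K} (h : ∀ y : G K, φ (u * y) = φ y) (y : G K) :
    nat193 a D φ (u * y) = nat193 a D φ y := by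
  unfold nat193
  congr 1
  refine integral_congr_ae (Filter.Eventually.of_forall fun t => ?_)
  show φ (u * y * (a t)⁻¹) = φ (y * (a t)⁻¹)
  rw [mul_assoc, h]

/-- **The fields `proj_up` / `proj_down`.** -/
theorem exists_proj_closed193 (hT1 : T1.T1Out K) (R : Frame5 K)
    (hR : IsFrame5 R) (𝔑 𝔑₀ : Ideal (𝓞 K)) (h𝔑 : 𝔑 ≠ ⊥) (hle : 𝔑 ≤ 𝔑₀) (l : ℕ)
    (o : ℕ → HeightOneSpectrum (𝓞 K)) (ψ : G K → ℂ)
    (hψ : T5.IsCuspFn 𝔑 T5.trivType R.r ψ) :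
    ∃ ψ₁ : G K → ℂ, IsWFn 𝔑₀ R.r l o ψ₁ ∧
      ∀ χ : G K → ℂ, IsWFn 𝔑₀ R.r l o χ →
        T5.innerD R.μ R.F (fun x => ψ x - ψ₁ x) χ = 0 :=
  exists_proj193 hT1 (projLeaves193 K) R hR 𝔑 𝔑₀ h𝔑 hle l o ψ hψ

/-- **The generic KILL.** -/
theorem kill_closed193 (hT1 : T1.T1Out K) (R : Frame5 K)
    (hR : IsFrame5 R) (𝔑 𝔑₀ : Ideal (𝓞 K)) (h𝔑 : 𝔑 ≠ ⊥) (hle : 𝔑 ≤ 𝔑₀) (l : ℕ)
    (o : ℕ → HeightOneSpectrum (𝓞 K)) (φ : G K → ℂ) (hφc : Continuous φ)
    (hφs : HasCompactSupport φ) (hH : IsRightHInv 𝔑₀ l o φ)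
    (hA : AbsorbsPos R.μ 𝔑₀ R.r φ) :
    ∀ ψ : G K → ℂ, T5.IsCuspFn 𝔑 T5.trivType R.r ψ →
      (∀ χ : G K → ℂ, IsWFn 𝔑₀ R.r l o χ → T5.innerD R.μ R.F ψ χ = 0) →
      ∀ x : G K, T5.Rconv R.μ φ ψ x = 0 :=
  kill193 hT1 (projLeaves193 K) (killLeaves193 K) R hR 𝔑 𝔑₀ h𝔑 hle l o φ hφc hφs hH hA

/-- **The operation `♮`** (all properties; `T1.T1Out` is the only hypothesis). -/
theorem natural_closed193 (hT1 : T1.T1Out K) (R : Frame5 K) (hR : IsFrame5 R)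
    (𝔑₀ : Ideal (𝓞 K)) (h𝔑₀ : 𝔑₀ ≠ ⊥) :
    ∃ nat : (G K → ℂ) → G K → ℂ,
      (∀ (𝔫 : Ideal (𝓞 K)) (φ : G K → ℂ), T5.IsTestFn 𝔫 T5.trivType φ →
        T5.IsTestFn 𝔫 T5.trivType (nat φ)) ∧
      (∀ φ : G K → ℂ, Continuous φ → HasCompactSupport φ → T5.IsEK R.μ φ →
        T5.IsEK R.μ (nat φ)) ∧
      (∀ φ : G K → ℂ, Continuous φ → HasCompactSupport φ → T5.IsEK R.μ (T5.adjointFn φ) →
        T5.IsEK R.μ (T5.adjointFn (nat φ))) ∧
      (∀ (𝔑 : Ideal (𝓞 K)) (l : ℕ) (o : ℕ → HeightOneSpectrum (𝓞 K)) (φ : G K → ℂ),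
        IsRightHInv 𝔑 l o φ → IsRightHInv 𝔑 l o (nat φ)) ∧
      (∀ φ₁ φ₂ : G K → ℂ, Continuous φ₁ → HasCompactSupport φ₁ → Continuous φ₂ →
        HasCompactSupport φ₂ →
        (∀ g : G K, T5.conv R.μ (nat φ₁) φ₂ g = nat (T5.conv R.μ φ₁ φ₂) g) ∧
        ∀ g : G K, T5.conv R.μ φ₁ (nat φ₂) g = nat (T5.conv R.μ φ₁ φ₂) g) ∧
      (∀ φ : G K → ℂ, Continuous φ → HasCompactSupport φ →
        AbsorbsPos R.μ 𝔑₀ R.r (nat φ)) ∧
      ∀ φ : G K → ℂ, Continuous φ → HasCompactSupport φ →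
        ∀ e : G K → ℂ, Continuous e →
          (∀ (w : InfinitePlace K) (z : G K), IsArchPosScalar w z →
            ∀ g : G K, e (g * z) = e g) →
          ∀ x : G K, T5.Rconv R.μ (nat φ) e x = T5.Rconv R.μ φ e x :=
  natural193 hT1 (projLeaves193 K) (natLeaves193 K) R hR 𝔑₀ h𝔑₀

/-- **THE TOOL for the pre-data**: see the header. -/
theorem exists_killing193 (hT1 : T1.T1Out K) (R : Frame5 K)
    (hR : IsFrame5 R) (𝔑 𝔑₀ : Ideal (𝓞 K)) (h𝔑 : 𝔑 ≠ ⊥) (hle : 𝔑 ≤ 𝔑₀) (l : ℕ)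
    (o : ℕ → HeightOneSpectrum (𝓞 K)) (φ₀ : G K → ℂ)
    (htest : T5.IsTestFn 𝔑 T5.trivType φ₀) (hek : T5.IsEK R.μ φ₀)
    (hadj : T5.IsEK R.μ (T5.adjointFn φ₀)) (hinv : IsBiHInv 𝔑₀ l o φ₀) :
    ∃ φ₂ : G K → ℂ, T5.IsTestFn 𝔑 T5.trivType φ₂ ∧ T5.IsEK R.μ φ₂ ∧
      T5.IsEK R.μ (T5.adjointFn φ₂) ∧ IsBiHInv 𝔑₀ l o φ₂ ∧
      (∀ e : G K → ℂ, Continuous e →
        (∀ (w : InfinitePlace K) (z : G K), IsArchPosScalar w z →
          ∀ g : G K, e (g * z) = e g) →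
        ∀ x : G K, T5.Rconv R.μ φ₂ e x = T5.Rconv R.μ φ₀ e x) ∧
      ∀ ψ : G K → ℂ, T5.IsCuspFn 𝔑 T5.trivType R.r ψ →
        (∀ χ : G K → ℂ, IsWFn 𝔑₀ R.r l o χ → T5.innerD R.μ R.F ψ χ = 0) →
        ∀ x : G K, T5.Rconv R.μ φ₂ ψ x = 0 := by
  have h𝔑₀ : 𝔑₀ ≠ ⊥ := fun h => h𝔑 (le_bot_iff.mp (h ▸ hle))
  have L := projLeaves193 K
  have N := natLeaves193 K
  obtain ⟨a, D, hD⟩ := torusDataC_of193 L 𝔑₀ h𝔑₀ R.r hR.ray
  have ht : T5.IsTestFn 𝔑 T5.trivType (nat193 a D φ₀) := isTestFn_nat193 hT1 N hD htest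
  have hr : IsRightHInv 𝔑₀ l o (nat193 a D φ₀) :=
    N.hInv 𝔑₀ R.r a D hD 𝔑₀ l o φ₀ (isRightHInv_of_biHInv193 hinv)
  have hbi : IsBiHInv 𝔑₀ l o (nat193 a D φ₀) :=
    ⟨fun u hu y => ⟨nat_left_inv193 a D (fun y => (hinv.1 u hu y).1) y, hr.1 u hu y⟩,
      fun h h1 h2 h3 y =>
        ⟨nat_left_inv193 a D (fun y => (hinv.2 h h1 h2 h3 y).1) y, hr.2 h ⟨h1, h2, h3⟩ y⟩⟩
  have habs : AbsorbsPos R.μ 𝔑₀ R.r (nat193 a D φ₀) :=
    N.absorb hT1 N.op R hR 𝔑₀ a D hD φ₀ htest.cont htest.supp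
  refine ⟨nat193 a D φ₀, ht, N.ek hT1 N.op R hR 𝔑₀ R.r a D hD φ₀ htest.cont htest.supp hek,
    N.adjEK hT1 R hR 𝔑₀ R.r a D hD φ₀ htest.cont htest.supp hadj, hbi, ?_, ?_⟩
  · intro e he hi x
    rw [N.op hT1 R hR 𝔑₀ R.r a D hD φ₀ htest.cont htest.supp e he x]
    have hfix : torAvg a D e = e := funext fun g => N.fix 𝔑₀ R.r a D hD e hi g
    rw [hfix]
  · exact kill193 hT1 L (killLeaves193 K) R hR 𝔑 𝔑₀ h𝔑 hle l o _ ht.cont ht.supp hr habs

end Fermat.Agent.LT.T7.H193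

end
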