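import Mathlib
import Fermat.Agent.LT.T7.H193.NatMatchSpec

/-!
# Row LT, tower T7, node T7.L2.1 `SupplyC`: sub-station NAT-MATCH -- the PROVED TOPS
(sub-architect helper193)

OFF-MAIN.  Complete proofs, nothing assumed (the leaves of `NatMatchSpec.lean` are hypotheses).

    natMatch193 : FlatNatC K → FlatNatC K' → JointIntC K → JointIntC K' → … →
      IsRelTorus Dd.𝔫 Dd.R.r Dd.R'.r a D a' D' →
      (∀ t' ∈ D', IsGlobMatch Dd (trl193 (a' t') φ') (trl193 (a (fibSum193 t')) f)) →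
      IsGlobMatch Dd (nat193 a' D' φ') (nat193 a D f)
    orbInt_nat193 : the orbital integral of a torus mean is the mean of the orbital integrals of
      the translates (one field)
    relTorusC_of193 : the leaves of REL-TORUS give `RelTorusC K K'`
    isTorusData_mono193 : torus data for a level are torus data for every larger ideal
-/

set_option autoImplicit false

open IsDedekindDomain NumberField MeasureTheory
open scoped ComplexConjugate

noncomputable section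

namespace Fermat.Agent.LT.T7.H193

open Fermat.Agent.LT.H556 Fermat.Agent.LT.H556.A0 Fermat.Agent.LT

attribute [local instance] Fermat.Agent.LT.T5.instMeasurableSpaceG

section OneField

variable {K : Type} [Field K] [NumberField K]

/-- The level groups are monotone in the ideal. -/
theorem inLevelGroup_mono193 {𝔑 𝔑₀ : Ideal (𝓞 K)} (hle : 𝔑 ≤ 𝔑₀) {u : G K}
    (hu : InLevelGroup 𝔑 u) : InLevelGroup 𝔑₀ u := by
  have hmono : ∀ v : HeightOneSpectrum (𝓞 K), idealClosure 𝔑 v ⊆ idealClosure 𝔑₀ v :=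
    fun v => closure_mono (Set.image_mono hle)
  exact ⟨hu.1, fun v i j => ⟨hmono v (hu.2 v i j).1, hmono v (hu.2 v i j).2⟩⟩

/-- Torus data for the level `𝔑` are torus data for every ideal `𝔑₀ ⊇ 𝔑` (an automorphic
function of level `𝔑₀` is one of level `𝔑`). -/
theorem isTorusData_mono193 {𝔑 𝔑₀ : Ideal (𝓞 K)} (hle : 𝔑 ≤ 𝔑₀) {r : G K}
    {a : (InfinitePlace K → ℝ) → G K} {D : Set (InfinitePlace K → ℝ)}
    (h : IsTorusData 𝔑 r a D) : IsTorusData 𝔑₀ r a D where
  cont := h.cont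
  mul := h.mul
  inf := h.inf
  fin := h.fin
  central := h.central
  meas := h.meas
  bdd := h.bdd
  pos := h.pos
  mean := fun e he hc g s =>
    h.mean e ⟨he.left_inv, fun u hu g => he.level_inv u (inLevelGroup_mono193 hle hu) g,
      he.arch_compact, he.ray⟩ hc g s

/-- **The orbital integral of a torus mean** is the mean of the orbital integrals of the
translates (`FlatNatC`, Fubini by `JointIntC`), and the orbital integrals of the translates are
integrable on `D`. -/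
theorem orbInt_nat193 (hT1 : T1.T1Out K) (hF : FlatNatC K) (hJ : JointIntC K)
    (hRS : T5.H29.RaySlabC K) (s : T5.AdelicAut K) (l : ℕ) (k : Subfield K) (𝔫 : Ideal (𝓞 K))
    (hTB : T5.H29.TwBoundC s l k 𝔫) (hcyc : T5.IsCyclicOfDegree s l k)
    (R : Frame5 K) (hR : IsFrame5 R) (hP : T5.AutPreserves s 𝔫 R.μ R.r)
    (a : (InfinitePlace K → ℝ) → G K) (D : Set (InfinitePlace K → ℝ))
    (ha : Continuous a) (hDm : MeasurableSet D) (hDb : Bornology.IsBounded D)
    (φ : G K → ℂ) (hφc : Continuous φ) (hφs : HasCompactSupport φ)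
    (hreg : ∀ t ∈ D, T5.IsTwRegular s l k (trl193 (a t) φ))
    (δ : GL (Fin 2) K) (Fδ : Set (G K)) (hFδ : T5.IsTwDomain s δ Fδ) :
    IntegrableOn (fun t => ∫ x in Fδ, T5.twTerm R.r s (trl193 (a t) φ) δ x ∂(R.μ)) D volume ∧
      ∫ x in Fδ, T5.twTerm R.r s (nat193 a D φ) δ x ∂(R.μ)
        = (((volume D).toReal : ℝ) : ℂ)⁻¹
          * ∫ t in D, ∫ x in Fδ, T5.twTerm R.r s (trl193 (a t) φ) δ x ∂(R.μ) := by
  have hB : BorelSpace (G K) := ⟨rfl⟩
  have : LocallyCompactSpace (G K) := hT1.locComp.2.1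
  have : T2Space (G K) := hT1.locComp.2.2.1
  have : SecondCountableTopology (G K) := hT1.locComp.2.2.2
  have : R.μ.IsHaarMeasure := hR.frame.haar
  have hJ' := hJ hT1 hRS s l k 𝔫 hTB hcyc R.μ R.F R.r hR.frame hR.ray hP a D ha hDm hDb φ hφc
    hφs hreg δ Fδ hFδ
  refine ⟨hJ'.integral_prod_right, ?_⟩
  have e1 : (fun x => T5.twTerm R.r s (nat193 a D φ) δ x)
      = fun x => (((volume D).toReal : ℝ) : ℂ)⁻¹
          * ∫ t in D, T5.twTerm R.r s (trl193 (a t) φ) δ x :=
    funext fun x => hF hT1 s R.r hR.ray a D ha hDm hDb φ hφc hφs δ x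
  rw [e1, integral_const_mul]
  congr 1
  exact integral_integral_swap
    (f := fun x t => T5.twTerm R.r s (trl193 (a t) φ) δ x) hJ'

end OneField

section TwoFields

variable {K K' : Type} [Field K] [NumberField K] [Field K'] [NumberField K'] [Algebra K K']

/-- **NAT-MATCH.**  For compatible torus data: if the translates are matched and regular, the
torus means are matched. -/
theorem natMatch193 (hT1 : T1.T1Out K) (hT1' : T1.T1Out K')
    (hF : FlatNatC K) (hF' : FlatNatC K') (hJ : JointIntC K) (hJ' : JointIntC K')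
    (hRS : T5.H29.RaySlabC K) (hRS' : T5.H29.RaySlabC K')
    (Dd : CompData K K') (hDd : IsCompData Dd)
    (hTB : T5.H29.TwBoundC (T5.AdelicAut.id K) 1 ⊤ Dd.𝔫)
    (hTB' : T5.H29.TwBoundC Dd.s Dd.l Dd.k Dd.𝔑)
    {a : (InfinitePlace K → ℝ) → G K} {D : Set (InfinitePlace K → ℝ)}
    {a' : (InfinitePlace K' → ℝ) → G K'} {D' : Set (InfinitePlace K' → ℝ)}
    (hrel : IsRelTorus Dd.𝔫 Dd.R.r Dd.R'.r a D a' D')
    (φ' : G K' → ℂ) (f : G K → ℂ)
    (hφ'c : Continuous φ') (hφ's : HasCompactSupport φ')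
    (hfc : Continuous f) (hfs : HasCompactSupport f)
    (hreg' : ∀ t' ∈ D', T5.IsTwRegular Dd.s Dd.l Dd.k (trl193 (a' t') φ'))
    (hreg : ∀ t ∈ D, T5.IsTwRegular (T5.AdelicAut.id K) 1 ⊤ (trl193 (a t) f))
    (hM : ∀ t' ∈ D', IsGlobMatch Dd (trl193 (a' t') φ')
      (trl193 (a (fibSum193 (K := K) t')) f)) :
    IsGlobMatch Dd (nat193 a' D' φ') (nat193 a D f) := by
  have keyd := fun (γ : GL (Fin 2) K) (Fγ : Set (G K))
      (h : T5.IsTwDomain (T5.AdelicAut.id K) γ Fγ) =>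
    orbInt_nat193 hT1 hF hJ hRS (T5.AdelicAut.id K) 1 ⊤ Dd.𝔫 hTB T5.isCyclicOfDegree_id Dd.R
      hDd.frame (T5.autPreserves_id Dd.𝔫 Dd.R.μ Dd.R.r) a D hrel.down.cont hrel.down.meas
      hrel.down.bdd f hfc hfs hreg γ Fγ h
  have keyu := fun (δ : GL (Fin 2) K') (Fδ : Set (G K')) (h : T5.IsTwDomain Dd.s δ Fδ) =>
    orbInt_nat193 hT1' hF' hJ' hRS' Dd.s Dd.l Dd.k Dd.𝔑 hTB' hDd.cyc Dd.R'
      hDd.frame' hDd.aut a' D' hrel.up.cont hrel.up.meas hrel.up.bdd φ' hφ'c hφ's hreg' δ Fδ h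
  refine ⟨?_, ?_⟩
  · intro δ γ hell hnorm Fδ Fγ hFδ hFγ
    rw [(keyu δ Fδ hFδ).2, (keyd γ Fγ hFγ).2]
    have h1 : ∫ t' in D', ∫ x in Fδ, T5.twTerm Dd.R'.r Dd.s (trl193 (a' t') φ') δ x ∂(Dd.R'.μ)
        = ∫ t' in D', (fun t => ∫ x in Fγ,
            T5.twTerm Dd.R.r (T5.AdelicAut.id K) (trl193 (a t) f) γ x ∂(Dd.R.μ))
            (fibSum193 (K := K) t') :=
      setIntegral_congr_fun hrel.up.meas fun t' ht' =>
        (hM t' ht').norm δ γ hell hnorm Fδ Fγ hFδ hFγ
    rw [h1]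
    exact hrel.push _ (keyd γ Fγ hFγ).1
  · intro γ hell hnn Fγ hFγ
    rw [(keyd γ Fγ hFγ).2]
    have h0 : ∫ t in D, ∫ x in Fγ,
        T5.twTerm Dd.R.r (T5.AdelicAut.id K) (trl193 (a t) f) γ x ∂(Dd.R.μ)
        = ∫ _t in D, (0 : ℂ) :=
      setIntegral_congr_fun hrel.down.meas fun t ht => by
        obtain ⟨t', ht', rfl⟩ := hrel.onto t ht
        exact (hM t' ht').nonnorm γ hell hnn Fγ hFγ
    rw [h0, integral_zero, mul_zero]

variable (K K') in
/-- **REL-TORUS from its leaves.** -/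
theorem relTorusC_of193 (hP : PosScalC K) (hP' : PosScalC K') (hU : UnitInvC K)
    (hU' : UnitInvC K') (hD : DirichletC K) (hK : KerUnitsC K K') (hC : FibCardC K K')
    (hT : TorusParC) (hPush : PushParC) (hA : RelTorusAsmC K K') : RelTorusC K K' :=
  hA hP hP' hU hU' hD hK hC hT hPush

end TwoFields

end Fermat.Agent.LT.T7.H193

end
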