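import Mathlib
import Fermat.Agent.LT.T7.H193.AvgFinal
import Fermat.Agent.LT.T7.H193.NatMatchTop
import Fermat.Agent.LT.T7.H893.SupplyFamSpec

/-!
# Row LT, tower T7, node T7.L2.1 `SupplyC`: TOOLS for the construction (sub-architect helper193)

OFF-MAIN.  Complete proofs, nothing assumed; the only hypothesis is the output `T1.T1Out K` of
the closed tower T1.

* `killing_of_torus193`: THE KILLING TOOL, PARAMETRIC in the torus data `(a, D)` (so that the
  compatible data of `RelTorusC` can be used upstairs and downstairs): for an Eisenstein-killing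
  test function `φ₀` which is bi-invariant under `U(𝔑₀)` and the Iwahori subgroups along the
  orbit, `nat193 a D φ₀` has the same properties, the same action on the functions invariant
  under the positive scalars at infinity, and KILLS the cusp functions orthogonal to the
  invariant ones (the fields `up2_*` / `dn2_*` of `H893.IsL2PreOp`).
* `nat193` and `trl193` commute with the operations `H893.ltr`, `H893.lsum`, `H893.iwL`,
  `H893.regL` and with the convolution: the families of helper893 built on `nat193 a D φ₀` are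
  the torus means of the families built on `φ₀`:

      up_nat193 : conv μ Φ₁ (lsum Hg (regL w z H k m (nat193 a D φ₀)))
                    = nat193 a D (conv μ Φ₁ (lsum Hg (regL w z H k m φ₀)))
      up_trl193 : conv μ Φ₁ (lsum Hg (regL w z H k m (trl193 c φ₀)))
                    = trl193 c (conv μ Φ₁ (lsum Hg (regL w z H k m φ₀)))
-/

set_option autoImplicit false

open IsDedekindDomain NumberField MeasureTheory
open scoped ComplexConjugate

noncomputable section

namespace Fermat.Agent.LT.T7.H193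

open Fermat.Agent.LT.H556 Fermat.Agent.LT.H556.A0 Fermat.Agent.LT

attribute [local instance] Fermat.Agent.LT.T5.instMeasurableSpaceG

variable {K : Type} [Field K] [NumberField K]

/-! ## 1. The killing tool, parametric in the torus data -/

/-- **THE KILLING TOOL, parametric in `(a, D)`.** -/
theorem killing_of_torus193 (hT1 : T1.T1Out K) (R : Frame5 K)
    (hR : IsFrame5 R) (𝔑 𝔑₀ : Ideal (𝓞 K)) (h𝔑 : 𝔑 ≠ ⊥) (hle : 𝔑 ≤ 𝔑₀) (l : ℕ)
    (o : ℕ → HeightOneSpectrum (𝓞 K))
    {a : (InfinitePlace K → ℝ) → G K} {D : Set (InfinitePlace K → ℝ)}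
    (hD : IsTorusData 𝔑₀ R.r a D) (φ₀ : G K → ℂ)
    (htest : T5.IsTestFn 𝔑 T5.trivType φ₀) (hek : T5.IsEK R.μ φ₀)
    (hadj : T5.IsEK R.μ (T5.adjointFn φ₀)) (hinv : IsBiHInv 𝔑₀ l o φ₀) :
    T5.IsTestFn 𝔑 T5.trivType (nat193 a D φ₀) ∧ T5.IsEK R.μ (nat193 a D φ₀) ∧
      T5.IsEK R.μ (T5.adjointFn (nat193 a D φ₀)) ∧ IsBiHInv 𝔑₀ l o (nat193 a D φ₀) ∧
      (∀ e : G K → ℂ, Continuous e →
        (∀ (w : InfinitePlace K) (z : G K), IsArchPosScalar w z →
          ∀ g : G K, e (g * z) = e g) →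
        ∀ x : G K, T5.Rconv R.μ (nat193 a D φ₀) e x = T5.Rconv R.μ φ₀ e x) ∧
      ∀ ψ : G K → ℂ, T5.IsCuspFn 𝔑 T5.trivType R.r ψ →
        (∀ χ : G K → ℂ, IsWFn 𝔑₀ R.r l o χ → T5.innerD R.μ R.F ψ χ = 0) →
        ∀ x : G K, T5.Rconv R.μ (nat193 a D φ₀) ψ x = 0 := by
  have L := projLeaves193 K
  have N := natLeaves193 K
  have ht : T5.IsTestFn 𝔑 T5.trivType (nat193 a D φ₀) := isTestFn_nat193 hT1 N hD htest
  have hr : IsRightHInv 𝔑₀ l o (nat193 a D φ₀) :=
    N.hInv 𝔑₀ R.r a D hD 𝔑₀ l o φ₀ (isRightHInv_of_biHInv193 hinv)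
  have hbi : IsBiHInv 𝔑₀ l o (nat193 a D φ₀) :=
    ⟨fun u hu y => ⟨nat_left_inv193 a D (fun y => (hinv.1 u hu y).1) y, hr.1 u hu y⟩,
      fun h h1 h2 h3 y =>
        ⟨nat_left_inv193 a D (fun y => (hinv.2 h h1 h2 h3 y).1) y, hr.2 h ⟨h1, h2, h3⟩ y⟩⟩
  have habs : AbsorbsPos R.μ 𝔑₀ R.r (nat193 a D φ₀) :=
    N.absorb hT1 N.op R hR 𝔑₀ a D hD φ₀ htest.cont htest.supp
  refine ⟨ht, N.ek hT1 N.op R hR 𝔑₀ R.r a D hD φ₀ htest.cont htest.supp hek,
    N.adjEK hT1 R hR 𝔑₀ R.r a D hD φ₀ htest.cont htest.supp hadj, hbi, ?_, ?_⟩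
  · intro e he hi x
    rw [N.op hT1 R hR 𝔑₀ R.r a D hD φ₀ htest.cont htest.supp e he x]
    have hfix : torAvg a D e = e := funext fun g => N.fix 𝔑₀ R.r a D hD e hi g
    rw [hfix]
  · exact kill193 hT1 L (killLeaves193 K) R hR 𝔑 𝔑₀ h𝔑 hle l o _ ht.cont ht.supp hr habs

/-! ## 2. Translates and torus means commute with the operations of the families -/

/-- A continuous function is integrable on a bounded measurable set of `ℝ^ι`. -/
theorem integrableOn_of_continuous193 {ι : Type} [Fintype ι] {g : (ι → ℝ) → ℂ}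
    (hg : Continuous g) {D : Set (ι → ℝ)} (hDb : Bornology.IsBounded D) :
    IntegrableOn g D volume :=
  (hg.continuousOn.integrableOn_compact hDb.isCompact_closure).mono_set subset_closure

theorem trl_ltr193 (c b : G K) (φ : G K → ℂ) :
    trl193 c (H893.ltr b φ) = H893.ltr b (trl193 c φ) := by
  funext g
  show φ (b⁻¹ * (g * c⁻¹)) = φ (b⁻¹ * g * c⁻¹)
  rw [mul_assoc]

theorem trl_lsum193 (c : G K) (H : Finset (G K)) (φ : G K → ℂ) :
    trl193 c (H893.lsum H φ) = H893.lsum H (trl193 c φ) := by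
  funext g
  show ∑ h ∈ H, φ (h⁻¹ * (g * c⁻¹)) = ∑ h ∈ H, φ (h⁻¹ * g * c⁻¹)
  simp only [mul_assoc]

theorem trl_iwL193 (c : G K) (w : HeightOneSpectrum (𝓞 K)) (H : Finset (G K)) (φ : G K → ℂ) :
    trl193 c (H893.iwL w H φ) = H893.iwL w H (trl193 c φ) := by
  funext g
  show _ * ∑ h ∈ H, φ (h⁻¹ * (g * c⁻¹)) = _ * ∑ h ∈ H, φ (h⁻¹ * g * c⁻¹)
  simp only [mul_assoc]

theorem trl_iwL_iter193 (c : G K) (w : HeightOneSpectrum (𝓞 K)) (H : Finset (G K)) (m : ℕ)
    (φ : G K → ℂ) :
    trl193 c ((H893.iwL w H)^[m] φ) = (H893.iwL w H)^[m] (trl193 c φ) := by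
  induction m with
  | zero => rfl
  | succ m ih =>
    rw [Function.iterate_succ_apply', Function.iterate_succ_apply', trl_iwL193, ih]

theorem trl_regL193 (c : G K) (w : HeightOneSpectrum (𝓞 K)) (z : G K) (H : Finset (G K))
    (k : ℤ) (m : ℕ) (φ : G K → ℂ) :
    trl193 c (H893.regL w z H k m φ) = H893.regL w z H k m (trl193 c φ) := by
  unfold H893.regL
  rw [trl_ltr193, trl_iwL_iter193]

theorem trl_conv193 (μ : Measure (G K)) (c : G K) (φ₁ φ₂ : G K → ℂ) :
    T5.conv μ φ₁ (trl193 c φ₂) = trl193 c (T5.conv μ φ₁ φ₂) := by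
  funext g
  show ∫ y, φ₁ y * φ₂ (y⁻¹ * g * c⁻¹) ∂μ = ∫ y, φ₁ y * φ₂ (y⁻¹ * (g * c⁻¹)) ∂μ
  simp only [mul_assoc]

/-- The member of the family upstairs built on a translate is the translate of the member. -/
theorem up_trl193 (μ : Measure (G K)) (c : G K) (Φ₁ : G K → ℂ) (Hg : Finset (G K))
    (w : HeightOneSpectrum (𝓞 K)) (z : G K) (H : Finset (G K)) (k : ℤ) (m : ℕ) (φ₀ : G K → ℂ) :
    T5.conv μ Φ₁ (H893.lsum Hg (H893.regL w z H k m (trl193 c φ₀)))
      = trl193 c (T5.conv μ Φ₁ (H893.lsum Hg (H893.regL w z H k m φ₀))) := by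
  rw [← trl_regL193, ← trl_lsum193, trl_conv193]

/-- The member of the family downstairs built on a translate is the translate of the member. -/
theorem down_trl193 (μ : Measure (G K)) (c : G K) (F₁ : G K → ℂ)
    (w : HeightOneSpectrum (𝓞 K)) (z : G K) (H : Finset (G K)) (k : ℤ) (m : ℕ) (f₀ : G K → ℂ) :
    T5.conv μ F₁ (H893.regL w z H k m (trl193 c f₀))
      = trl193 c (T5.conv μ F₁ (H893.regL w z H k m f₀)) := by
  rw [← trl_regL193, trl_conv193]

section Nat

variable {a : (InfinitePlace K → ℝ) → G K} {D : Set (InfinitePlace K → ℝ)}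

theorem nat_ltr193 (b : G K) (φ : G K → ℂ) :
    nat193 a D (H893.ltr b φ) = H893.ltr b (nat193 a D φ) := by
  funext g
  show _ * ∫ t in D, φ (b⁻¹ * (g * (a t)⁻¹)) = _ * ∫ t in D, φ (b⁻¹ * g * (a t)⁻¹)
  simp only [mul_assoc]

theorem continuous_arg193 (ha : Continuous a) {φ : G K → ℂ} (hφ : Continuous φ) (b g : G K) :
    Continuous fun t : InfinitePlace K → ℝ => φ (b * g * (a t)⁻¹) :=
  hφ.comp (continuous_const.mul ha.inv)

theorem nat_lsum193 (ha : Continuous a) (hDb : Bornology.IsBounded D) (H : Finset (G K))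
    {φ : G K → ℂ} (hφ : Continuous φ) :
    nat193 a D (H893.lsum H φ) = H893.lsum H (nat193 a D φ) := by
  funext g
  show _ * ∫ t in D, ∑ h ∈ H, φ (h⁻¹ * (g * (a t)⁻¹))
    = ∑ h ∈ H, _ * ∫ t in D, φ (h⁻¹ * g * (a t)⁻¹)
  rw [integral_finsetSum, Finset.mul_sum]
  · simp only [mul_assoc]
  · intro h _
    have : IntegrableOn (fun t => φ (h⁻¹ * g * (a t)⁻¹)) D volume :=
      integrableOn_of_continuous193 (continuous_arg193 ha hφ h⁻¹ g) hDb
    have e : (fun t => φ (h⁻¹ * (g * (a t)⁻¹))) = fun t => φ (h⁻¹ * g * (a t)⁻¹) :=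
      funext fun t => by rw [mul_assoc]
    rw [e]
    exact this

theorem continuous_ltr193 (b : G K) {φ : G K → ℂ} (hφ : Continuous φ) :
    Continuous (H893.ltr b φ) :=
  hφ.comp (continuous_const.mul continuous_id)

theorem continuous_lsum193 (H : Finset (G K)) {φ : G K → ℂ} (hφ : Continuous φ) :
    Continuous (H893.lsum H φ) :=
  continuous_finsetSum _ fun _ _ => hφ.comp (continuous_const.mul continuous_id)

theorem continuous_iwL193 (w : HeightOneSpectrum (𝓞 K)) (H : Finset (G K)) {φ : G K → ℂ}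
    (hφ : Continuous φ) : Continuous (H893.iwL w H φ) :=
  continuous_const.mul (continuous_lsum193 H hφ)

theorem continuous_iwL_iter193 (w : HeightOneSpectrum (𝓞 K)) (H : Finset (G K)) (m : ℕ)
    {φ : G K → ℂ} (hφ : Continuous φ) : Continuous ((H893.iwL w H)^[m] φ) := by
  induction m with
  | zero => exact hφ
  | succ m ih =>
    rw [Function.iterate_succ_apply']
    exact continuous_iwL193 w H ih

theorem nat_iwL193 (ha : Continuous a) (hDb : Bornology.IsBounded D)
    (w : HeightOneSpectrum (𝓞 K)) (H : Finset (G K)) {φ : G K → ℂ} (hφ : Continuous φ) :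
    nat193 a D (H893.iwL w H φ) = H893.iwL w H (nat193 a D φ) := by
  have h1 : H893.iwL w H φ
      = fun y => ((Real.sqrt (Ideal.absNorm w.asIdeal : ℝ) : ℝ) : ℂ)⁻¹ * H893.lsum H φ y := rfl
  have h2 : H893.iwL w H (nat193 a D φ)
      = fun y => ((Real.sqrt (Ideal.absNorm w.asIdeal : ℝ) : ℝ) : ℂ)⁻¹
          * H893.lsum H (nat193 a D φ) y := rfl
  rw [h1, h2, ← nat_lsum193 ha hDb H hφ]
  funext g
  show _ * ∫ t in D, _ * H893.lsum H φ (g * (a t)⁻¹) = _ * (_ * ∫ t in D, H893.lsum H φ (g * (a t)⁻¹))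
  rw [integral_const_mul]
  ring

theorem nat_iwL_iter193 (ha : Continuous a) (hDb : Bornology.IsBounded D)
    (w : HeightOneSpectrum (𝓞 K)) (H : Finset (G K)) (m : ℕ) {φ : G K → ℂ}
    (hφ : Continuous φ) :
    nat193 a D ((H893.iwL w H)^[m] φ) = (H893.iwL w H)^[m] (nat193 a D φ) := by
  induction m with
  | zero => rfl
  | succ m ih =>
    rw [Function.iterate_succ_apply', Function.iterate_succ_apply',
      nat_iwL193 ha hDb w H (continuous_iwL_iter193 w H m hφ), ih]

theorem nat_regL193 (ha : Continuous a) (hDb : Bornology.IsBounded D)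
    (w : HeightOneSpectrum (𝓞 K)) (z : G K) (H : Finset (G K)) (k : ℤ) (m : ℕ) {φ : G K → ℂ}
    (hφ : Continuous φ) :
    nat193 a D (H893.regL w z H k m φ) = H893.regL w z H k m (nat193 a D φ) := by
  unfold H893.regL
  rw [nat_ltr193, nat_iwL_iter193 ha hDb w H m hφ]

end Nat

/-! ## 3. Compact supports, and the families built on a torus mean -/

theorem hasCompactSupport_ltr193 (b : G K) {φ : G K → ℂ} (hφ : HasCompactSupport φ) :
    HasCompactSupport (H893.ltr b φ) :=
  hφ.comp_homeomorph (Homeomorph.mulLeft b⁻¹)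

theorem hasCompactSupport_lsum193 (H : Finset (G K)) {φ : G K → ℂ} (hφ : HasCompactSupport φ) :
    HasCompactSupport (H893.lsum H φ) := by
  classical
  have key : ∀ S : Finset (G K), HasCompactSupport fun y : G K => ∑ h ∈ S, φ (h⁻¹ * y) := by
    intro S
    induction S using Finset.induction_on with
    | empty =>
      simp only [Finset.sum_empty]
      exact HasCompactSupport.zero
    | insert b S hb ih =>
      have e : (fun y : G K => ∑ h ∈ insert b S, φ (h⁻¹ * y))
          = (fun y => φ (b⁻¹ * y)) + fun y => ∑ h ∈ S, φ (h⁻¹ * y) := by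
        funext y
        rw [Finset.sum_insert hb]
        rfl
      rw [e]
      exact (hasCompactSupport_ltr193 b hφ).add ih
  exact key H

theorem hasCompactSupport_iwL193 (w : HeightOneSpectrum (𝓞 K)) (H : Finset (G K))
    {φ : G K → ℂ} (hφ : HasCompactSupport φ) : HasCompactSupport (H893.iwL w H φ) := by
  refine (hasCompactSupport_lsum193 H hφ).mono fun y hy => ?_
  intro h0
  apply hy
  show _ * H893.lsum H φ y = 0
  rw [h0, mul_zero]

theorem hasCompactSupport_iwL_iter193 (w : HeightOneSpectrum (𝓞 K)) (H : Finset (G K)) (m : ℕ)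
    {φ : G K → ℂ} (hφ : HasCompactSupport φ) : HasCompactSupport ((H893.iwL w H)^[m] φ) := by
  induction m with
  | zero => exact hφ
  | succ m ih =>
    rw [Function.iterate_succ_apply']
    exact hasCompactSupport_iwL193 w H ih

theorem continuous_regL193 (w : HeightOneSpectrum (𝓞 K)) (z : G K) (H : Finset (G K)) (k : ℤ)
    (m : ℕ) {φ : G K → ℂ} (hφ : Continuous φ) : Continuous (H893.regL w z H k m φ) :=
  continuous_ltr193 _ (continuous_iwL_iter193 w H m hφ)

theorem hasCompactSupport_regL193 (w : HeightOneSpectrum (𝓞 K)) (z : G K) (H : Finset (G K))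
    (k : ℤ) (m : ℕ) {φ : G K → ℂ} (hφ : HasCompactSupport φ) :
    HasCompactSupport (H893.regL w z H k m φ) :=
  hasCompactSupport_ltr193 _ (hasCompactSupport_iwL_iter193 w H m hφ)

/-- **The member of the family upstairs built on a torus mean is the torus mean of the member
built on the function itself.** -/
theorem up_nat193 (hT1 : T1.T1Out K) (R : Frame5 K) (hR : IsFrame5 R) {𝔑 : Ideal (𝓞 K)}
    {a : (InfinitePlace K → ℝ) → G K} {D : Set (InfinitePlace K → ℝ)}
    (hD : IsTorusData 𝔑 R.r a D) (Φ₁ : G K → ℂ) (hΦc : Continuous Φ₁)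
    (hΦs : HasCompactSupport Φ₁) (Hg : Finset (G K))
    (w : HeightOneSpectrum (𝓞 K)) (z : G K) (H : Finset (G K)) (k : ℤ) (m : ℕ) (φ₀ : G K → ℂ)
    (hφc : Continuous φ₀) (hφs : HasCompactSupport φ₀) :
    T5.conv R.μ Φ₁ (H893.lsum Hg (H893.regL w z H k m (nat193 a D φ₀)))
      = nat193 a D (T5.conv R.μ Φ₁ (H893.lsum Hg (H893.regL w z H k m φ₀))) := by
  rw [← nat_regL193 hD.cont hD.bdd w z H k m hφc,
    ← nat_lsum193 hD.cont hD.bdd Hg (continuous_regL193 w z H k m hφc)]
  funext g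
  exact ((natLeaves193 K).conv hT1 R hR 𝔑 R.r a D hD Φ₁ _ hΦc hΦs
    (continuous_lsum193 Hg (continuous_regL193 w z H k m hφc))
    (hasCompactSupport_lsum193 Hg (hasCompactSupport_regL193 w z H k m hφs))).2 g

/-- **The member of the family downstairs built on a torus mean.** -/
theorem down_nat193 (hT1 : T1.T1Out K) (R : Frame5 K) (hR : IsFrame5 R) {𝔑 : Ideal (𝓞 K)}
    {a : (InfinitePlace K → ℝ) → G K} {D : Set (InfinitePlace K → ℝ)}
    (hD : IsTorusData 𝔑 R.r a D) (F₁ : G K → ℂ) (hFc : Continuous F₁)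
    (hFs : HasCompactSupport F₁)
    (w : HeightOneSpectrum (𝓞 K)) (z : G K) (H : Finset (G K)) (k : ℤ) (m : ℕ) (f₀ : G K → ℂ)
    (hfc : Continuous f₀) (hfs : HasCompactSupport f₀) :
    T5.conv R.μ F₁ (H893.regL w z H k m (nat193 a D f₀))
      = nat193 a D (T5.conv R.μ F₁ (H893.regL w z H k m f₀)) := by
  rw [← nat_regL193 hD.cont hD.bdd w z H k m hfc]
  funext g
  exact ((natLeaves193 K).conv hT1 R hR 𝔑 R.r a D hD F₁ _ hFc hFs
    (continuous_regL193 w z H k m hfc) (hasCompactSupport_regL193 w z H k m hfs)).2 g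

/-! ## 4. For compatible torus data the torus mean downstairs is the PUSH-FORWARD average -/

section Push

variable {K' : Type} [Field K'] [NumberField K'] [Algebra K K']

/-- **For compatible torus data the torus mean downstairs is the push-forward average**: the
mean over `t' ∈ D'` (the parameter space UPSTAIRS) of the translates by `a (N t')`.  So
`nat193 a' D' φ'` and `nat193 a D f` are averages over the SAME parameter space `D'` of the
translates `trl193 (a' t') φ'`, `trl193 (a (N t')) f` (the shape of `H893.IsAvgPure`), and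
`nat193 a D f` has the killing properties of `killing_of_torus193`. -/
theorem nat_eq_push193 {𝔫 : Ideal (𝓞 K)} {r : G K} {r' : G K'}
    {a : (InfinitePlace K → ℝ) → G K} {D : Set (InfinitePlace K → ℝ)}
    {a' : (InfinitePlace K' → ℝ) → G K'} {D' : Set (InfinitePlace K' → ℝ)}
    (hrel : IsRelTorus 𝔫 r r' a D a' D') {f : G K → ℂ} (hf : Continuous f) (g : G K) :
    nat193 a D f g
      = (((volume D').toReal : ℝ) : ℂ)⁻¹
        * ∫ t' in D', trl193 (a (fibSum193 (K := K) t')) f g := by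
  have hint : IntegrableOn (fun t => f (g * (a t)⁻¹)) D volume :=
    integrableOn_of_continuous193 (hf.comp (continuous_const.mul hrel.down.cont.inv))
      hrel.down.bdd
  exact (hrel.push (fun t => f (g * (a t)⁻¹)) hint).symm

end Push

end Fermat.Agent.LT.T7.H193

end
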