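import Mathlib
import Fermat.Agent.LT.T7.H193.NatMatchSpec

/-!
# Row LT, tower T7, node T7.L2.1, station NAT-MATCH, leaf RT.5 = REL-TORUS-ASM
(SPARE of row 2583, by the sub-architect helper193)

OFF-MAIN.  Imports the spec only.  New names only (suffix `RT193`).  No hole.

    relTorusAsmC193 (K K') : RelTorusAsmC K K'

`b₀` from `DirichletC K 𝔫 c`, `c = log t₀`; `b = ℓ • b₀`; `B = (lift (b₀ i))_i ∪ (logVec ε'_j)_j`;
`D`, `D'` the fundamental parallelepipeds; `N ∘ lift = ℓ` (`FibCardC`).
-/

set_option autoImplicit false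
set_option linter.unusedSectionVars false

open IsDedekindDomain NumberField MeasureTheory

noncomputable section

namespace Fermat.Agent.LT.T7.H193

open Fermat.Agent.LT.H556 Fermat.Agent.LT.H556.A0 Fermat.Agent.LT

attribute [local instance] Fermat.Agent.LT.T5.instMeasurableSpaceG

section Tools

variable {K : Type} [Field K] [NumberField K]
variable {K' : Type} [Field K'] [NumberField K'] [Algebra K K']

/-- An element of `GL₂(𝔸_K)` is determined by its components. -/
theorem g_extRT193 (g h : G K) (hinf : ∀ w : InfinitePlace K, infComp w g = infComp w h)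
    (hfin : ∀ v : HeightOneSpectrum (𝓞 K), finComp v g = finComp v h) : g = h := by
  apply Units.ext
  ext i j
  apply Prod.ext
  · funext w
    apply (InfinitePlace.Completion.extensionEmbedding w).injective
    exact congrFun (congrFun (hinf w) i) j
  · apply FiniteAdeleRing.ext
    intro v
    exact congrFun (congrFun (hfin v) i) j

variable (K K') in
/-- `N` as a linear map. -/
def fibSumLRT193 : (InfinitePlace K' → ℝ) →ₗ[ℝ] (InfinitePlace K → ℝ) where
  toFun := fibSum193 (K := K)
  map_add' x y := by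
    funext v
    simp only [fibSum193, Pi.add_apply]
    rw [← Finset.sum_add_distrib]
    refine Finset.sum_congr rfl fun w _ => ?_
    split_ifs <;> simp
  map_smul' c x := by
    funext v
    simp only [fibSum193, Pi.smul_apply, smul_eq_mul, RingHom.id_apply]
    rw [Finset.mul_sum]
    refine Finset.sum_congr rfl fun w _ => ?_
    split_ifs <;> simp

theorem fibSumLRT193_apply (x : InfinitePlace K' → ℝ) :
    fibSumLRT193 K K' x = fibSum193 (K := K) x := rfl

variable (K K') in
/-- The lift as a linear map. -/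
def liftLRT193 : (InfinitePlace K → ℝ) →ₗ[ℝ] (InfinitePlace K' → ℝ) where
  toFun := liftVec193 (K' := K')
  map_add' _ _ := rfl
  map_smul' _ _ := rfl

theorem liftLRT193_apply (x : InfinitePlace K → ℝ) :
    liftLRT193 K K' x = liftVec193 (K' := K') x := rfl

/-- `N (lift x) = ℓ x`. -/
theorem fibSum_liftRT193 {ℓ : ℕ}
    (hfib : ∀ v : InfinitePlace K,
      Nat.card {w : InfinitePlace K' // w.comap (algebraMap K K') = v} = ℓ)
    (x : InfinitePlace K → ℝ) :
    fibSum193 (K := K) (liftVec193 (K' := K') x) = (ℓ : ℝ) • x := by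
  classical
  funext v
  simp only [fibSum193, liftVec193, Pi.smul_apply, smul_eq_mul]
  have h1 : ∀ w : InfinitePlace K',
      (if w.comap (algebraMap K K') = v then x (w.comap (algebraMap K K')) else 0)
        = if w.comap (algebraMap K K') = v then x v else 0 := by
    intro w
    split_ifs with h
    · rw [h]
    · rfl
  rw [Finset.sum_congr rfl (fun w _ => h1 w), ← Finset.sum_filter, Finset.sum_const,
    nsmul_eq_mul]
  congr 1
  rw [← hfib v, Nat.card_eq_fintype_card, Fintype.card_subtype]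

/-- Invariance under `z` gives invariance under the powers of `z`. -/
theorem inv_powRT193 {e : G K → ℂ} {z : G K} (h : ∀ g : G K, e (g * z) = e g) (n : ℕ) :
    ∀ g : G K, e (g * z ^ n) = e g := by
  induction n with
  | zero => intro g; simp
  | succ n ih =>
    intro g
    rw [pow_succ, ← mul_assoc, h, ih]

/-- A homomorphism maps the multiples to the powers. -/
theorem a_nsmulRT193 {a : (InfinitePlace K → ℝ) → G K}
    (ha : ∀ s t : InfinitePlace K → ℝ, a (s + t) = a s * a t) (n : ℕ)
    (x : InfinitePlace K → ℝ) : a ((n : ℝ) • x) = a x ^ n := by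
  have h0 : a 0 = 1 := by
    have h := ha 0 0
    rw [add_zero] at h
    exact (mul_eq_left (a := a 0) (b := a 0)).mp h.symm
  induction n with
  | zero => simp [h0]
  | succ n ih =>
    rw [pow_succ, ← ih, ← ha]
    congr 1
    push_cast
    rw [add_smul, one_smul]

/-- The basis upstairs: the lifts of a basis downstairs and a basis of `ker N`. -/
theorem exists_basisRT193 {ℓ : ℕ} (hℓ : ℓ ≠ 0)
    (hfib : ∀ v : InfinitePlace K,
      Nat.card {w : InfinitePlace K' // w.comap (algebraMap K K') = v} = ℓ)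
    (b₀ : Module.Basis (InfinitePlace K) ℝ (InfinitePlace K → ℝ))
    {J : Type} [Fintype J] (y : J → InfinitePlace K' → ℝ)
    (hy0 : ∀ j, fibSum193 (K := K) (y j) = 0)
    (hyli : LinearIndependent ℝ y)
    (hysp : ∀ x : InfinitePlace K' → ℝ, fibSum193 (K := K) x = 0 →
      x ∈ Submodule.span ℝ (Set.range y)) :
    ∃ B : Module.Basis (InfinitePlace K ⊕ J) ℝ (InfinitePlace K' → ℝ),
      (∀ i, B (Sum.inl i) = liftVec193 (K' := K') (b₀ i)) ∧ (∀ j, B (Sum.inr j) = y j) := by
  classical
  have hNL : ∀ x, fibSumLRT193 K K' (liftLRT193 K K' x) = (ℓ : ℝ) • x :=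
    fun x => fibSum_liftRT193 hfib x
  have hℓR : (ℓ : ℝ) ≠ 0 := Nat.cast_ne_zero.mpr hℓ
  have hker : LinearMap.ker (liftLRT193 K K') = ⊥ := by
    rw [LinearMap.ker_eq_bot']
    intro x hx
    have h := hNL x
    rw [hx, map_zero] at h
    exact (smul_eq_zero.mp h.symm).resolve_left hℓR
  have hli1 : LinearIndependent ℝ (fun i => liftVec193 (K' := K') (b₀ i)) :=
    b₀.linearIndependent.map' (liftLRT193 K K') hker
  have hdisj : Disjoint
      (Submodule.span ℝ (Set.range fun i => liftVec193 (K' := K') (b₀ i)))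
      (Submodule.span ℝ (Set.range y)) := by
    rw [Submodule.disjoint_def]
    intro x hx1 hx2
    have h1 : x ∈ LinearMap.range (liftLRT193 K K') := by
      refine (Submodule.span_le.mpr ?_) hx1
      rintro _ ⟨i, rfl⟩
      exact ⟨b₀ i, rfl⟩
    have h2 : x ∈ LinearMap.ker (fibSumLRT193 K K') := by
      refine (Submodule.span_le.mpr ?_) hx2
      rintro _ ⟨j, rfl⟩
      exact hy0 j
    obtain ⟨z, rfl⟩ := h1
    have h := hNL z
    rw [LinearMap.mem_ker.mp h2] at h
    have hz : z = 0 := (smul_eq_zero.mp h.symm).resolve_left hℓR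
    rw [hz, map_zero]
  have hli : LinearIndependent ℝ (Sum.elim (fun i => liftVec193 (K' := K') (b₀ i)) y) :=
    LinearIndependent.sum_type hli1 hyli hdisj
  have hsp : ⊤ ≤ Submodule.span ℝ
      (Set.range (Sum.elim (fun i => liftVec193 (K' := K') (b₀ i)) y)) := by
    intro x _
    rw [Set.Sum.elim_range, Submodule.span_union]
    have hx : x = liftLRT193 K K' ((ℓ : ℝ)⁻¹ • fibSumLRT193 K K' x)
        + (x - liftLRT193 K K' ((ℓ : ℝ)⁻¹ • fibSumLRT193 K K' x)) :=
      (add_sub_cancel _ _).symm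
    rw [hx]
    refine Submodule.add_mem_sup ?_ ?_
    · have h0 : ((ℓ : ℝ)⁻¹ • fibSumLRT193 K K' x) ∈ Submodule.span ℝ (Set.range b₀) := by
        rw [b₀.span_eq]
        trivial
      have h3 := Submodule.mem_map_of_mem (f := liftLRT193 K K') h0
      rw [Submodule.map_span, ← Set.range_comp] at h3
      exact h3
    · apply hysp
      show fibSumLRT193 K K' (x - liftLRT193 K K' ((ℓ : ℝ)⁻¹ • fibSumLRT193 K K' x)) = 0
      rw [map_sub, hNL, smul_smul, mul_inv_cancel₀ hℓR, one_smul, sub_self]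
  refine ⟨Module.Basis.mk hli hsp, fun i => ?_, fun j => ?_⟩
  · rw [Module.Basis.mk_apply]
    rfl
  · rw [Module.Basis.mk_apply]
    rfl

end Tools

/-- **LEAF RT.5 = REL-TORUS-ASM** (VERBATIM). -/
theorem relTorusAsmC193 (K K' : Type) [Field K] [NumberField K] [Field K'] [NumberField K']
    [Algebra K K'] : RelTorusAsmC K K' := by
  classical
  intro hPos hPos' hUnit hUnit' hDir hKer hFib hTor hPush ℓ hcyc htot 𝔫 h𝔫 r r' hr hr'
  obtain ⟨a, ha_cont, ha_mul, ha_inf, ha_fin, ha_central⟩ := hPos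
  obtain ⟨a', ha'_cont, ha'_mul, ha'_inf, ha'_fin, ha'_central⟩ := hPos'
  obtain ⟨hrfin, t₀, ht₀pos, ht₀pow, hrinf⟩ := hr
  obtain ⟨hr'fin, t₀', ht₀'pos, ht₀'pow, hr'inf⟩ := hr'
  have hℓ : ℓ ≠ 0 := hcyc.prime.ne_zero
  have hℓR : (ℓ : ℝ) ≠ 0 := Nat.cast_ne_zero.mpr hℓ
  have hdeg : Module.finrank ℚ K' = Module.finrank ℚ K * ℓ := by
    rw [← hcyc.degree, Module.finrank_mul_finrank]
  have ht : t₀ = t₀' ^ ℓ := by
    have h1 : (t₀' ^ ℓ) ^ (2 * Module.finrank ℚ K) = 2 := by
      rw [← pow_mul, ← ht₀'pow, hdeg]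
      congr 1
      ring
    have hn : 2 * Module.finrank ℚ K ≠ 0 := by
      have := Module.finrank_pos (R := ℚ) (M := K)
      omega
    exact (pow_left_inj₀ ht₀pos.le (pow_nonneg ht₀'pos.le ℓ) hn).mp (ht₀pow.trans h1.symm)
  have hc' : Real.log t₀' ≠ 0 := by
    intro h0
    rcases Real.log_eq_zero.mp h0 with h | h | h
    · linarith
    · rw [h, one_pow] at ht₀'pow
      norm_num at ht₀'pow
    · linarith
  have hclog : Real.log t₀ = (ℓ : ℝ) * Real.log t₀' := by
    rw [ht, Real.log_pow]
  have hc : Real.log t₀ ≠ 0 := by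
    rw [hclog]
    exact mul_ne_zero hℓR hc'
  obtain ⟨b₀, hb₀⟩ := hDir 𝔫 h𝔫 (Real.log t₀) hc
  obtain ⟨J, hJ, ε', hε'mem, hε'ker, hε'li, hε'sp⟩ := hKer ℓ hcyc htot 𝔫 h𝔫
  letI : Fintype J := hJ
  have hfib := hFib ℓ hcyc htot
  obtain ⟨B, hBl, hBr⟩ := exists_basisRT193 hℓ hfib b₀ (fun j => logVec193 (ε' j))
    hε'ker hε'li hε'sp
  obtain ⟨b, hb⟩ : ∃ b : Module.Basis (InfinitePlace K) ℝ (InfinitePlace K → ℝ),
      ∀ i, b i = (ℓ : ℝ) • b₀ i :=
    ⟨b₀.isUnitSMul (w := fun _ => (ℓ : ℝ)) (fun _ => isUnit_iff_ne_zero.mpr hℓR),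
      fun i => Module.Basis.isUnitSMul_apply _ i⟩
  obtain ⟨hmaps, honto, hpush⟩ :=
    hPush (InfinitePlace K) (InfinitePlace K') J (fibSumLRT193 K K') b B
      (fun i => by rw [hBl, fibSumLRT193_apply, fibSum_liftRT193 hfib, hb])
      (fun j => by rw [hBr]; exact hε'ker j)
  obtain ⟨hDm, hDb, hDp, hDmean⟩ := hTor (InfinitePlace K) (InfinitePlace K) b
  obtain ⟨hD'm, hD'b, hD'p, hD'mean⟩ := hTor (InfinitePlace K ⊕ J) (InfinitePlace K') B
  refine ⟨a, ZSpan.fundamentalDomain b, a', ZSpan.fundamentalDomain B,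
    ⟨⟨ha_cont, ha_mul, ha_inf, ha_fin, ha_central, hDm, hDb, hDp, ?_⟩,
      ⟨ha'_cont, ha'_mul, ha'_inf, ha'_fin, ha'_central, hD'm, hD'b, hD'p, ?_⟩,
      hmaps, honto, hpush⟩⟩
  · -- the mean downstairs
    intro e he _ g s
    refine hDmean (fun t => e (g * a t)) (fun i t => ?_) s
    show e (g * a (t + b i)) = e (g * a t)
    rw [ha_mul, ← mul_assoc, hb, a_nsmulRT193 ha_mul]
    refine inv_powRT193 (fun g => ?_) ℓ _
    rcases hb₀ i with h | ⟨ε, hε, h⟩
    · have hr1 : a (b₀ i) = r := by
        apply g_extRT193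
        · intro w
          rw [ha_inf, hrinf, h, Real.exp_log ht₀pos]
        · intro v
          rw [show finComp v (a (b₀ i)) = 1 from ha_fin (b₀ i) v,
            show finComp v r = 1 from hrfin v]
      rw [hr1]
      exact he.ray _
    · refine hUnit 𝔫 r e he ε hε (a (b₀ i)) (ha_fin (b₀ i)) (fun w => ?_) _
      have hpos : 0 < w (((ε : 𝓞 K)) : K) := by
        apply (InfinitePlace.pos_iff).mpr
        have : (ε : 𝓞 K) ≠ 0 := ε.ne_zero
        exact_mod_cast this
      rw [ha_inf, h, Real.exp_log hpos]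
  · -- the mean upstairs
    intro e he _ g s
    refine hD'mean (fun t => e (g * a' t)) (fun i t => ?_) s
    show e (g * a' (t + B i)) = e (g * a' t)
    rw [ha'_mul, ← mul_assoc]
    rcases i with i | j
    · rw [hBl]
      rcases hb₀ i with h | ⟨ε, hε, h⟩
      · have h1 : liftVec193 (K' := K') (b₀ i) = (ℓ : ℝ) • (fun _ => Real.log t₀') := by
          rw [h]
          funext w
          simp only [liftVec193, Pi.smul_apply, smul_eq_mul]
          exact hclog
        rw [h1, a_nsmulRT193 ha'_mul]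
        refine inv_powRT193 (fun g => ?_) ℓ _
        have hr1 : a' (fun _ => Real.log t₀') = r' := by
          apply g_extRT193
          · intro w
            rw [ha'_inf, hr'inf, Real.exp_log ht₀'pos]
          · intro v
            rw [show finComp v (a' (fun _ => Real.log t₀')) = 1 from ha'_fin _ v,
              show finComp v r' = 1 from hr'fin v]
        rw [hr1]
        exact he.ray _
      · have hcoe : ∀ x : 𝓞 K, ((algebraMap (𝓞 K) (𝓞 K') x : 𝓞 K') : K')
            = algebraMap K K' (x : K) := by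
          intro x
          rfl
        refine hUnit' _ r' e he (Units.map (algebraMap (𝓞 K) (𝓞 K')).toMonoidHom ε) ?_
          (a' (liftVec193 (K' := K') (b₀ i))) (ha'_fin _) (fun w => ?_) _
        · have h2 : ((Units.map (algebraMap (𝓞 K) (𝓞 K')).toMonoidHom ε : (𝓞 K')ˣ) : 𝓞 K') - 1
              = algebraMap (𝓞 K) (𝓞 K') ((ε : 𝓞 K) - 1) := by
            rw [map_sub, map_one]
            rfl
          rw [h2]
          exact Ideal.mem_map_of_mem _ hε
        · have hpos : 0 < w (algebraMap K K' (((ε : 𝓞 K)) : K)) := by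
            apply (InfinitePlace.pos_iff).mpr
            have h3 : (ε : 𝓞 K) ≠ 0 := ε.ne_zero
            have h4 : (((ε : 𝓞 K)) : K) ≠ 0 := by exact_mod_cast h3
            exact (map_ne_zero _).mpr h4
          rw [ha'_inf, h]
          have h5 : liftVec193 (K' := K') (fun w => Real.log (w (((ε : 𝓞 K)) : K))) w
              = Real.log (w (algebraMap K K' (((ε : 𝓞 K)) : K))) := by
            simp only [liftVec193]
            rw [InfinitePlace.comap_apply]
          rw [h5, Real.exp_log hpos]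
          rfl
    · rw [hBr]
      refine hUnit' _ r' e he (ε' j) (hε'mem j) (a' (logVec193 (ε' j))) (ha'_fin _)
        (fun w => ?_) _
      have hpos : 0 < w (((ε' j : 𝓞 K')) : K') := by
        apply (InfinitePlace.pos_iff).mpr
        have : (ε' j : 𝓞 K') ≠ 0 := (ε' j).ne_zero
        exact_mod_cast this
      rw [ha'_inf]
      simp only [logVec193]
      rw [Real.exp_log hpos]

end Fermat.Agent.LT.T7.H193

end
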