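import Mathlib
import Fermat.Agent.LT.T7.H193.NatMatchSpec
import Fermat.Agent.LT.T7.H193.NatMatchTop
import Fermat.Agent.LT.T7.H193.NatTools
import Fermat.Agent.LT.T7.H193.AvgFinal
import Fermat.Agent.LT.T7.H193.TorusPar
import Fermat.Agent.LT.T7.H193.RelTorusAsm
import Fermat.Agent.LT.T7.H634.KerUnits
import Fermat.Agent.LT.T7.H560.FibCard
import Fermat.Agent.LT.T7.H222.PushPar
import Fermat.Agent.LT.T7.H863.FlatNat
import Fermat.Agent.LT.T7.H890.JointInt

/-!
# Row LT, tower T7, node T7.L2.1 `SupplyC`: sub-station NAT-MATCH -- INTEGRATION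
(sub-architect helper193)

OFF-MAIN.  Complete proofs, nothing assumed.  ALL the leaves of `NatMatchSpec.lean` are proved
(byte-identical copies of the files of the volunteers): RT.1 `KerUnitsC` helper634, RT.2
`FibCardC` helper560, RT.3 `TorusParC` (spare helper193), RT.4 `PushParC` helper222, RT.5
`RelTorusAsmC` (spare helper193), NM.1 `FlatNatC` helper863, NM.2 `JointIntC` helper890.

* `relTorus_closed193 K K' : RelTorusC K K'` -- UNCONDITIONAL: for `K'/K` Galois of prime degree,
  `K` totally complex, `𝔫 ≠ 0`, and any ray generators there are COMPATIBLE torus data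
  (`IsRelTorus`: torus data downstairs for the level `𝔫` and upstairs for the level `𝔫 𝒪_{K'}`,
  with `N(D') = D` and `N_*` (normalised Lebesgue on `D'`) = normalised Lebesgue on `D`).
* `natMatch_closed193` -- the torus means of matched regular translates are matched
  (inputs closed elsewhere: `T1.T1Out`, `T5.H29.RaySlabC` helper655, `T5.H29.TwBoundC` helper29).
The killing tools for THE SAME compatible data: `killing_of_torus193` (`NatTools.lean`) with
`hrel.down` / `hrel.up` (and `isTorusData_mono193` for a coarser level); the shape of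
`H893.IsAvgPure`: `nat_eq_push193`.
-/

set_option autoImplicit false

open IsDedekindDomain NumberField MeasureTheory
open scoped ComplexConjugate

noncomputable section

namespace Fermat.Agent.LT.T7.H193

open Fermat.Agent.LT.H556 Fermat.Agent.LT.H556.A0 Fermat.Agent.LT

attribute [local instance] Fermat.Agent.LT.T5.instMeasurableSpaceG

/-- **REL-TORUS, CLOSED**: compatible torus data exist. -/
theorem relTorus_closed193 (K K' : Type) [Field K] [NumberField K] [Field K'] [NumberField K']
    [Algebra K K'] : RelTorusC K K' :=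
  relTorusAsmC193 K K' (H195.posScalC195 K) (H195.posScalC195 K') (H613.unitInvC613 K)
    (H613.unitInvC613 K') (H126.dirichletC126 K) (H634.kerUnitsC634 K K')
    (H560.fibCardC560 K K') torusParC193 H222.pushParC222

variable {K : Type} [Field K] [NumberField K]
variable {K' : Type} [Field K'] [NumberField K'] [Algebra K K']

/-- **NAT-MATCH, CLOSED** (modulo the closed inputs `T1Out`, `RaySlabC`, `TwBoundC`). -/
theorem natMatch_closed193 (hT1 : T1.T1Out K) (hT1' : T1.T1Out K')
    (hRS : T5.H29.RaySlabC K) (hRS' : T5.H29.RaySlabC K')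
    (Dd : CompData K K') (hDd : IsCompData Dd)
    (hTB : T5.H29.TwBoundC (T5.AdelicAut.id K) 1 ⊤ Dd.𝔫)
    (hTB' : T5.H29.TwBoundC Dd.s Dd.l Dd.k Dd.𝔑)
    {a : (InfinitePlace K → ℝ) → G K} {D : Set (InfinitePlace K → ℝ)}
    {a' : (InfinitePlace K' → ℝ) → G K'} {D' : Set (InfinitePlace K' → ℝ)}
    (hrel : IsRelTorus Dd.𝔫 Dd.R.r Dd.R'.r a D a' D')
    (φ' : G K' → ℂ) (f : G K → ℂ)
    (hφ'c : Continuous φ') (hφ's : HasCompactSupport φ')
    (hfc : Continuous f) (hfs : HasCompactSupport f)
    (hreg' : ∀ t' ∈ D', T5.IsTwRegular Dd.s Dd.l Dd.k (trl193 (a' t') φ'))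
    (hreg : ∀ t ∈ D, T5.IsTwRegular (T5.AdelicAut.id K) 1 ⊤ (trl193 (a t) f))
    (hM : ∀ t' ∈ D', IsGlobMatch Dd (trl193 (a' t') φ')
      (trl193 (a (fibSum193 (K := K) t')) f)) :
    IsGlobMatch Dd (nat193 a' D' φ') (nat193 a D f) :=
  natMatch193 hT1 hT1' (H863.flatNatC_863 K) (H863.flatNatC_863 K') (H890.jointIntC890 K)
    (H890.jointIntC890 K') hRS hRS' Dd hDd hTB hTB' hrel φ' f hφ'c hφ's hfc hfs hreg' hreg hM

end Fermat.Agent.LT.T7.H193

end
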