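import Mathlib
import Fermat.Agent.LT.T7.H193.NatTools
import Fermat.Agent.LT.T7.Q797.BaseCutSpec

/-!
# Row LT, tower T7, node T7.L2.1.H2a `BaseCb`, node PAIR-B: THE NATURAL-AVERAGE STEP, part A
(the operator properties; helper193)

OFF-MAIN.  Complete proofs, nothing assumed (hypothesis: the output `T1.T1Out` of the closed
tower T1).  ADDITIVE (new names only, suffix `193`).

`IsPairB0_193` = the fields of `Q797.IsPairB797` (cut of helper797) EXCEPT the two killing fields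
`up2_kill`, `dn2_kill`.  For torus data upstairs (level `𝔫 𝒪_{K'}`) and downstairs (level `𝔫`):

    isPairB_of_pairB0_193 : IsPairB0_193 … φ₀ f₀ → (the shape of the torus means) →
        Q797.IsPairB797 … (nat193 a' D' φ₀) (nat193 a D f₀)

The shape of the torus means is part B (`NatStepShape.lean`).
-/

set_option autoImplicit false
set_option linter.unusedSectionVars false

open AutomorphicForm IsDedekindDomain NumberField MeasureTheory
open scoped ComplexConjugate

noncomputable section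

namespace Fermat.Agent.LT.T7.H193

open Fermat.Agent.LT.H556 Fermat.Agent.LT.H556.A0 Fermat.Agent.LT Fermat.Agent.LT.T7
open Fermat.Agent.LT.T7.H893 Fermat.Agent.LT.T7.H305

attribute [local instance] Fermat.Agent.LT.T5.instMeasurableSpaceG

/-! ## 1. The kill-free pair -/

section Vocab

variable {K K' : Type} [Field K] [NumberField K] [Field K'] [NumberField K'] [Algebra K K']

/-- **THE KILL-FREE SECOND PAIR** `(φ₀, f₀)`: the fields of `Q797.IsPairB797` except `up2_kill`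
and `dn2_kill` (same statements). -/
structure IsPairB0_193 (LB : Q797.ShapeB797 K K') (ℓ : ℕ) (Φ : HeckeEigensystem K' ℂ)
    (B : L2Base K K') (g : G K') (𝔫 : Ideal (𝓞 K))
    (μc : @Measure (GL (Fin 2) ℂ) (borel _)) (T₀ : Finset (HeightOneSpectrum (𝓞 K)))
    (n n₀ : HeightOneSpectrum (𝓞 K') → ℕ) (m : HeightOneSpectrum (𝓞 K) → ℕ) (a : ℂ)
    (c₂ : EigData K' → ℂ) (φ₀ : G K' → ℂ) (f₀ : G K → ℂ) : Prop where
  up_test : T5.IsTestFn (upI (K' := K') 𝔫) T5.trivType φ₀
  up_ek : T5.IsEK B.R'.μ φ₀ ∧ T5.IsEK B.R'.μ (T5.adjointFn φ₀)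
  up_inv : IsUInv B.𝔑₀ ℓ B.o φ₀
  up_op : ∀ (ψ : G K' → ℂ) (C : EigData K'), IsEigFn B.𝔑₀ B.R'.r ℓ B.o ψ C →
    ∀ x : G K', T5.Rconv B.R'.μ φ₀ ψ x = c₂ C * ψ x
  up_ne : ∀ C : EigData K', C.AgreeOut B.S' (eigOf Φ) → c₂ C ≠ 0
  dn_test : T5.IsTestFn 𝔫 T5.trivType f₀
  dn_ek : T5.IsEK B.R.μ f₀ ∧ T5.IsEK B.R.μ (T5.adjointFn f₀)
  dn_inv : IsUInv 𝔫 1 (fun _ => B.u) f₀
  dn_wfn : ∀ ψ : G K → ℂ, IsWFn 𝔫 B.R.r 1 (fun _ => B.u) ψ →
    IsWFn 𝔫 B.R.r 1 (fun _ => B.u) (T5.Rconv B.R.μ f₀ ψ)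
  dn_class : ∀ (ψ : G K → ℂ) (c : EigData K), IsEigFn 𝔫 B.R.r 1 (fun _ => B.u) ψ c →
    IsEigFn 𝔫 B.R.r 1 (fun _ => B.u) (T5.Rconv B.R.μ f₀ ψ) c
  dn_comm : ∀ ψ : G K → ℂ, IsWFn 𝔫 B.R.r 1 (fun _ => B.u) ψ →
    ∀ (H : Finset (G K)) (z : G K), IsIwCosetSystem B.u H → IsScalarUniformizerAt B.u z →
      (∀ x : G K, T5.Rconv B.R.μ f₀ (iwOp B.u H ψ) x
        = iwOp B.u H (T5.Rconv B.R.μ f₀ ψ) x) ∧
      ∀ (k : ℤ) (x : G K), T5.Rconv B.R.μ f₀ (shiftOp z k ψ) x
        = shiftOp z k (T5.Rconv B.R.μ f₀ ψ) x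
  up_supp : ∃ C : Set (G K'), IsCompact C ∧ T5.H32.IsIwSupported32 ℓ B.o C φ₀
  dn_supp : ∃ C : Set (G K), IsCompact C ∧ T5.H32.IsIwSupported32 1 (fun _ => B.u) C f₀
  /-- the local shape: averages of pure tensors with the local condition `LB`, constant `a` -/
  shape : IsAvgPure (upI (K' := K') 𝔫) 𝔫 T₀ (LB B g 𝔫 μc T₀ n n₀ m) a φ₀ f₀

end Vocab

/-! ## 2. Tools (one field) -/

section Tools

variable {K : Type} [Field K] [NumberField K]

/-- A positive scalar at an infinite place is central. -/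
theorem central_of_posScalar193 {𝔑 : Ideal (𝓞 K)} {r : G K} {a : (InfinitePlace K → ℝ) → G K}
    {D : Set (InfinitePlace K → ℝ)} (hD : IsTorusData 𝔑 r a D) {w : InfinitePlace K} {z : G K}
    (hz : IsArchPosScalar w z) (g : G K) : z * g = g * z := by
  obtain ⟨s, rfl⟩ := H865.posScalar_eq865 hD hz
  exact hD.central s g

/-- The Iwahori condition at a finite place does not see a factor which is trivial there. -/
theorem inIwahori_mul_triv193 {v : HeightOneSpectrum (𝓞 K)} {y z : G K}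
    (hz : TrivAtFin v z) (h : T5.InIwahori v (y * z)) : T5.InIwahori v y := by
  have hz' : finComp v z = 1 := hz
  have hzi : finComp v z⁻¹ = 1 := by
    have h1 := H517.finComp_mul517 v z z⁻¹
    rw [mul_inv_cancel, hz', one_mul] at h1
    rw [← h1]
    ext i j
    simp only [finComp, Units.val_one]
    by_cases hij : i = j
    · subst hij
      simp
      rfl
    · simp [Matrix.one_apply_ne hij]
      rfl
  have e1 : finComp v (y * z) = finComp v y := by
    rw [H517.finComp_mul517, hz', mul_one]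
  have e2 : finComp v (y * z)⁻¹ = finComp v y⁻¹ := by
    rw [mul_inv_rev, H517.finComp_mul517, hzi, one_mul]
  obtain ⟨h1, h2, h3⟩ := h
  refine ⟨fun i j => ?_, fun i j => ?_, ?_⟩
  · have := h1 i j
    rwa [e1] at this
  · have := h2 i j
    rwa [e2] at this
  · rwa [e1] at h3

/-- The torus mean of a function whose support is Iwahori along the orbit has the same
property; so it is Iwahori-supported in its closed support. -/
theorem isIwSupported_nat193 {𝔑 : Ideal (𝓞 K)} {r : G K} {a : (InfinitePlace K → ℝ) → G K}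
    {D : Set (InfinitePlace K → ℝ)} (hD : IsTorusData 𝔑 r a D) {l : ℕ}
    {o : ℕ → HeightOneSpectrum (𝓞 K)} {C : Set (G K)} {φ : G K → ℂ}
    (h : T5.H32.IsIwSupported32 l o C φ) :
    T5.H32.IsIwSupported32 l o (tsupport (nat193 a D φ)) (nat193 a D φ) := by
  refine T5.H32.isIwSupported_of_support32 fun y hy j hj => ?_
  have hex : ∃ t : InfinitePlace K → ℝ, φ (y * (a t)⁻¹) ≠ 0 := by
    by_contra hcon
    push Not at hcon
    apply hy
    unfold nat193
    rw [setIntegral_congr_fun hD.meas (fun t _ => hcon t)]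
    simp
  obtain ⟨t, ht⟩ := hex
  have h1 := (h _ ht).1 j hj
  have htriv : TrivAtFin (o j) (a t)⁻¹ := by
    have h2 : finComp (o j) (a t) = 1 := hD.fin t (o j)
    have h3 := H517.finComp_mul517 (o j) (a t) (a t)⁻¹
    rw [mul_inv_cancel, h2, one_mul] at h3
    show finComp (o j) (a t)⁻¹ = 1
    rw [← h3]
    ext i k
    simp only [finComp, Units.val_one]
    by_cases hik : i = k
    · subst hik
      simp
      rfl
    · simp [Matrix.one_apply_ne hik]
      rfl
  exact inIwahori_mul_triv193 htriv h1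

/-- The Iwahori operator preserves continuity. -/
theorem continuous_iwOp193 (w : HeightOneSpectrum (𝓞 K)) (H : Finset (G K)) {ψ : G K → ℂ}
    (hψ : Continuous ψ) : Continuous (iwOp w H ψ) := by
  unfold iwOp
  refine continuous_const.mul (continuous_finsetSum _ fun h _ => ?_)
  exact hψ.comp (continuous_id.mul continuous_const)

/-- The shift preserves continuity. -/
theorem continuous_shiftOp193 (z : G K) (k : ℤ) {ψ : G K → ℂ} (hψ : Continuous ψ) :
    Continuous (shiftOp z k ψ) := by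
  unfold shiftOp
  exact hψ.comp (continuous_id.mul continuous_const)

end Tools

/-! ## 3. The step -/

section Step

variable {K K' : Type} [Field K] [NumberField K] [Field K'] [NumberField K'] [Algebra K K']

/-- The extension of a non-zero ideal is non-zero. -/
theorem upI_ne_bot193 {𝔫 : Ideal (𝓞 K)} (h𝔫 : 𝔫 ≠ ⊥) : upI (K' := K') 𝔫 ≠ ⊥ := by
  intro h
  exact h𝔫 ((Ideal.map_eq_bot_iff_of_injective
    (NumberField.RingOfIntegers.algebraMap.injective K K')).1 h)

/-- **THE NATURAL-AVERAGE STEP, part A.**  The torus means of a kill-free pair have all the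
properties of the second pair, including the killing properties, if they have the shape. -/
theorem isPairB_of_pairB0_193 (hT1 : T1.T1Out K) (hT1' : T1.T1Out K')
    {LB : Q797.ShapeB797 K K'} {ℓ : ℕ} {Φ : HeckeEigensystem K' ℂ} {B : L2Base K K'}
    (hB : IsL2Base ℓ Φ B) {g : G K'} {𝔫 : Ideal (𝓞 K)} (hlev : Q797.IsLevel797 B 𝔫)
    {μc : @Measure (GL (Fin 2) ℂ) (borel _)} {T₀ : Finset (HeightOneSpectrum (𝓞 K))}
    {n n₀ : HeightOneSpectrum (𝓞 K') → ℕ} {m : HeightOneSpectrum (𝓞 K) → ℕ} {a : ℂ}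
    {c₂ : EigData K' → ℂ} {φ₀ : G K' → ℂ} {f₀ : G K → ℂ}
    {aa : (InfinitePlace K → ℝ) → G K} {D : Set (InfinitePlace K → ℝ)}
    {aa' : (InfinitePlace K' → ℝ) → G K'} {D' : Set (InfinitePlace K' → ℝ)}
    (hdn : IsTorusData 𝔫 B.R.r aa D)
    (hup : IsTorusData (upI (K' := K') 𝔫) B.R'.r aa' D')
    (h0 : IsPairB0_193 LB ℓ Φ B g 𝔫 μc T₀ n n₀ m a c₂ φ₀ f₀)
    (hshape : IsAvgPure (upI (K' := K') 𝔫) 𝔫 T₀ (LB B g 𝔫 μc T₀ n n₀ m) a
      (nat193 aa' D' φ₀) (nat193 aa D f₀)) :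
    Q797.IsPairB797 LB ℓ Φ B g 𝔫 μc T₀ n n₀ m a c₂ (nat193 aa' D' φ₀) (nat193 aa D f₀) := by
  have hup₀ : IsTorusData B.𝔑₀ B.R'.r aa' D' := isTorusData_mono193 hlev.level_g hup
  obtain ⟨u1, u2, u3, u4, u5, u6⟩ :=
    killing_of_torus193 hT1' B.R' hB.frame' (upI (K' := K') 𝔫) B.𝔑₀
      (upI_ne_bot193 hlev.level_ne) hlev.level_g ℓ B.o hup₀ φ₀ h0.up_test h0.up_ek.1
      h0.up_ek.2 h0.up_inv
  obtain ⟨d1, d2, d3, d4, d5, d6⟩ :=
    killing_of_torus193 hT1 B.R hB.frame 𝔫 𝔫 hlev.level_ne le_rfl 1 (fun _ => B.u) hdn f₀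
      h0.dn_test h0.dn_ek.1 h0.dn_ek.2 h0.dn_inv
  have hdW : ∀ ψ : G K → ℂ, IsWFn 𝔫 B.R.r 1 (fun _ => B.u) ψ →
      T5.Rconv B.R.μ (nat193 aa D f₀) ψ = T5.Rconv B.R.μ f₀ ψ := fun ψ hψ =>
    funext fun x => d5 ψ hψ.cusp.cont hψ.arch_scalar x
  obtain ⟨Cu, _, hCu⟩ := h0.up_supp
  obtain ⟨Cd, _, hCd⟩ := h0.dn_supp
  refine
    { up2_test := u1
      up2_ek := ⟨u2, u3⟩
      up2_inv := u4
      up2_op := fun ψ C hψ x => by
        rw [u5 ψ hψ.inv.cusp.cont hψ.inv.arch_scalar x]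
        exact h0.up_op ψ C hψ x
      up2_kill := u6
      up2_ne := h0.up_ne
      dn2_test := d1
      dn2_ek := ⟨d2, d3⟩
      dn2_inv := d4
      dn2_wfn := fun ψ hψ => by
        rw [hdW ψ hψ]
        exact h0.dn_wfn ψ hψ
      dn2_class := fun ψ c hψ => by
        rw [hdW ψ hψ.inv]
        exact h0.dn_class ψ c hψ
      dn2_comm := fun ψ hψ H z hH hz => by
        obtain ⟨c1, c2⟩ := h0.dn_comm ψ hψ H z hH hz
        rw [hdW ψ hψ]
        refine ⟨fun x => ?_, fun k x => ?_⟩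
        · rw [d5 (iwOp B.u H ψ) (continuous_iwOp193 B.u H hψ.cusp.cont) ?_ x]
          · exact c1 x
          · intro w z' hz' y
            unfold iwOp
            congr 1
            refine Finset.sum_congr rfl fun h _ => ?_
            rw [mul_assoc, central_of_posScalar193 hdn hz' h, ← mul_assoc]
            exact hψ.arch_scalar w z' hz' _
        · rw [d5 (shiftOp z k ψ) (continuous_shiftOp193 z k hψ.cusp.cont) ?_ x]
          · exact c2 k x
          · intro w z' hz' y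
            unfold shiftOp
            rw [mul_assoc, central_of_posScalar193 hdn hz' (z ^ k), ← mul_assoc]
            exact hψ.arch_scalar w z' hz' _
      dn2_kill := d6
      up2_supp := ⟨tsupport (nat193 aa' D' φ₀), u1.supp, isIwSupported_nat193 hup hCu⟩
      dn2_supp := ⟨tsupport (nat193 aa D f₀), d1.supp, isIwSupported_nat193 hdn hCd⟩
      shape := hshape }

end Step

end Fermat.Agent.LT.T7.H193

end
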