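import Mathlib
import Fermat.Agent.LT.T7.H193.NatStepOps
import Fermat.Agent.LT.T7.H893.SupplyConstrSpec2

/-!
# Row LT, tower T7, node T7.L2.1.H2a `BaseCb`, node PAIR-B: THE NATURAL-AVERAGE STEP, part B1
(the components at infinity; helper193)

OFF-MAIN.  Complete proofs, nothing assumed.  ADDITIVE (new names only, suffix `193`).

The positive scalars `scal193 x = exp(x) · 1` of `GL₂(ℂ)`, the shift `shf193 c φ = φ(· c)`, the
iterated convolution of shifted functions is the shift of the iterated convolution, and the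
local hypotheses at infinity (`H305.LocHyp305`, `H893.LocHyp893`, `H893.ArchOk893`,
`H893.LocB893b`, `H893.LocA893`) are STABLE under the shifts by the components of `a'(t')⁻¹`
upstairs and `a(N t')⁻¹` downstairs.
-/

set_option autoImplicit false
set_option linter.unusedSectionVars false
set_option linter.style.haveILetI false

open AutomorphicForm IsDedekindDomain NumberField MeasureTheory
open scoped ComplexConjugate

noncomputable section

namespace Fermat.Agent.LT.T7.H193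

open Fermat.Agent.LT.H556 Fermat.Agent.LT.H556.A0 Fermat.Agent.LT Fermat.Agent.LT.T7
open Fermat.Agent.LT.T7.H893 Fermat.Agent.LT.T7.H305

attribute [local instance] Fermat.Agent.LT.T5.instMeasurableSpaceG

/-! ## 1. Positive scalars of `GL₂(ℂ)` -/

section Scal

/-- The positive scalar `exp(x) · 1` of `GL₂(ℂ)`. -/
def scal193 (x : ℝ) : GL (Fin 2) ℂ where
  val := Matrix.diagonal fun _ => ((Real.exp x : ℝ) : ℂ)
  inv := Matrix.diagonal fun _ => ((Real.exp (-x) : ℝ) : ℂ)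
  val_inv := by
    rw [Matrix.diagonal_mul_diagonal]
    have h : ∀ i : Fin 2, ((Real.exp x : ℝ) : ℂ) * ((Real.exp (-x) : ℝ) : ℂ) = 1 := by
      intro i
      rw [← Complex.ofReal_mul, ← Real.exp_add, add_neg_cancel, Real.exp_zero,
        Complex.ofReal_one]
    rw [show (fun i : Fin 2 => ((Real.exp x : ℝ) : ℂ) * ((Real.exp (-x) : ℝ) : ℂ))
      = fun _ => 1 from funext h]
    exact Matrix.diagonal_one
  inv_val := by
    rw [Matrix.diagonal_mul_diagonal]
    have h : ∀ i : Fin 2, ((Real.exp (-x) : ℝ) : ℂ) * ((Real.exp x : ℝ) : ℂ) = 1 := by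
      intro i
      rw [← Complex.ofReal_mul, ← Real.exp_add, neg_add_cancel, Real.exp_zero,
        Complex.ofReal_one]
    rw [show (fun i : Fin 2 => ((Real.exp (-x) : ℝ) : ℂ) * ((Real.exp x : ℝ) : ℂ))
      = fun _ => 1 from funext h]
    exact Matrix.diagonal_one

theorem scal_val193 (x : ℝ) :
    ((scal193 x : GL (Fin 2) ℂ) : Matrix (Fin 2) (Fin 2) ℂ)
      = Matrix.diagonal fun _ => ((Real.exp x : ℝ) : ℂ) := rfl

theorem scal_add193 (x y : ℝ) : scal193 (x + y) = scal193 x * scal193 y := by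
  apply Units.ext
  rw [Units.val_mul, scal_val193, scal_val193, scal_val193, Matrix.diagonal_mul_diagonal]
  congr 1
  funext i
  rw [Real.exp_add, Complex.ofReal_mul]

theorem scal_zero193 : scal193 0 = 1 := by
  apply Units.ext
  rw [scal_val193, Real.exp_zero, Complex.ofReal_one]
  exact Matrix.diagonal_one

theorem scal_neg193 (x : ℝ) : scal193 (-x) = (scal193 x)⁻¹ := by
  rw [eq_inv_iff_mul_eq_one, ← scal_add193, neg_add_cancel, scal_zero193]

theorem scal_central193 (x : ℝ) (g : GL (Fin 2) ℂ) : scal193 x * g = g * scal193 x := by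
  apply Units.ext
  rw [Units.val_mul, Units.val_mul, scal_val193]
  ext i j
  rw [Matrix.diagonal_mul, Matrix.mul_diagonal, mul_comm]

theorem conj_scal193 (x : ℝ) : conjGL305 (scal193 x) = scal193 x := by
  apply Units.ext
  ext i j
  show (starRingEnd ℂ) ((scal193 x : Matrix (Fin 2) (Fin 2) ℂ) i j)
    = (scal193 x : Matrix (Fin 2) (Fin 2) ℂ) i j
  rw [scal_val193]
  by_cases hij : i = j
  · subst hij
    rw [Matrix.diagonal_apply_eq, Complex.conj_ofReal]
  · rw [Matrix.diagonal_apply_ne _ hij, map_zero]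

/-- The shift `φ(· c)`. -/
def shf193 (c : GL (Fin 2) ℂ) (φ : GL (Fin 2) ℂ → ℂ) : GL (Fin 2) ℂ → ℂ := fun g => φ (g * c)

theorem shf_apply193 (c : GL (Fin 2) ℂ) (φ : GL (Fin 2) ℂ → ℂ) (g : GL (Fin 2) ℂ) :
    shf193 c φ g = φ (g * c) := rfl

theorem continuous_shf193 (c : GL (Fin 2) ℂ) {φ : GL (Fin 2) ℂ → ℂ} (hφ : Continuous φ) :
    Continuous (shf193 c φ) :=
  hφ.comp (continuous_id.mul continuous_const)

theorem hasCompactSupport_shf193 (c : GL (Fin 2) ℂ) {φ : GL (Fin 2) ℂ → ℂ}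
    (hφ : HasCompactSupport φ) : HasCompactSupport (shf193 c φ) :=
  hφ.comp_homeomorph (Homeomorph.mulRight c)

/-- The convolution of shifted functions, for a left invariant measure and a central first
shift. -/
theorem convInt_shf193 (μc : @Measure (GL (Fin 2) ℂ) (borel _))
    (hμ : @Measure.IsHaarMeasure _ _ _ (borel _) μc) (c₁ c₂ : GL (Fin 2) ℂ)
    (hc₁ : ∀ g : GL (Fin 2) ℂ, c₁ * g = g * c₁) (φ ψ : GL (Fin 2) ℂ → ℂ) :
    @T6.convInt _ _ (borel _) μc (shf193 c₁ φ) (shf193 c₂ ψ)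
      = shf193 (c₁ * c₂) (@T6.convInt _ _ (borel _) μc φ ψ) := by
  letI : MeasurableSpace (GL (Fin 2) ℂ) := borel _
  haveI : BorelSpace (GL (Fin 2) ℂ) := ⟨rfl⟩
  haveI := hμ
  funext g
  show ∫ h, shf193 c₁ φ h * shf193 c₂ ψ (h⁻¹ * g) ∂μc
    = ∫ h, φ h * ψ (h⁻¹ * (g * (c₁ * c₂))) ∂μc
  rw [← integral_mul_left_eq_self (fun h => φ h * ψ (h⁻¹ * (g * (c₁ * c₂)))) c₁]
  refine integral_congr_ae (Filter.Eventually.of_forall fun h => ?_)
  show φ (h * c₁) * ψ (h⁻¹ * g * c₂) = φ (c₁ * h) * ψ ((c₁ * h)⁻¹ * (g * (c₁ * c₂)))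
  have e : g * (c₁ * c₂) = c₁ * (g * c₂) := by
    rw [← mul_assoc, ← hc₁ g, mul_assoc]
  have e2 : (c₁ * h)⁻¹ * (c₁ * (g * c₂)) = h⁻¹ * g * c₂ := by group
  rw [e, e2, hc₁ h]

/-- The iterated convolution of shifted functions is the shift of the iterated convolution. -/
theorem convL_shf193 (μc : @Measure (GL (Fin 2) ℂ) (borel _))
    (hμ : @Measure.IsHaarMeasure _ _ _ (borel _) μc) (Φ : ℕ → GL (Fin 2) ℂ → ℂ) (x : ℕ → ℝ)
    (k : ℕ) :
    convL305 μc (fun j => shf193 (scal193 (x j)) (Φ j)) k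
      = shf193 (scal193 (∑ j ∈ Finset.range (k + 1), x j)) (convL305 μc Φ k) := by
  induction k with
  | zero =>
    show shf193 (scal193 (x 0)) (Φ 0) = shf193 (scal193 (∑ j ∈ Finset.range 1, x j)) (Φ 0)
    rw [Finset.sum_range_one]
  | succ k ih =>
    show @T6.convInt _ _ (borel _) μc (convL305 μc (fun j => shf193 (scal193 (x j)) (Φ j)) k)
        (shf193 (scal193 (x (k + 1))) (Φ (k + 1)))
      = shf193 (scal193 (∑ j ∈ Finset.range (k + 1 + 1), x j))
        (@T6.convInt _ _ (borel _) μc (convL305 μc Φ k) (Φ (k + 1)))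
    rw [ih, convInt_shf193 μc hμ _ _ (scal_central193 _), ← scal_add193,
      ← Finset.sum_range_succ]

end Scal

/-! ## 2. The sum over an enumeration of a fibre -/

section Fibre

variable {K K' : Type} [Field K] [NumberField K] [Field K'] [NumberField K'] [Algebra K K']

/-- The sum of `t'` over an enumeration of the fibre of `v` is `(N t') v`. -/
theorem sum_enum_fibre193 {l : ℕ} {v : InfinitePlace K}
    (hcard : Nat.card {w : InfinitePlace K' // w.comap (algebraMap K K') = v} = l)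
    (w : ℕ → InfinitePlace K') (hw : ∀ j : ℕ, (w j).comap (algebraMap K K') = v)
    (hinj : ∀ j j' : ℕ, j < l → j' < l → w j = w j' → j = j')
    (t' : InfinitePlace K' → ℝ) :
    ∑ j ∈ Finset.range l, t' (w j) = fibSum193 (K := K) t' v := by
  classical
  have himg : (Finset.range l).image w
      = Finset.univ.filter (fun w' : InfinitePlace K' => w'.comap (algebraMap K K') = v) := by
    apply Finset.eq_of_subset_of_card_le
    · intro w' hw'
      obtain ⟨j, _, rfl⟩ := Finset.mem_image.mp hw'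
      exact Finset.mem_filter.mpr ⟨Finset.mem_univ _, hw j⟩
    · rw [Finset.card_image_of_injOn, Finset.card_range, ← hcard, Nat.card_eq_fintype_card,
        Fintype.card_subtype]
      intro j hj j' hj' h
      exact hinj j j' (Finset.mem_range.mp (Finset.mem_coe.mp hj))
        (Finset.mem_range.mp (Finset.mem_coe.mp hj')) h
  unfold fibSum193
  rw [← Finset.sum_filter, ← himg, Finset.sum_image]
  intro j hj j' hj' h
  exact hinj j j' (Finset.mem_range.mp hj) (Finset.mem_range.mp hj') h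

end Fibre

/-! ## 3. Stability of the local hypotheses under the shifts -/

section Stable

variable {K K' : Type} [Field K] [NumberField K] [Field K'] [NumberField K'] [Algebra K K']

/-- The shifted components upstairs. -/
def shUp193 (t' : InfinitePlace K' → ℝ) (Φ : InfinitePlace K' → GL (Fin 2) ℂ → ℂ) :
    InfinitePlace K' → GL (Fin 2) ℂ → ℂ :=
  fun w => shf193 (scal193 (-(t' w))) (Φ w)

/-- The shifted components downstairs. -/
def shDn193 (t : InfinitePlace K → ℝ) (F : InfinitePlace K → GL (Fin 2) ℂ → ℂ) :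
    InfinitePlace K → GL (Fin 2) ℂ → ℂ :=
  fun v => shf193 (scal193 (-(t v))) (F v)

theorem arch_shift_aux193 {x : ℝ} {φ : GL (Fin 2) ℂ → ℂ}
    (h : Continuous φ ∧ HasCompactSupport φ ∧ ∀ g : GL (Fin 2) ℂ, φ (conjGL305 g) = φ g) :
    Continuous (shf193 (scal193 x) φ) ∧ HasCompactSupport (shf193 (scal193 x) φ) ∧
      ∀ g : GL (Fin 2) ℂ, shf193 (scal193 x) φ (conjGL305 g) = shf193 (scal193 x) φ g := by
  refine ⟨continuous_shf193 _ h.1, hasCompactSupport_shf193 _ h.2.1, fun g => ?_⟩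
  show φ (conjGL305 g * scal193 x) = φ (g * scal193 x)
  rw [← h.2.2 (g * scal193 x), map_mul, conj_scal193]

theorem u2_shift_aux193 {x : ℝ} {φ : GL (Fin 2) ℂ → ℂ} {k₁ k₂ g : GL (Fin 2) ℂ}
    (h : φ (k₁ * (g * scal193 x) * k₂) = φ (g * scal193 x)) :
    shf193 (scal193 x) φ (k₁ * g * k₂) = shf193 (scal193 x) φ g := by
  show φ (k₁ * g * k₂ * scal193 x) = φ (g * scal193 x)
  rw [← h]
  congr 1
  rw [mul_assoc k₁ g k₂, mul_assoc k₁ (g * k₂), mul_assoc g k₂, ← scal_central193 x k₂,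
    mul_assoc k₁, mul_assoc g]

/-- The clause `arch` for the shifted components. -/
theorem arch_clause_shift193 {l : ℕ} (hl : 0 < l)
    (hcard : ∀ v : InfinitePlace K,
      Nat.card {w : InfinitePlace K' // w.comap (algebraMap K K') = v} = l)
    (μc : @Measure (GL (Fin 2) ℂ) (borel _))
    (hμ : @Measure.IsHaarMeasure _ _ _ (borel _) μc)
    {Φ : InfinitePlace K' → GL (Fin 2) ℂ → ℂ} {F : InfinitePlace K → GL (Fin 2) ℂ → ℂ}
    (harch : ∀ (v : InfinitePlace K) (w : ℕ → InfinitePlace K'),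
      (∀ j : ℕ, (w j).comap (algebraMap K K') = v) →
      (∀ j j' : ℕ, j < l → j' < l → w j = w j' → j = j') →
      F v = convL305 μc (fun j => Φ (w j)) (l - 1))
    (t' : InfinitePlace K' → ℝ) :
    ∀ (v : InfinitePlace K) (w : ℕ → InfinitePlace K'),
      (∀ j : ℕ, (w j).comap (algebraMap K K') = v) →
      (∀ j j' : ℕ, j < l → j' < l → w j = w j' → j = j') →
      shDn193 (fibSum193 (K := K) t') F v
        = convL305 μc (fun j => shUp193 t' Φ (w j)) (l - 1) := by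
  intro v w hw hinj
  have h1 := convL_shf193 μc hμ (fun j => Φ (w j)) (fun j => -(t' (w j))) (l - 1)
  have h2 : l - 1 + 1 = l := Nat.sub_add_cancel hl
  rw [h2, Finset.sum_neg_distrib, sum_enum_fibre193 (hcard v) w hw hinj t'] at h1
  show shf193 (scal193 (-(fibSum193 (K := K) t' v))) (F v) = _
  rw [harch v w hw hinj]
  exact h1.symm

/-- `H305.LocHyp305` is stable under the shifts. -/
theorem locHyp305_shift193 {D : CompData K K'} (hl : 0 < D.l)
    (hcard : ∀ v : InfinitePlace K,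
      Nat.card {w : InfinitePlace K' // w.comap (algebraMap K K') = v} = D.l)
    {μc : @Measure (GL (Fin 2) ℂ) (borel _)}
    (hμ : @Measure.IsHaarMeasure _ _ _ (borel _) μc)
    {T : Finset (HeightOneSpectrum (𝓞 K))}
    {n : HeightOneSpectrum (𝓞 K') → ℕ} {m : HeightOneSpectrum (𝓞 K) → ℕ}
    {φ₀ : ∀ w : HeightOneSpectrum (𝓞 K'), GL (Fin 2) (w.adicCompletion K') → ℂ}
    {Φ : InfinitePlace K' → GL (Fin 2) ℂ → ℂ}
    {f₀ : ∀ v : HeightOneSpectrum (𝓞 K), GL (Fin 2) (v.adicCompletion K) → ℂ}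
    {F : InfinitePlace K → GL (Fin 2) ℂ → ℂ}
    (h : LocHyp305 D μc T n m φ₀ Φ f₀ F) (t' : InfinitePlace K' → ℝ) :
    LocHyp305 D μc T n m φ₀ (shUp193 t' Φ) f₀ (shDn193 (fibSum193 (K := K) t') F) where
  inv_up := h.inv_up
  inv_down := h.inv_down
  arch_up := fun w => arch_shift_aux193 (h.arch_up w)
  arch_down := fun v => arch_shift_aux193 (h.arch_down v)
  inert := h.inert
  split := h.split
  arch := arch_clause_shift193 hl hcard μc hμ h.arch t'

/-- `H893.LocHyp893` is stable under the shifts. -/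
theorem locHyp893_shift193 {D : CompData K K'} (hl : 0 < D.l)
    (hcard : ∀ v : InfinitePlace K,
      Nat.card {w : InfinitePlace K' // w.comap (algebraMap K K') = v} = D.l)
    {μc : @Measure (GL (Fin 2) ℂ) (borel _)}
    (hμ : @Measure.IsHaarMeasure _ _ _ (borel _) μc)
    {T : Finset (HeightOneSpectrum (𝓞 K))}
    {n : HeightOneSpectrum (𝓞 K') → ℕ} {m : HeightOneSpectrum (𝓞 K) → ℕ}
    {φ₀ : ∀ w : HeightOneSpectrum (𝓞 K'), GL (Fin 2) (w.adicCompletion K') → ℂ}
    {Φ : InfinitePlace K' → GL (Fin 2) ℂ → ℂ}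
    {f₀ : ∀ v : HeightOneSpectrum (𝓞 K), GL (Fin 2) (v.adicCompletion K) → ℂ}
    {F : InfinitePlace K → GL (Fin 2) ℂ → ℂ}
    (h : LocHyp893 D μc T n m φ₀ Φ f₀ F) (t' : InfinitePlace K' → ℝ) :
    LocHyp893 D μc T n m φ₀ (shUp193 t' Φ) f₀ (shDn193 (fibSum193 (K := K) t') F) where
  inv_up := h.inv_up
  inv_down := h.inv_down
  arch_up := fun w => arch_shift_aux193 (h.arch_up w)
  arch_down := fun v => arch_shift_aux193 (h.arch_down v)
  inert := h.inert
  split := h.split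
  arch := arch_clause_shift193 hl hcard μc hμ h.arch t'

/-- `H893.ArchOk893` is stable under the shifts. -/
theorem archOk_shift193 {D : CompData K K'} (hl : 0 < D.l)
    (hcard : ∀ v : InfinitePlace K,
      Nat.card {w : InfinitePlace K' // w.comap (algebraMap K K') = v} = D.l)
    {μc : @Measure (GL (Fin 2) ℂ) (borel _)}
    (hμ : @Measure.IsHaarMeasure _ _ _ (borel _) μc)
    {n : HeightOneSpectrum (𝓞 K') → ℕ} {m : HeightOneSpectrum (𝓞 K) → ℕ}
    {φ₀ : ∀ w : HeightOneSpectrum (𝓞 K'), GL (Fin 2) (w.adicCompletion K') → ℂ}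
    {Φ : InfinitePlace K' → GL (Fin 2) ℂ → ℂ}
    {f₀ : ∀ v : HeightOneSpectrum (𝓞 K), GL (Fin 2) (v.adicCompletion K) → ℂ}
    {F : InfinitePlace K → GL (Fin 2) ℂ → ℂ}
    (h : ArchOk893 D μc n m φ₀ Φ f₀ F) (t' : InfinitePlace K' → ℝ) :
    ArchOk893 D μc n m φ₀ (shUp193 t' Φ) f₀ (shDn193 (fibSum193 (K := K) t') F) :=
  ⟨locHyp305_shift193 hl hcard hμ h.1 t',
    fun w k₁ k₂ _ h1 h2 => u2_shift_aux193 (h.2.1 w k₁ k₂ _ h1 h2),
    fun v k₁ k₂ _ h1 h2 => u2_shift_aux193 (h.2.2 v k₁ k₂ _ h1 h2)⟩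

/-- **`H893.LocB893b` is stable under the shifts.** -/
theorem locB893b_shift193 {B : L2Base K K'} (hl : 0 < B.l)
    (hcard : ∀ v : InfinitePlace K,
      Nat.card {w : InfinitePlace K' // w.comap (algebraMap K K') = v} = B.l)
    {g : G K'} {𝔫 : Ideal (𝓞 K)}
    {μc : @Measure (GL (Fin 2) ℂ) (borel _)}
    (hμ : @Measure.IsHaarMeasure _ _ _ (borel _) μc)
    {T₀ : Finset (HeightOneSpectrum (𝓞 K))}
    {n n₀ : HeightOneSpectrum (𝓞 K') → ℕ} {m : HeightOneSpectrum (𝓞 K) → ℕ}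
    {T : Finset (HeightOneSpectrum (𝓞 K))}
    {φ₀ : ∀ w : HeightOneSpectrum (𝓞 K'), GL (Fin 2) (w.adicCompletion K') → ℂ}
    {Φ : InfinitePlace K' → GL (Fin 2) ℂ → ℂ}
    {f₀ : ∀ v : HeightOneSpectrum (𝓞 K), GL (Fin 2) (v.adicCompletion K) → ℂ}
    {F : InfinitePlace K → GL (Fin 2) ℂ → ℂ}
    (h : LocB893b B g 𝔫 μc T₀ n n₀ m T φ₀ Φ f₀ F) (t' : InfinitePlace K' → ℝ) :
    LocB893b B g 𝔫 μc T₀ n n₀ m T φ₀ (shUp193 t' Φ) f₀
      (shDn193 (fibSum193 (K := K) t') F) :=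
  ⟨locHyp893_shift193 (D := B.comp 𝔫) hl hcard hμ h.1 t', h.2.1, h.2.2.1, h.2.2.2.1,
    h.2.2.2.2.1, archOk_shift193 (D := B.comp 𝔫) hl hcard hμ h.2.2.2.2.2 t'⟩

/-- `H893.LocB893` (v1) is stable under the shifts. -/
theorem locB893_shift193 {B : L2Base K K'} (hl : 0 < B.l)
    (hcard : ∀ v : InfinitePlace K,
      Nat.card {w : InfinitePlace K' // w.comap (algebraMap K K') = v} = B.l)
    {g : G K'} {𝔫 : Ideal (𝓞 K)}
    {μc : @Measure (GL (Fin 2) ℂ) (borel _)}
    (hμ : @Measure.IsHaarMeasure _ _ _ (borel _) μc)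
    {T₀ : Finset (HeightOneSpectrum (𝓞 K))}
    {n n₀ : HeightOneSpectrum (𝓞 K') → ℕ} {m : HeightOneSpectrum (𝓞 K) → ℕ}
    {T : Finset (HeightOneSpectrum (𝓞 K))}
    {φ₀ : ∀ w : HeightOneSpectrum (𝓞 K'), GL (Fin 2) (w.adicCompletion K') → ℂ}
    {Φ : InfinitePlace K' → GL (Fin 2) ℂ → ℂ}
    {f₀ : ∀ v : HeightOneSpectrum (𝓞 K), GL (Fin 2) (v.adicCompletion K) → ℂ}
    {F : InfinitePlace K → GL (Fin 2) ℂ → ℂ}
    (h : LocB893 B g 𝔫 μc T₀ n n₀ m T φ₀ Φ f₀ F) (t' : InfinitePlace K' → ℝ) :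
    LocB893 B g 𝔫 μc T₀ n n₀ m T φ₀ (shUp193 t' Φ) f₀
      (shDn193 (fibSum193 (K := K) t') F) :=
  ⟨locHyp305_shift193 (D := B.comp 𝔫) hl hcard hμ h.1 t', h.2.1, h.2.2.1, h.2.2.2.1,
    h.2.2.2.2.1, archOk_shift193 (D := B.comp 𝔫) hl hcard hμ h.2.2.2.2.2 t'⟩

end Stable

end Fermat.Agent.LT.T7.H193

end
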