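import Mathlib
import Fermat.Agent.LT.T7.H193.NatStepArch

/-!
# Row LT, tower T7, node T7.L2.1.H2a `BaseCb`, node PAIR-B: THE NATURAL-AVERAGE STEP, part B2
(the shape of the torus means; helper193)

OFF-MAIN.  Complete proofs, nothing assumed.  ADDITIVE (new names only, suffix `193`).

    isAvgPure_nat193 : IsRelTorus 𝔫 r r' a D a' D' → (L stable under the shifts) →
        IsAvgPure 𝔑 𝔫 T₀ L c φ' f → Continuous f →
        IsAvgPure 𝔑 𝔫 T₀ L c (nat193 a' D' φ') (nat193 a D f)

Parameter space: `closure D' × Ω` (compact), measure = (normalised Lebesgue on `D'`) `⊗ ν`;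
the member at `(s, ω)` is the translate by `a'(s)` upstairs and by `a(N s)` downstairs of the
member at `ω` = the pure tensor with the shifted components at infinity.
-/

set_option autoImplicit false
set_option linter.unusedSectionVars false
set_option linter.style.haveILetI false

open AutomorphicForm IsDedekindDomain NumberField MeasureTheory
open scoped ComplexConjugate

noncomputable section

namespace Fermat.Agent.LT.T7.H193

open Fermat.Agent.LT.H556 Fermat.Agent.LT.H556.A0 Fermat.Agent.LT Fermat.Agent.LT.T7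
open Fermat.Agent.LT.T7.H893 Fermat.Agent.LT.T7.H305

attribute [local instance] Fermat.Agent.LT.T5.instMeasurableSpaceG

/-! ## 1. Translates of pure tensors and of test functions -/

section OneField

variable {K : Type} [Field K] [NumberField K]

theorem finComp_one193 (v : HeightOneSpectrum (𝓞 K)) : finComp v (1 : G K) = 1 := by
  have h2 : finComp v (1 : G K) = (finGL305 v (1 : G K) : Matrix (Fin 2) (Fin 2) _) := rfl
  rw [h2, map_one]
  rfl

theorem trivAtFin_inv193 {v : HeightOneSpectrum (𝓞 K)} {z : G K} (hz : TrivAtFin v z) :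
    TrivAtFin v z⁻¹ := by
  have h := H517.finComp_mul517 v z z⁻¹
  rw [mul_inv_cancel, finComp_one193, show finComp v z = 1 from hz, one_mul] at h
  exact h.symm

theorem finGL_of_triv193 {v : HeightOneSpectrum (𝓞 K)} {z : G K} (hz : TrivAtFin v z) :
    finGL305 v z = 1 := by
  apply Units.ext
  show finComp v z = 1
  exact hz

theorem isIntegralAt_mul_triv193 {v : HeightOneSpectrum (𝓞 K)} {h z : G K}
    (hz : TrivAtFin v z) : IsIntegralAt v (h * z) ↔ IsIntegralAt v h := by
  unfold IsIntegralAt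
  rw [H517.finComp_mul517, show finComp v z = 1 from hz, mul_one]

theorem isIntegralAt_triv_mul193 {v : HeightOneSpectrum (𝓞 K)} {h z : G K}
    (hz : TrivAtFin v z) : IsIntegralAt v (z * h) ↔ IsIntegralAt v h := by
  unfold IsIntegralAt
  rw [H517.finComp_mul517, show finComp v z = 1 from hz, one_mul]

theorem outT_mul_triv193 {T : Finset (HeightOneSpectrum (𝓞 K))} {h z : G K}
    (hz : ∀ v : HeightOneSpectrum (𝓞 K), TrivAtFin v z) :
    OutT305 T (h * z) ↔ OutT305 T h := by
  unfold OutT305
  refine forall_congr' fun v => forall_congr' fun _ => ?_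
  rw [isIntegralAt_mul_triv193 (hz v), mul_inv_rev,
    isIntegralAt_triv_mul193 (trivAtFin_inv193 (hz v))]

/-- The component at infinity of `a t` is the positive scalar `exp (t w)`. -/
theorem infGL_torus193 {𝔑 : Ideal (𝓞 K)} {r : G K} {a : (InfinitePlace K → ℝ) → G K}
    {D : Set (InfinitePlace K → ℝ)} (hD : IsTorusData 𝔑 r a D) (t : InfinitePlace K → ℝ)
    (w : InfinitePlace K) : infGL305 w (a t) = scal193 (t w) := by
  apply Units.ext
  show infComp w (a t) = _
  rw [hD.inf, scal_val193]

/-- **The translate of a pure tensor by `a t` is the pure tensor with the shifted components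
at infinity.** -/
theorem pure_trl193 {𝔑 : Ideal (𝓞 K)} {r : G K} {a : (InfinitePlace K → ℝ) → G K}
    {D : Set (InfinitePlace K → ℝ)} (hD : IsTorusData 𝔑 r a D)
    (T : Finset (HeightOneSpectrum (𝓞 K)))
    (f₀ : ∀ v : HeightOneSpectrum (𝓞 K), GL (Fin 2) (v.adicCompletion K) → ℂ)
    (F : InfinitePlace K → GL (Fin 2) ℂ → ℂ) (t : InfinitePlace K → ℝ) (h : G K) :
    pure305 T f₀ (shDn193 t F) h = pure305 T f₀ F (h * (a t)⁻¹) := by
  classical
  have hz : ∀ v : HeightOneSpectrum (𝓞 K), TrivAtFin v (a t)⁻¹ := fun v =>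
    trivAtFin_inv193 (hD.fin t v)
  unfold pure305
  by_cases hO : OutT305 T h
  · rw [if_pos hO, if_pos ((outT_mul_triv193 hz).mpr hO)]
    congr 1
    · refine Finset.prod_congr rfl fun v _ => ?_
      rw [map_mul, finGL_of_triv193 (hz v), mul_one]
    · refine Finset.prod_congr rfl fun w _ => ?_
      show F w (infGL305 w h * scal193 (-(t w))) = F w (infGL305 w (h * (a t)⁻¹))
      rw [map_mul, map_inv, infGL_torus193 hD, scal_neg193]
  · rw [if_neg hO, if_neg (fun h' => hO ((outT_mul_triv193 hz).mp h'))]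

/-- The translate of a test function by a central element which is trivial at the finite places
is a test function. -/
theorem isTestFn_trl193 {𝔑 : Ideal (𝓞 K)} {φ : G K → ℂ} (hφ : T5.IsTestFn 𝔑 T5.trivType φ)
    {z : G K} (hc : ∀ g : G K, z * g = g * z) :
    T5.IsTestFn 𝔑 T5.trivType (trl193 z φ) := by
  have hci : ∀ g : G K, g * z⁻¹ = z⁻¹ * g := fun g => H496.inv_central496 hc g
  refine ⟨hφ.ktype, hφ.cont.comp (continuous_id.mul continuous_const),
    hφ.supp.comp_homeomorph (Homeomorph.mulRight z⁻¹), ?_, ⟨?_, ?_, ?_, ?_⟩⟩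
  · intro n h hfin hinf g
    have e : (fun t => trl193 z φ (g * h t)) = fun t => φ (g * z⁻¹ * h t) := by
      funext t
      show φ (g * h t * z⁻¹) = _
      rw [mul_assoc, hci (h t), ← mul_assoc]
    rw [e]
    exact hφ.smooth n h hfin hinf (g * z⁻¹)
  · intro u hu g
    show φ (g * u * z⁻¹) = φ (g * z⁻¹)
    rw [mul_assoc, hci u, ← mul_assoc]
    exact hφ.inv.level_right u hu _
  · intro u hu g
    show φ (u * g * z⁻¹) = φ (g * z⁻¹)
    rw [mul_assoc]
    exact hφ.inv.level_left u hu _
  · intro w k hk g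
    show φ (g * k * z⁻¹) = _ * φ (g * z⁻¹)
    rw [mul_assoc, hci k, ← mul_assoc]
    exact hφ.inv.arch_right w k hk _
  · intro w k hk g
    show φ (k * g * z⁻¹) = _ * φ (g * z⁻¹)
    rw [mul_assoc]
    exact hφ.inv.arch_left w k hk _

end OneField

/-! ## 2. The parameter space -/

section Param

variable {ι : Type} [Fintype ι]

/-- The normalised Lebesgue measure of `D`, as a measure on the compact space `closure D`. -/
def nuPar193 (D : Set (ι → ℝ)) : Measure (closure D) :=
  Measure.comap (Subtype.val : closure D → (ι → ℝ)) ((volume D)⁻¹ • volume.restrict D)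

theorem isFiniteMeasure_nuPar193 {D : Set (ι → ℝ)} (hb : Bornology.IsBounded D)
    (hp : 0 < volume D) : IsFiniteMeasure (nuPar193 D) := by
  haveI : IsFiniteMeasure (volume.restrict D) :=
    ⟨by rw [Measure.restrict_apply_univ]; exact hb.measure_lt_top⟩
  haveI : IsFiniteMeasure ((volume D)⁻¹ • volume.restrict D) :=
    Measure.smul_finite _ (ENNReal.inv_ne_top.mpr hp.ne')
  refine ⟨?_⟩
  unfold nuPar193
  rw [(MeasurableEmbedding.subtype_coe measurableSet_closure).comap_apply]
  exact measure_lt_top _ _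

theorem integral_nuPar193 {D : Set (ι → ℝ)} (g : (ι → ℝ) → ℂ) :
    ∫ s : closure D, g (s : ι → ℝ) ∂(nuPar193 D)
      = (((volume D).toReal : ℝ) : ℂ)⁻¹ * ∫ t in D, g t := by
  unfold nuPar193
  rw [integral_subtype_comap measurableSet_closure, Measure.restrict_smul,
    Measure.restrict_restrict measurableSet_closure,
    Set.inter_eq_self_of_subset_right subset_closure, integral_smul_measure,
    ENNReal.toReal_inv, Complex.real_smul, Complex.ofReal_inv]

theorem compactSpace_closure193 {D : Set (ι → ℝ)} (hb : Bornology.IsBounded D) :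
    CompactSpace (closure D) :=
  isCompact_iff_compactSpace.mp hb.isCompact_closure

end Param

/-! ## 3. The shape of the torus means -/

section Shape

variable {K K' : Type} [Field K] [NumberField K] [Field K'] [NumberField K'] [Algebra K K']

theorem continuous_fibSum193 :
    Continuous (fibSum193 (K := K) : (InfinitePlace K' → ℝ) → InfinitePlace K → ℝ) := by
  classical
  unfold fibSum193
  refine continuous_pi fun v => continuous_finsetSum _ fun w _ => ?_
  by_cases h : w.comap (algebraMap K K') = v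
  · simp only [if_pos h]
    exact continuous_apply w
  · simp only [if_neg h]
    exact continuous_const

/-- A continuous function on a compact space with a finite measure is integrable. -/
theorem integrable_of_compact193 {X : Type} [TopologicalSpace X] [CompactSpace X]
    [MeasurableSpace X] [BorelSpace X] (μ : Measure X) [IsFiniteMeasure μ] {g : X → ℂ}
    (hg : Continuous g) : Integrable g μ :=
  hg.integrable_of_hasCompactSupport (HasCompactSupport.of_compactSpace g)

/-- **THE SHAPE OF THE TORUS MEANS.**  For compatible torus data and a local condition which is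
stable under the shifts, the torus means of a pair with the shape `IsAvgPure` have the shape
`IsAvgPure` (same local condition, same constant). -/
theorem isAvgPure_nat193 {𝔫 : Ideal (𝓞 K)} {r : G K} {r' : G K'}
    {a : (InfinitePlace K → ℝ) → G K} {D : Set (InfinitePlace K → ℝ)}
    {a' : (InfinitePlace K' → ℝ) → G K'} {D' : Set (InfinitePlace K' → ℝ)}
    (hrel : IsRelTorus 𝔫 r r' a D a' D')
    {𝔑₁ : Ideal (𝓞 K')} {𝔫₁ : Ideal (𝓞 K)} {T₀ : Finset (HeightOneSpectrum (𝓞 K))}
    {L : LocCond K K'}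
    (hL : ∀ (T : Finset (HeightOneSpectrum (𝓞 K)))
      (φ₀ : ∀ w : HeightOneSpectrum (𝓞 K'), GL (Fin 2) (w.adicCompletion K') → ℂ)
      (Φ : InfinitePlace K' → GL (Fin 2) ℂ → ℂ)
      (f₀ : ∀ v : HeightOneSpectrum (𝓞 K), GL (Fin 2) (v.adicCompletion K) → ℂ)
      (F : InfinitePlace K → GL (Fin 2) ℂ → ℂ), L T φ₀ Φ f₀ F →
      ∀ t' : InfinitePlace K' → ℝ,
        L T φ₀ (shUp193 t' Φ) f₀ (shDn193 (fibSum193 (K := K) t') F))
    {c : ℂ} {φ' : G K' → ℂ} {f : G K → ℂ} (hf : Continuous f)
    (h : IsAvgPure 𝔑₁ 𝔫₁ T₀ L c φ' f) :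
    IsAvgPure 𝔑₁ 𝔫₁ T₀ L c (nat193 a' D' φ') (nat193 a D f) := by
  obtain ⟨Ω, iT, iC, iT2, iSC, iM, iB, ν, iF, T, T', φ₀, Φ, f₀, F, h1, h2, h3, h4, h5,
    ⟨C', hC', hC'm⟩, ⟨C, hC, hCm⟩, h8, h9⟩ := h
  have hK : IsCompact (closure D') := hrel.up.bdd.isCompact_closure
  haveI : CompactSpace (closure D') := compactSpace_closure193 hrel.up.bdd
  haveI : IsFiniteMeasure (nuPar193 D') := isFiniteMeasure_nuPar193 hrel.up.bdd hrel.up.pos
  -- the translates
  have eU : ∀ (ω : Ω) (s : InfinitePlace K' → ℝ) (x : G K'),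
      pure305 (T' ω) (φ₀ ω) (shUp193 s (Φ ω)) x
        = pure305 (T' ω) (φ₀ ω) (Φ ω) (x * (a' s)⁻¹) := fun ω s x =>
    pure_trl193 hrel.up (T' ω) (φ₀ ω) (Φ ω) s x
  have eD : ∀ (ω : Ω) (s : InfinitePlace K → ℝ) (x : G K),
      pure305 (T ω) (f₀ ω) (shDn193 s (F ω)) x
        = pure305 (T ω) (f₀ ω) (F ω) (x * (a s)⁻¹) := fun ω s x =>
    pure_trl193 hrel.down (T ω) (f₀ ω) (F ω) s x
  -- joint continuity
  have cU : Continuous (fun q : (closure D' × Ω) × G K' =>
      pure305 (T' q.1.2) (φ₀ q.1.2) (shUp193 (q.1.1 : InfinitePlace K' → ℝ) (Φ q.1.2)) q.2) := by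
    have e : (fun q : (closure D' × Ω) × G K' =>
        pure305 (T' q.1.2) (φ₀ q.1.2) (shUp193 (q.1.1 : InfinitePlace K' → ℝ) (Φ q.1.2)) q.2)
        = (fun p : Ω × G K' => pure305 (T' p.1) (φ₀ p.1) (Φ p.1) p.2) ∘
          (fun q : (closure D' × Ω) × G K' =>
            (q.1.2, q.2 * (a' (q.1.1 : InfinitePlace K' → ℝ))⁻¹)) := by
      funext q
      exact eU _ _ _
    rw [e]
    refine h4.comp ?_
    exact (continuous_fst.snd).prodMk
      (continuous_snd.mul (hrel.up.cont.comp (continuous_subtype_val.comp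
        continuous_fst.fst)).inv)
  have cD : Continuous (fun q : (closure D' × Ω) × G K =>
      c * pure305 (T q.1.2) (f₀ q.1.2)
        (shDn193 (fibSum193 (K := K) (q.1.1 : InfinitePlace K' → ℝ)) (F q.1.2)) q.2) := by
    have e : (fun q : (closure D' × Ω) × G K =>
        c * pure305 (T q.1.2) (f₀ q.1.2)
          (shDn193 (fibSum193 (K := K) (q.1.1 : InfinitePlace K' → ℝ)) (F q.1.2)) q.2)
        = (fun p : Ω × G K => c * pure305 (T p.1) (f₀ p.1) (F p.1) p.2) ∘
          (fun q : (closure D' × Ω) × G K =>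
            (q.1.2, q.2 * (a (fibSum193 (K := K) (q.1.1 : InfinitePlace K' → ℝ)))⁻¹)) := by
      funext q
      show c * _ = c * _
      rw [eD]
    rw [e]
    refine h5.comp ?_
    exact (continuous_fst.snd).prodMk
      (continuous_snd.mul (hrel.down.cont.comp (continuous_fibSum193.comp
        (continuous_subtype_val.comp continuous_fst.fst))).inv)
  refine ⟨closure D' × Ω, inferInstance, inferInstance, inferInstance, inferInstance,
    inferInstance, inferInstance, (nuPar193 D').prod ν, inferInstance,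
    fun p => T p.2, fun p => T' p.2, fun p => φ₀ p.2,
    fun p => shUp193 (p.1 : InfinitePlace K' → ℝ) (Φ p.2), fun p => f₀ p.2,
    fun p => shDn193 (fibSum193 (K := K) (p.1 : InfinitePlace K' → ℝ)) (F p.2),
    ?_, ?_, ?_, cU, cD, ?_, ?_, ?_, ?_⟩
  · intro p
    exact ⟨(h1 p.2).1, (h1 p.2).2.1, hL _ _ _ _ _ (h1 p.2).2.2 _⟩
  · intro p
    have e : pure305 (T' p.2) (φ₀ p.2) (shUp193 (p.1 : InfinitePlace K' → ℝ) (Φ p.2))
        = trl193 (a' (p.1 : InfinitePlace K' → ℝ)) (pure305 (T' p.2) (φ₀ p.2) (Φ p.2)) :=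
      funext fun x => eU _ _ _
    rw [e]
    exact isTestFn_trl193 (h2 p.2) (hrel.up.central _)
  · intro p
    have e : (fun x => c * pure305 (T p.2) (f₀ p.2)
          (shDn193 (fibSum193 (K := K) (p.1 : InfinitePlace K' → ℝ)) (F p.2)) x)
        = trl193 (a (fibSum193 (K := K) (p.1 : InfinitePlace K' → ℝ)))
          (fun x => c * pure305 (T p.2) (f₀ p.2) (F p.2) x) := by
      funext x
      show c * _ = c * _
      rw [eD]
    rw [e]
    exact isTestFn_trl193 (h3 p.2) (hrel.down.central _)
  · refine ⟨(fun q : G K' × (InfinitePlace K' → ℝ) => q.1 * a' q.2) '' (C' ×ˢ closure D'),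
      (hC'.prod hK).image (continuous_fst.mul (hrel.up.cont.comp continuous_snd)), ?_⟩
    intro p x hx
    rw [eU] at hx
    refine ⟨(x * (a' (p.1 : InfinitePlace K' → ℝ))⁻¹, (p.1 : InfinitePlace K' → ℝ)),
      ⟨hC'm p.2 _ hx, p.1.2⟩, ?_⟩
    show x * (a' (p.1 : InfinitePlace K' → ℝ))⁻¹ * a' (p.1 : InfinitePlace K' → ℝ) = x
    rw [inv_mul_cancel_right]
  · refine ⟨(fun q : G K × (InfinitePlace K' → ℝ) => q.1 * a (fibSum193 (K := K) q.2)) ''
        (C ×ˢ closure D'),
      (hC.prod hK).image (continuous_fst.mul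
        (hrel.down.cont.comp (continuous_fibSum193.comp continuous_snd))), ?_⟩
    intro p x hx
    rw [eD] at hx
    refine ⟨(x * (a (fibSum193 (K := K) (p.1 : InfinitePlace K' → ℝ)))⁻¹,
        (p.1 : InfinitePlace K' → ℝ)), ⟨hCm p.2 _ hx, p.1.2⟩, ?_⟩
    show x * (a (fibSum193 (K := K) (p.1 : InfinitePlace K' → ℝ)))⁻¹
      * a (fibSum193 (K := K) (p.1 : InfinitePlace K' → ℝ)) = x
    rw [inv_mul_cancel_right]
  · intro x
    have hint : Integrable (fun p : closure D' × Ω =>
        pure305 (T' p.2) (φ₀ p.2) (shUp193 (p.1 : InfinitePlace K' → ℝ) (Φ p.2)) x)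
        ((nuPar193 D').prod ν) :=
      integrable_of_compact193 _ (cU.comp (continuous_id.prodMk continuous_const))
    rw [integral_prod _ hint]
    have e : (fun s : closure D' => ∫ ω, pure305 (T' ω) (φ₀ ω)
          (shUp193 (s : InfinitePlace K' → ℝ) (Φ ω)) x ∂ν)
        = fun s : closure D' => φ' (x * (a' (s : InfinitePlace K' → ℝ))⁻¹) := by
      funext s
      rw [h8]
      refine integral_congr_ae (Filter.Eventually.of_forall fun ω => ?_)
      exact eU _ _ _
    rw [e, integral_nuPar193 (fun t => φ' (x * (a' t)⁻¹))]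
    rfl
  · intro x
    have hint : Integrable (fun p : closure D' × Ω =>
        c * pure305 (T p.2) (f₀ p.2)
          (shDn193 (fibSum193 (K := K) (p.1 : InfinitePlace K' → ℝ)) (F p.2)) x)
        ((nuPar193 D').prod ν) :=
      integrable_of_compact193 _ (cD.comp (continuous_id.prodMk continuous_const))
    rw [integral_prod _ hint]
    have e : (fun s : closure D' => ∫ ω, c * pure305 (T ω) (f₀ ω)
          (shDn193 (fibSum193 (K := K) (s : InfinitePlace K' → ℝ)) (F ω)) x ∂ν)
        = fun s : closure D' =>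
          f (x * (a (fibSum193 (K := K) (s : InfinitePlace K' → ℝ)))⁻¹) := by
      funext s
      rw [h9]
      refine integral_congr_ae (Filter.Eventually.of_forall fun ω => ?_)
      show c * _ = c * _
      rw [eD]
    rw [e, integral_nuPar193 (fun t => f (x * (a (fibSum193 (K := K) t))⁻¹)),
      nat_eq_push193 hrel hf x]
    rfl

end Shape

end Fermat.Agent.LT.T7.H193

end
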