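import Mathlib
import Fermat.Agent.LT.T7.H193.NatStepShape
import Fermat.Agent.LT.T7.H193.NatMatchClosed
import Fermat.Agent.LT.T7.Q797.BaseCutTop2

/-!
# Row LT, tower T7, node T7.L2.1.H2a `BaseCb`, node PAIR-B (row 2729): THE NATURAL-AVERAGE STEP
(helper193)

OFF-MAIN.  Complete proofs, nothing assumed (hypotheses: the outputs `T1.T1Out K`, `T1.T1Out K'`
of the closed tower T1).  ADDITIVE (new names only, suffix `193`).

    pairBCb_of_pairB0C193 : T1.T1Out K → T1.T1Out K' →
        PairB0C193 P K K' LocB893b → Q797.PairBC797 P K K' LocB893b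

`PairB0C193 P K K' LB` = the node `Q797.PairBC797 P K K' LB` of helper797 WITHOUT THE KILLING
FIELDS (`up2_kill`, `dn2_kill`): a level `𝔫`, a Haar measure `μc` and, for every constant
`a ≠ 0`, a scalar `c₂` and a KILL-FREE pair `(φ₀, f₀)` (`IsPairB0_193`).  So the owner of the node
PAIR-B has to construct an Eisenstein-killing pair with the local shape, the operator
properties and the supports -- NO torus, NO natural average, NO killing.

The step: `φ₂ = nat193 a' D' φ₀`, `f₂ = nat193 a D f₀` for the COMPATIBLE torus data of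
`relTorus_closed193` (`N(D') = D`, `N_*` normalised Lebesgue = normalised Lebesgue).
* the operator properties and the killing: `isPairB_of_pairB0_193` (`NatStepOps.lean`,
  `killing_of_torus193`);
* the shape: `isAvgPure_nat193` (`NatStepShape.lean`; parameter space `closure D' × Ω`, the
  member at `(s, ω)` is the pure tensor with the components at infinity shifted by the
  components of `a'(s)⁻¹` resp. `a(N s)⁻¹`);
* the local conditions are stable under the shifts: `locB893b_shift193` (`NatStepArch.lean`;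
  the iterated convolution of shifted functions is the shift of the iterated convolution by the
  product, and the sum of `s` over an enumeration of the fibre of `v` is `(N s)_v`: `FibCardC`).
-/

set_option autoImplicit false
set_option linter.unusedSectionVars false

open AutomorphicForm IsDedekindDomain NumberField MeasureTheory
open scoped ComplexConjugate

noncomputable section

namespace Fermat.Agent.LT.T7.H193

open Fermat.Agent.LT.H556 Fermat.Agent.LT.H556.A0 Fermat.Agent.LT Fermat.Agent.LT.T7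
open Fermat.Agent.LT.T7.H893 Fermat.Agent.LT.T7.H305

attribute [local instance] Fermat.Agent.LT.T5.instMeasurableSpaceG

section Nodes

variable (P : EKCond)
variable (K K' : Type) [Field K] [NumberField K] [Field K'] [NumberField K'] [Algebra K K']

/-- **NODE PAIR-B0 = the KILL-FREE second pair** (T3 + T6; no torus, no natural average):
the node `Q797.PairBC797` without the killing fields. -/
def PairB0C193 (LB : Q797.ShapeB797 K K') : Prop :=
  ∀ ℓ : ℕ, IsCycExt K K' ℓ → ℓ ≠ 2 → TotCplx K →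
    ∀ Φ : HeckeEigensystem K' ℂ, A0.IsCuspAdelicSph0 K' Φ → ConstOnFibres K Φ → P K' Φ →
      ∀ B : L2Base K K', IsL2Base ℓ Φ B → B.RamIn → ∀ g : G K', B.IsBad g →
        ∃ (𝔫 : Ideal (𝓞 K)) (μc : @Measure (GL (Fin 2) ℂ) (borel _)),
          Q797.IsLevel797 B 𝔫 ∧ @Measure.IsHaarMeasure _ _ _ (borel _) μc ∧
          ∀ (T₀ : Finset (HeightOneSpectrum (𝓞 K)))
            (n n₀ : HeightOneSpectrum (𝓞 K') → ℕ) (m : HeightOneSpectrum (𝓞 K) → ℕ),
            Q797.IsExp797 B 𝔫 T₀ n n₀ m →
            ∀ a : ℂ, a ≠ 0 →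
              ∃ (c₂ : EigData K' → ℂ) (φ₀ : G K' → ℂ) (f₀ : G K → ℂ),
                IsPairB0_193 LB ℓ Φ B g 𝔫 μc T₀ n n₀ m a c₂ φ₀ f₀

/-- The local shape `LB` is stable under the shifts of the components at infinity by the
components of `a'(t')⁻¹` upstairs and of `a(N t')⁻¹` downstairs. -/
def IsShiftStable193 (LB : Q797.ShapeB797 K K') : Prop :=
  ∀ ℓ : ℕ, IsCycExt K K' ℓ → TotCplx K →
    ∀ (Φ : HeckeEigensystem K' ℂ) (B : L2Base K K'), IsL2Base ℓ Φ B →
    ∀ (g : G K') (𝔫 : Ideal (𝓞 K)) (μc : @Measure (GL (Fin 2) ℂ) (borel _)),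
      @Measure.IsHaarMeasure _ _ _ (borel _) μc →
    ∀ (T₀ : Finset (HeightOneSpectrum (𝓞 K)))
      (n n₀ : HeightOneSpectrum (𝓞 K') → ℕ) (m : HeightOneSpectrum (𝓞 K) → ℕ)
      (T : Finset (HeightOneSpectrum (𝓞 K)))
      (φ₀ : ∀ w : HeightOneSpectrum (𝓞 K'), GL (Fin 2) (w.adicCompletion K') → ℂ)
      (Φ' : InfinitePlace K' → GL (Fin 2) ℂ → ℂ)
      (f₀ : ∀ v : HeightOneSpectrum (𝓞 K), GL (Fin 2) (v.adicCompletion K) → ℂ)
      (F : InfinitePlace K → GL (Fin 2) ℂ → ℂ),
      LB B g 𝔫 μc T₀ n n₀ m T φ₀ Φ' f₀ F →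
      ∀ t' : InfinitePlace K' → ℝ,
        LB B g 𝔫 μc T₀ n n₀ m T φ₀ (shUp193 t' Φ') f₀ (shDn193 (fibSum193 (K := K) t') F)

end Nodes

section Top

variable {P : EKCond}
variable {K K' : Type} [Field K] [NumberField K] [Field K'] [NumberField K'] [Algebra K K']

/-- **THE NATURAL-AVERAGE STEP** for a general local shape. -/
theorem pairBC_of_pairB0C193 (hT1 : T1.T1Out K) (hT1' : T1.T1Out K')
    (hRT : RelTorusC K K') {LB : Q797.ShapeB797 K K'} (hLB : IsShiftStable193 K K' LB)
    (h0 : PairB0C193 P K K' LB) : Q797.PairBC797 P K K' LB := by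
  intro ℓ hcyc hℓ htot Φ hΦ hconst hP B hB hram g hg
  obtain ⟨𝔫, μc, hlev, hμ, H⟩ := h0 ℓ hcyc hℓ htot Φ hΦ hconst hP B hB hram g hg
  obtain ⟨aa, D, aa', D', hrel⟩ :=
    hRT ℓ hcyc htot 𝔫 hlev.level_ne B.R.r B.R'.r hB.frame.ray hB.frame'.ray
  refine ⟨𝔫, μc, hlev, hμ, fun T₀ n n₀ m hexp a ha => ?_⟩
  obtain ⟨c₂, φ₀, f₀, hp⟩ := H T₀ n n₀ m hexp a ha
  refine ⟨c₂, nat193 aa' D' φ₀, nat193 aa D f₀,
    isPairB_of_pairB0_193 hT1 hT1' hB hlev hrel.down hrel.up hp ?_⟩
  exact isAvgPure_nat193 hrel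
    (fun T φ₀' Φ' f₀' F hL t' =>
      hLB ℓ hcyc htot Φ B hB g 𝔫 μc hμ T₀ n n₀ m T φ₀' Φ' f₀' F hL t')
    hp.dn_test.cont hp.shape

/-- The local shape of record v2 is stable under the shifts. -/
theorem isShiftStable_locB893b193 : IsShiftStable193 K K' (LocB893b (K := K) (K' := K')) := by
  intro ℓ hcyc htot Φ B hB g 𝔫 μc hμ T₀ n n₀ m T φ₀ Φ' f₀ F h t'
  have hl : 0 < B.l := by
    rw [hB.deg]
    exact hcyc.prime.pos
  have hcard : ∀ v : InfinitePlace K,
      Nat.card {w : InfinitePlace K' // w.comap (algebraMap K K') = v} = B.l := by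
    intro v
    rw [hB.deg]
    exact H560.fibCardC560 K K' ℓ hcyc htot v
  exact locB893b_shift193 hl hcard hμ h t'

/-- The local shape of record v1 is stable under the shifts. -/
theorem isShiftStable_locB893_193 : IsShiftStable193 K K' (LocB893 (K := K) (K' := K')) := by
  intro ℓ hcyc htot Φ B hB g 𝔫 μc hμ T₀ n n₀ m T φ₀ Φ' f₀ F h t'
  have hl : 0 < B.l := by
    rw [hB.deg]
    exact hcyc.prime.pos
  have hcard : ∀ v : InfinitePlace K,
      Nat.card {w : InfinitePlace K' // w.comap (algebraMap K K') = v} = B.l := by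
    intro v
    rw [hB.deg]
    exact H560.fibCardC560 K K' ℓ hcyc htot v
  exact locB893_shift193 hl hcard hμ h t'

/-- **THE NATURAL-AVERAGE STEP for the form of record v2** (`H893.LocB893b`): the node PAIR-B of
helper797 from the KILL-FREE pair. -/
theorem pairBCb_of_pairB0C193 (hT1 : T1.T1Out K) (hT1' : T1.T1Out K')
    (h0 : PairB0C193 P K K' LocB893b) : Q797.PairBC797 P K K' LocB893b :=
  pairBC_of_pairB0C193 hT1 hT1' (relTorus_closed193 K K') isShiftStable_locB893b193 h0

/-- The same for the shape v1 (`H893.LocB893`). -/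
theorem pairBC1_of_pairB0C193 (hT1 : T1.T1Out K) (hT1' : T1.T1Out K')
    (h0 : PairB0C193 P K K' LocB893) : Q797.PairBC797 P K K' LocB893 :=
  pairBC_of_pairB0C193 hT1 hT1' (relTorus_closed193 K K') isShiftStable_locB893_193 h0

/-- **`H893.BaseCb` from the first pair and the KILL-FREE second pair** (top of helper797). -/
theorem baseCb_of_pairB0C193 (hT1 : T1.T1Out K) (hT1' : T1.T1Out K')
    (hE : Q797.ExpC797 K K') (hCo : Q797.CosetC797 K K')
    (hA : Q797.PairAC797 P K K' LocA893) (h0 : PairB0C193 P K K' LocB893b) :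
    BaseCb P K K' :=
  Q797.baseCb_of797 hE hCo hA (pairBCb_of_pairB0C193 hT1 hT1' h0)

end Top

/-! ## Appendix: the equation lemmas of the definitions of this station are realised HERE -/

theorem eqns_realised_natStep193 : True := by
  have _h0 := @PairB0C193.eq_1
  have _h1 := @PairB0C193.eq_def
  have _h2 := @PairB0C193.eq_unfold
  have _h3 := @IsShiftStable193.eq_1
  have _h4 := @IsShiftStable193.eq_def
  have _h5 := @IsShiftStable193.eq_unfold
  trivial

end Fermat.Agent.LT.T7.H193

end
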