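import Mathlib
import Fermat.Agent.LT.T1.Closed
import Fermat.Agent.LT.T7.H193.NatStep
import Fermat.Agent.LT.T7.H57.PairBTop
import Fermat.Agent.LT.T7.H115.NatUp
import Fermat.Agent.LT.T7.H115.NatDn
import Fermat.Agent.LT.T7.H75.NatShape

/-!
# Row LT, tower T7, node T7.L2.1.H2a.B `Q797.PairBC797` (registry row 2729): INTEGRATION of the
# natural-average step (helper193, owner of the row; cut of record = helper57 `PairBSpec.lean`)

OFF-MAIN.  Complete proofs, nothing assumed, UNCONDITIONAL.  Byte-identical copies of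
`T7/H57/PairB{Spec,Top}.lean` (helper57), `T7/H115/Nat{Up,Dn}.lean` (helper115),
`T7/H75/NatShape*.lean` (helper75), `T1/Closed.lean` (helper54, master bytes).

    pairBCb_of_preBC193 : PB57.PreBC57 P K K' LocB893b → Q797.PairBC797 P K K' LocB893b
    pairB0C_iff_preBC193 : PairB0C193 P K K' LB ↔ PB57.PreBC57 P K K' LB
    pairBCb_of_pairB0C_closed193 : PairB0C193 P K K' LocB893b → Q797.PairBC797 P K K' LocB893b

So the ONLY open item of the node PAIR-B is the node `PB57.PreBC57 P K K' LocB893b`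
(= `PairB0C193`): the UN-AVERAGED, KILL-FREE second pair.
-/

set_option autoImplicit false
set_option linter.unusedSectionVars false

open AutomorphicForm IsDedekindDomain NumberField MeasureTheory
open scoped ComplexConjugate

noncomputable section

namespace Fermat.Agent.LT.T7.H193

open Fermat.Agent.LT.H556 Fermat.Agent.LT.H556.A0 Fermat.Agent.LT Fermat.Agent.LT.T7
open Fermat.Agent.LT.T7.H893 Fermat.Agent.LT.T7.H305

attribute [local instance] Fermat.Agent.LT.T5.instMeasurableSpaceG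

variable {P : EKCond}
variable {K K' : Type} [Field K] [NumberField K] [Field K'] [NumberField K'] [Algebra K K']

/-- The kill-free pair of this station IS the un-averaged pair of helper57. -/
theorem isPairB0_iff_isPreB193 {LB : Q797.ShapeB797 K K'} {ℓ : ℕ} {Φ : HeckeEigensystem K' ℂ}
    {B : L2Base K K'} {g : G K'} {𝔫 : Ideal (𝓞 K)}
    {μc : @Measure (GL (Fin 2) ℂ) (borel _)} {T₀ : Finset (HeightOneSpectrum (𝓞 K))}
    {n n₀ : HeightOneSpectrum (𝓞 K') → ℕ} {m : HeightOneSpectrum (𝓞 K) → ℕ} {a : ℂ}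
    {c₂ : EigData K' → ℂ} {φ₀ : G K' → ℂ} {f₀ : G K → ℂ} :
    IsPairB0_193 LB ℓ Φ B g 𝔫 μc T₀ n n₀ m a c₂ φ₀ f₀
      ↔ PB57.IsPreB57 LB ℓ Φ B g 𝔫 μc T₀ n n₀ m a c₂ φ₀ f₀ :=
  ⟨fun h => ⟨h.up_test, h.up_ek, h.up_inv, h.up_op, h.up_ne, h.dn_test, h.dn_ek, h.dn_inv,
      h.dn_wfn, h.dn_class, h.dn_comm, h.up_supp, h.dn_supp, h.shape⟩,
    fun h => ⟨h.up_test, h.up_ek, h.up_inv, h.up_op, h.up_ne, h.dn_test, h.dn_ek, h.dn_inv,
      h.dn_wfn, h.dn_class, h.dn_comm, h.up_supp, h.dn_supp, h.shape⟩⟩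

/-- The two forms of the node of the un-averaged pair agree. -/
theorem pairB0C_iff_preBC193 {LB : Q797.ShapeB797 K K'} :
    PairB0C193 P K K' LB ↔ PB57.PreBC57 P K K' LB := by
  constructor
  · intro h ℓ hcyc hℓ htot Φ hΦ hconst hP B hB hram g hg
    obtain ⟨𝔫, μc, hlev, hμ, H⟩ := h ℓ hcyc hℓ htot Φ hΦ hconst hP B hB hram g hg
    refine ⟨𝔫, μc, hlev, hμ, fun T₀ n n₀ m hexp a ha => ?_⟩
    obtain ⟨c₂, φ₀, f₀, hp⟩ := H T₀ n n₀ m hexp a ha
    exact ⟨c₂, φ₀, f₀, isPairB0_iff_isPreB193.mp hp⟩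
  · intro h ℓ hcyc hℓ htot Φ hΦ hconst hP B hB hram g hg
    obtain ⟨𝔫, μc, hlev, hμ, H⟩ := h ℓ hcyc hℓ htot Φ hΦ hconst hP B hB hram g hg
    refine ⟨𝔫, μc, hlev, hμ, fun T₀ n n₀ m hexp a ha => ?_⟩
    obtain ⟨c₂, φ₀, f₀, hp⟩ := H T₀ n n₀ m hexp a ha
    exact ⟨c₂, φ₀, f₀, isPairB0_iff_isPreB193.mpr hp⟩

/-- **THE NODE PAIR-B (form of record v2) FROM THE UN-AVERAGED PAIR**, UNCONDITIONAL
(this station: `pairBCb_of_pairB0C193` with the closed tower T1). -/
theorem pairBCb_of_pairB0C_closed193 (h0 : PairB0C193 P K K' LocB893b) :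
    Q797.PairBC797 P K K' LocB893b :=
  pairBCb_of_pairB0C193 (T1.t1Out K) (T1.t1Out K') h0

/-- **THE NODE PAIR-B (form of record v2) FROM THE NODE `PreBC57` OF helper57**,
UNCONDITIONAL. -/
theorem pairBCb_of_preBC193 (h0 : PB57.PreBC57 P K K' LocB893b) :
    Q797.PairBC797 P K K' LocB893b :=
  pairBCb_of_pairB0C_closed193 (pairB0C_iff_preBC193.mpr h0)

/-- The same through the top and the leaves of the cut of helper57 (leaves: helper115,
helper75). -/
theorem pairBCb_of_preBC_leaves193 (h0 : PB57.PreBC57 P K K' LocB893b) :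
    Q797.PairBC797 P K K' LocB893b :=
  PB57.pairBC_of57 (relTorus_closed193 K K') h0 (H115.natUpC115 K K' _)
    (H115.natDnC115 K K' _) (H75.NS.natShapeC75 K K')

/-- **`H893.BaseCb` from the first pair and the un-averaged second pair.** -/
theorem baseCb_of_preBC193 (hE : Q797.ExpC797 K K') (hCo : Q797.CosetC797 K K')
    (hA : Q797.PairAC797 P K K' LocA893) (h0 : PB57.PreBC57 P K K' LocB893b) :
    BaseCb P K K' :=
  Q797.baseCb_of797 hE hCo hA (pairBCb_of_preBC193 h0)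

end Fermat.Agent.LT.T7.H193

end
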